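import Fermat.Agent.MW.Plucker
import Mathlib.RingTheory.MvPolynomial.Homogeneous

/-!
# The closed cone of Plücker arrays of Riemann–Roch spaces

For large `m` and `B`, a nonzero array satisfying the alternation equations and the rank equations
for the products with `L(B O)` spans a space `L(m O - D)` with `deg D = d`.
-/

set_option autoImplicit false

noncomputable section

open AlgebraicCurve Module FermatAgent.Curve FermatAgent.Curve.Jac MvPolynomial

namespace FermatAgent.MW

variable {K F : Type*} [Field K] [Field F] [Algebra K F] [IsFF K F]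
variable (O : Place K F)

/-- Coordinates of the products of the slices with the basis of `L(B O)`. -/
def prodEntry (m B : ℕ) {n : ℕ} (x : (Fin (n + 1) → Fin (lsDim O m)) → K)
    (p : (Fin n → Fin (lsDim O m)) × Fin (lsDim O B)) (k : Fin (lsDim O (m + B))) : K :=
  ∑ j, x (Fin.cons j p.1) * coord O (m + B) (phi O m j * phi O B p.2) k

/-- The equations of the cone. -/
def IsGood (m B N : ℕ) {n : ℕ} (x : (Fin (n + 1) → Fin (lsDim O m)) → K) : Prop :=
  (∀ J (σ : Equiv.Perm (Fin (n + 1))), x (J ∘ σ) = (Equiv.Perm.sign σ : ℤ) * x J) ∧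
  ∀ (I : Fin (N + 1) → (Fin n → Fin (lsDim O m)) × Fin (lsDim O B))
    (J : Fin (N + 1) → Fin (lsDim O (m + B))),
      Matrix.det (Matrix.of fun i k => prodEntry O m B x (I i) (J k)) = 0

variable {O}

theorem prodEntry_eq {m B n : ℕ} (x : (Fin (n + 1) → Fin (lsDim O m)) → K)
    (p : (Fin n → Fin (lsDim O m)) × Fin (lsDim O B)) :
    prodEntry O m B x p = coord O (m + B) (slice x p.1 * phi O B p.2) := by
  rw [slice, Finset.sum_mul]
  simp only [smul_mul_assoc]
  rw [coord_sum_comb _ fun j => mul_mem_LS (phi_mem j) (phi_mem p.2)]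
  funext k
  simp [prodEntry]

theorem prod_mem_LS {m B n : ℕ} (x : (Fin (n + 1) → Fin (lsDim O m)) → K)
    (p : (Fin n → Fin (lsDim O m)) × Fin (lsDim O B)) :
    slice x p.1 * phi O B p.2 ∈ LS O (m + B) :=
  mul_mem_LS (slice_mem_LS x p.1) (phi_mem p.2)

/-- The rank equations bound the dimension of the span of the products. -/
theorem finrank_span_prod_le {m B N n : ℕ} {x : (Fin (n + 1) → Fin (lsDim O m)) → K}
    (h : IsGood O m B N x) :
    finrank K (Submodule.span K (Set.range fun p : (Fin n → Fin (lsDim O m)) × Fin (lsDim O B) =>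
      slice x p.1 * phi O B p.2)) ≤ N := by
  classical
  by_contra hlt
  obtain ⟨s, hsub, hspan, hli⟩ := exists_linearIndependent K
    (Set.range fun p : (Fin n → Fin (lsDim O m)) × Fin (lsDim O B) => slice x p.1 * phi O B p.2)
  have : Fintype s := ((Set.finite_range _).subset hsub).fintype
  have hcard : N + 1 ≤ Fintype.card s := by
    have h1 := finrank_span_eq_card hli
    rw [Subtype.range_coe, hspan] at h1
    simp only [← Nat.card_eq_fintype_card, Set.coe_eq_subtype] at h1 ⊢
    omega
  let e : Fin (N + 1) ↪ s :=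
    (Fin.castLEEmb hcard).trans (Fintype.equivFin s).symm.toEmbedding
  choose I hI using fun i => hsub (e i).2
  have hli' : LinearIndependent K fun i => slice x (I i).1 * phi O B (I i).2 := by
    have h1 := hli.comp e e.injective
    have e' : (fun i => slice x (I i).1 * phi O B (I i).2) = Subtype.val ∘ e := funext hI
    rw [e']
    exact h1
  obtain ⟨J, hJ⟩ := exists_det_ne_zero
    (Matrix.of fun i k => coord O (m + B) (slice x (I i).1 * phi O B (I i).2) k)
    (linearIndependent_coord (fun i => prod_mem_LS x (I i)) hli')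
  refine hJ ?_
  rw [← h.2 I J]
  congr 1
  ext i k
  simp only [Matrix.submatrix_apply, id, Matrix.of_apply, prodEntry_eq]

theorem IsGood.cons_eq_zero {m B N n : ℕ} {x : (Fin (n + 1) → Fin (lsDim O m)) → K}
    [CharZero K] (h : IsGood O m B N x) {J : Fin (n + 1) → Fin (lsDim O m)} {i i' : Fin (n + 1)}
    (hne : i ≠ i') (hJ : J i = J i') : x J = 0 := by
  have h1 := h.1 J (Equiv.swap i i')
  rw [show J ∘ Equiv.swap i i' = J from funext fun k => by
    simp only [Function.comp_apply, Equiv.swap_apply_def]
    split_ifs with a b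
    · rw [a, hJ]
    · rw [b, hJ]
    · rfl, Equiv.Perm.sign_swap hne] at h1
  have h2 : (2 : K) * x J = 0 := by
    push_cast at h1
    linear_combination h1
  exact (mul_eq_zero.1 h2).resolve_left two_ne_zero

/-- A nonzero array in the cone spans at least `n + 1` dimensions. -/
theorem IsGood.le_finrank {m B N n : ℕ} {x : (Fin (n + 1) → Fin (lsDim O m)) → K}
    [CharZero K] (h : IsGood O m B N x) (hx : x ≠ 0) :
    n + 1 ≤ finrank K (Submodule.span K (Set.range (slice x))) := by
  obtain ⟨J, hJ⟩ := Function.ne_iff.1 hx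
  have key : ∀ k, ∃ a : K, a ≠ 0 ∧ ∀ l,
      x (Fin.cons (J l) fun i => J (k.succAbove i)) = if l = k then a else 0 := by
    intro k
    refine ⟨(Equiv.Perm.sign k.cycleRange.symm : ℤ) * x J, mul_ne_zero (by
      rcases Int.units_eq_one_or (Equiv.Perm.sign k.cycleRange.symm) with e | e <;> simp [e]) hJ,
      fun l => ?_⟩
    split_ifs with hl
    · subst hl
      rw [← h.1 J l.cycleRange.symm]
      congr 1
      funext i
      refine Fin.cases ?_ (fun i => ?_) i
      · simp [Fin.cycleRange_symm_zero]
      · simp [Fin.cycleRange_symm_succ]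
    · obtain ⟨i, hi⟩ := Fin.exists_succAbove_eq hl
      exact h.cons_eq_zero (i := 0) (i' := i.succ) (Fin.succ_ne_zero i).symm (by simp [hi])
  choose a ha hval using key
  have hli : LinearIndependent K fun k : Fin (n + 1) => slice x fun i => J (k.succAbove i) := by
    rw [Fintype.linearIndependent_iff]
    intro w hw l
    have h1 := congrArg (fun f => coord O m f (J l)) hw
    simp only [coord_sum_comb _ fun k => slice_mem_LS x _, coord_zero, Pi.zero_apply,
      Finset.sum_apply, Pi.smul_apply, smul_eq_mul] at h1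
    rw [Finset.sum_eq_single l (fun k _ hk => by
        rw [slice, coord_sum_smul]; simp [hval k l, hk.symm]) (by simp),
      slice, coord_sum_smul] at h1
    simp only [hval l l, if_pos] at h1
    exact (mul_eq_zero.1 h1).resolve_right (ha l)
  have : Module.Finite K (Submodule.span K (Set.range (slice x))) :=
    Module.Finite.span_of_finite K (Set.finite_range _)
  have h1 := finrank_span_eq_card hli
  rw [Fintype.card_fin] at h1
  exact h1 ▸ Submodule.finrank_mono (Submodule.span_mono (Set.range_subset_iff.2 fun k => ⟨_, rfl⟩))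

variable [IsAlgClosed K]

variable {c : ℤ} (hc : Flat.IsThreshold K F c)
include hc

omit hc [IsAlgClosed K] in
/-- The products of the slices with a basis of `L(B O)` span all products. -/
private theorem mul_mem_span_prod {m B n : ℕ} {x : (Fin (n + 1) → Fin (lsDim O m)) → K} {u a : F}
    (hu : u ∈ Submodule.span K (Set.range (slice x)))
    (ha : a ∈ riemannRochSpace (Finsupp.single O (B : ℤ))) :
    u * a ∈ Submodule.span K (Set.range fun p : (Fin n → Fin (lsDim O m)) × Fin (lsDim O B) =>
      slice x p.1 * phi O B p.2) := by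
  set V := Submodule.span K (Set.range fun p : (Fin n → Fin (lsDim O m)) × Fin (lsDim O B) =>
      slice x p.1 * phi O B p.2)
  rw [← sum_coord (show a ∈ LS O B from ha), Finset.mul_sum]
  refine Submodule.sum_mem _ fun i _ => ?_
  rw [mul_smul_comm]
  refine Submodule.smul_mem _ _ ?_
  refine Submodule.span_induction (p := fun u _ => u * phi O B i ∈ V) ?_
    (by simp) (fun u w _ _ hu hw => by rw [add_mul]; exact add_mem hu hw)
    (fun r u _ hu => by rw [smul_mul_assoc]; exact Submodule.smul_mem _ r hu) hu
  rintro _ ⟨S, rfl⟩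
  exact Submodule.subset_span ⟨(S, i), rfl⟩

/-- **Points of the cone are Riemann–Roch spaces.** -/
theorem IsGood.exists_divisor [CharZero K] {m B d n : ℕ} (hm : c + d + 1 ≤ m) (hB : c + m ≤ B)
    (hn : n + 1 = rrn K F m d) {x : (Fin (n + 1) → Fin (lsDim O m)) → K} (hx : x ≠ 0)
    (h : IsGood O m B (rrn K F (m + B) d) x) :
    ∃ D : Divisor K F, 0 ≤ D ∧ Divisor.degree D = d ∧
      Submodule.span K (Set.range (slice x)) = WS O m D := by
  classical
  have : Infinite K := IsAlgClosed.instInfinite
  set U := Submodule.span K (Set.range (slice x))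
  have : Module.Finite K U := Module.Finite.span_of_finite K (Set.finite_range _)
  have hU := h.le_finrank hx
  set T : Finset (Fin n → Fin (lsDim O m)) := Finset.univ.filter fun S => slice x S ≠ 0
  have hT : T.Nonempty := by
    by_contra hT
    have : U = ⊥ := by
      rw [Submodule.span_eq_bot]
      rintro _ ⟨S, rfl⟩
      by_contra hS
      exact hT ⟨S, Finset.mem_filter.2 ⟨Finset.mem_univ _, hS⟩⟩
    rw [show Submodule.span K (Set.range (slice x)) = U from rfl, this, finrank_bot] at hU
    omega
  -- the least upper bound of the polar divisors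
  let supp : Finset (Place K F) :=
    {O} ∪ T.biUnion fun S => (divisorOf (K := K) (slice x S)).support
  let G : Divisor K F := Finsupp.onFinset supp
    (fun P => T.sup' hT fun S => -P.ord (slice x S)) fun P hP => by
      by_contra hP'
      simp only [supp, Finset.mem_union, Finset.mem_biUnion, not_or, not_exists, not_and,
        Finsupp.mem_support_iff, divisorOf_apply, not_not] at hP'
      refine hP (le_antisymm (Finset.sup'_le _ _ fun S hS => by rw [hP'.2 S hS, neg_zero]) ?_)
      obtain ⟨S, hS⟩ := hT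
      exact le_trans (by rw [hP'.2 S hS, neg_zero]) (Finset.le_sup' _ hS)
  have hGapp : ∀ P, G P = T.sup' hT fun S => -P.ord (slice x S) := fun P => rfl
  have hmemT : ∀ {S}, slice x S ≠ 0 → S ∈ T := fun hS =>
    Finset.mem_filter.2 ⟨Finset.mem_univ _, hS⟩
  have hUG : U ≤ riemannRochSpace G := Submodule.span_le.2 (by
    rintro _ ⟨S, rfl⟩
    by_cases hS : slice x S = 0
    · rw [hS]; exact zero_mem _
    rw [SetLike.mem_coe, mem_riemannRochSpace_iff_ne_zero hS]
    intro P
    have := Finset.le_sup' (fun S => -P.ord (slice x S)) (hmemT hS)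
    rw [hGapp]
    omega)
  have hatt : ∀ P, ∃ S, slice x S ≠ 0 ∧ P.ord (slice x S) = -G P := fun P => by
    obtain ⟨S, hS, e⟩ := Finset.exists_mem_eq_sup' hT fun S => -P.ord (slice x S)
    exact ⟨S, (Finset.mem_filter.1 hS).2, by rw [hGapp, e, neg_neg]⟩
  have hGle : G ≤ Finsupp.single O (m : ℤ) := fun P => by
    obtain ⟨S, hS, e⟩ := hatt P
    have := (mem_riemannRochSpace_iff_ne_zero hS).1 (slice_mem_LS x S) P
    omega
  -- a pencil in `U`
  obtain ⟨S₀, hS₀⟩ := hT
  have hs0 : slice x S₀ ≠ 0 := (Finset.mem_filter.1 hS₀).2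
  have hsU : slice x S₀ ∈ U := Submodule.subset_span ⟨S₀, rfl⟩
  set bad := (divisorOf (K := K) (slice x S₀)).support ∪ G.support
  obtain ⟨t, htU, ht⟩ := Jac.exists_avoid U
    (fun P : bad => riemannRochSpace (G - Finsupp.single (P : Place K F) 1)) fun P hle => by
      obtain ⟨S, hS, hord⟩ := hatt P
      have := (mem_riemannRochSpace_iff_ne_zero hS).1 (hle (Submodule.subset_span ⟨S, rfl⟩)) P
      simp only [Finsupp.sub_apply, Finsupp.single_eq_same] at this
      omega
  have hst : ∀ P : Place K F, P.ord (slice x S₀) = -G P ∨ (t ≠ 0 ∧ P.ord t = -G P) := by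
    intro P
    by_cases hP : P ∈ bad
    · exact Or.inr (Jac.ord_eq_of_notMem (hUG htU) (ht ⟨P, hP⟩))
    · simp only [bad, Finset.mem_union, Finsupp.mem_support_iff, not_or, not_not,
        divisorOf_apply] at hP
      exact Or.inl (by rw [hP.1, hP.2, neg_zero])
  -- the degree bound
  set V := Submodule.span K (Set.range fun p : (Fin n → Fin (lsDim O m)) × Fin (lsDim O B) =>
      slice x p.1 * phi O B p.2)
  have : Module.Finite K V := Module.Finite.span_of_finite K (Set.finite_range _)
  have hUV : ∀ u ∈ U, ∀ a ∈ riemannRochSpace (Finsupp.single O (B : ℤ)), u * a ∈ V :=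
    fun u hu a ha => mul_mem_span_prod hu ha
  have hkey := Flat.rrDim_pencil_le hs0 hst (hUV _ hsU) (hUV _ htU)
  have hVN : finrank K V ≤ rrn K F (m + B) d := finrank_span_prod_le h
  have hGdeg : Divisor.degree G ≤ m := by
    have := degree_mono hGle
    rwa [Divisor.degree_single, deg_eq_one, Nat.cast_one, mul_one] at this
  have hc0 := hc.1
  have h1 := hc.2 (Finsupp.single O (B : ℤ)) (by
    rw [Divisor.degree_single, deg_eq_one]; push_cast; omega)
  have h2 := hc.2 (Finsupp.single O (B : ℤ) - G) (by rw [degree_WS]; omega)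
  rw [Divisor.degree_single, deg_eq_one, Nat.cast_one, mul_one] at h1
  rw [degree_WS] at h2
  have h3 := rrn_eq hc (m := m + B) (d := d) (by push_cast; omega) O
  have hγ : Divisor.degree G ≤ (m : ℤ) - d := by push_cast at h3; omega
  -- enlarge `G` to degree exactly `m - d`
  set k : ℕ := ((m : ℤ) - d - Divisor.degree G).toNat
  have hk : (k : ℤ) = (m : ℤ) - d - Divisor.degree G := by omega
  set G' := G + Finsupp.single O (k : ℤ)
  have hG'deg : Divisor.degree G' = (m : ℤ) - d := by simp [G', deg_eq_one, hk]
  have hGG' : G ≤ G' := le_add_of_nonneg_right fun P => by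
    rw [Finsupp.single_apply]; split_ifs <;> simp
  have hG'dim := hc.2 G' (by omega)
  have hn' := rrn_eq hc (m := m) (d := d) (by omega) O
  have hUdim : finrank K U ≤ rrDim G := Submodule.finrank_mono hUG
  have hk0 : k = 0 := by
    by_contra hk0
    have hle : G ≤ G' - Finsupp.single O 1 := fun P => by
      simp only [G', Finsupp.sub_apply, Finsupp.add_apply, Finsupp.single_apply]
      split_ifs <;> omega
    have h4 := rrDim_mono hle
    have h5 := hc.2 (G' - Finsupp.single O 1) (by rw [Flat.degree_sub_single]; omega)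
    rw [Flat.degree_sub_single] at h5
    rw [show Submodule.span K (Set.range (slice x)) = U from rfl] at hU
    omega
  have hGeq : G' = G := by simp [G', hk0]
  rw [hGeq] at hG'deg hG'dim
  refine ⟨Finsupp.single O (m : ℤ) - G, sub_nonneg.2 hGle, by
    rw [degree_WS]; omega, ?_⟩
  rw [WS, sub_sub_cancel]
  refine Submodule.eq_of_le_of_finrank_le hUG ?_
  rw [show Submodule.span K (Set.range (slice x)) = U from rfl] at hU
  simp only [rrDim] at hG'dim hUdim ⊢
  omega

/-- Plücker arrays of Riemann–Roch spaces lie in the cone. -/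
theorem isGood_plk {m B d n : ℕ} (hm : c + d ≤ m) (hn : n + 1 = rrn K F m d) {D : Divisor K F}
    (hD : 0 ≤ D) (hd : Divisor.degree D = d) :
    IsGood O m B (rrn K F (m + B) d) (plk O m (n + 1) D) := by
  refine ⟨fun J σ => plk_alt D J σ, fun I J => ?_⟩
  have hfr : ∃ b : Fin (n + 1) → F, IsFrame (WS O m D) b := by
    rw [hn]; exact exists_isFrame hc hd hm
  obtain ⟨b, hb⟩ := hfr
  have hmem : ∀ p : (Fin n → Fin (lsDim O m)) × Fin (lsDim O B),
      slice (plk O m (n + 1) D) p.1 * phi O B p.2 ∈ WS O (m + B) D := fun p => by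
    have h1 := mul_mem_riemannRochSpace (slice_plk_mem hD hb p.1) (phi_mem (O := O) p.2)
    convert h1 using 2
    rw [Nat.cast_add, Finsupp.single_add]
    abel
  by_contra hdet
  have hli : LinearIndependent K fun i =>
      slice (plk O m (n + 1) D) (I i).1 * phi O B (I i).2 := by
    rw [Fintype.linearIndependent_iff]
    intro w hw i
    by_contra hwi
    refine hdet (Matrix.det_eq_zero_of_not_linearIndependent_rows fun hl => hwi ?_)
    refine Fintype.linearIndependent_iff.1 hl w ?_ i
    funext k
    have h1 := congrFun (congrArg (coord O (m + B)) hw) (J k)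
    rw [coord_sum_comb _ (fun i => prod_mem_LS _ (I i)), coord_zero] at h1
    simpa [Finset.sum_apply, prodEntry_eq] using h1
  have h1 := finrank_span_eq_card hli
  rw [Fintype.card_fin] at h1
  have h2 : finrank K (Submodule.span K (Set.range fun i =>
      slice (plk O m (n + 1) D) (I i).1 * phi O B (I i).2)) ≤ finrank K (WS O (m + B) D) :=
    Submodule.finrank_mono (Submodule.span_le.2 (Set.range_subset_iff.2 fun i => hmem (I i)))
  have hc0 := hc.1
  rw [h1, (finrank_WS (O := O) hc hd (by push_cast; omega)).2] at h2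
  omega

omit hc

variable (O) in
/-- The polynomials cutting out the cone. -/
def goodEqs (m B N n : ℕ) : Set (MvPolynomial (Fin (n + 1) → Fin (lsDim O m)) K) :=
  Set.range (fun p : (Fin (n + 1) → Fin (lsDim O m)) × Equiv.Perm (Fin (n + 1)) =>
    X (p.1 ∘ p.2) - MvPolynomial.C ((Equiv.Perm.sign p.2 : ℤ) : K) * X p.1) ∪
  Set.range (fun p : (Fin (N + 1) → (Fin n → Fin (lsDim O m)) × Fin (lsDim O B)) ×
      (Fin (N + 1) → Fin (lsDim O (m + B))) =>
    Matrix.det (Matrix.of fun i k => ∑ j,
      MvPolynomial.C (coord O (m + B) (phi O m j * phi O B (p.1 i).2) (p.2 k)) *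
        X (Fin.cons j (p.1 i).1)))

omit [IsAlgClosed K] in
theorem isHomogeneous_goodEqs {m B N n : ℕ} :
    ∀ f ∈ goodEqs O m B N n, ∃ e, f.IsHomogeneous e := by
  rintro f (⟨p, rfl⟩ | ⟨p, rfl⟩)
  · exact ⟨1, (isHomogeneous_X _ _).sub ((isHomogeneous_X _ _).C_mul _)⟩
  · refine ⟨∑ _k : Fin (N + 1), 1, ?_⟩
    dsimp only
    rw [Matrix.det_apply]
    refine IsHomogeneous.sum _ _ _ fun σ _ => ?_
    have h : (∏ k, (Matrix.of fun i k => ∑ j,
        MvPolynomial.C (coord O (m + B) (phi O m j * phi O B (p.1 i).2) (p.2 k)) *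
          X (Fin.cons (α := fun _ => Fin (lsDim O m)) j (p.1 i).1)) (σ k) k).IsHomogeneous
          (∑ _k : Fin (N + 1), 1) :=
      IsHomogeneous.prod _ _ _ fun k _ => by
        rw [Matrix.of_apply]
        exact IsHomogeneous.sum _ _ _ fun j _ => (isHomogeneous_X _ _).C_mul _
    rcases Int.units_eq_one_or (Equiv.Perm.sign σ) with e | e
    · rw [e, one_smul]; exact h
    · rw [e, Units.neg_smul, one_smul]; exact h.neg

omit [IsAlgClosed K] in
/-- The cone is the zero set of the equations `goodEqs`. -/
theorem isGood_iff {m B N n : ℕ} (x : (Fin (n + 1) → Fin (lsDim O m)) → K) :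
    IsGood O m B N x ↔ ∀ f ∈ goodEqs O m B N n, eval x f = 0 := by
  have hdet : ∀ (I : Fin (N + 1) → (Fin n → Fin (lsDim O m)) × Fin (lsDim O B))
      (J : Fin (N + 1) → Fin (lsDim O (m + B))),
      eval x (Matrix.det (Matrix.of fun i k => ∑ j,
        MvPolynomial.C (coord O (m + B) (phi O m j * phi O B (I i).2) (J k)) *
          X (Fin.cons (α := fun _ => Fin (lsDim O m)) j (I i).1))) =
      Matrix.det (Matrix.of fun i k => prodEntry O m B x (I i) (J k)) := fun I J => by
    rw [RingHom.map_det]
    congr 1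
    ext i k
    simp [prodEntry, mul_comm]
  constructor
  · rintro h f (⟨p, rfl⟩ | ⟨p, rfl⟩)
    · simp [h.1 p.1 p.2]
    · rw [hdet, h.2]
  · intro h
    exact ⟨fun J σ => by simpa [sub_eq_zero] using h _ (Or.inl ⟨(J, σ), rfl⟩),
      fun I J => by rw [← hdet]; exact h _ (Or.inr ⟨(I, J), rfl⟩)⟩

end FermatAgent.MW
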