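import Fermat.Agent.MW.Height

/-!
# Lower bounds for heights under homogeneous maps without common zeros

The Nullstellensatz gives `habs (P x) ≥ N * habs x - C` on a closed cone on which the
homogeneous map `P` of degree `N` has no nontrivial zero.
-/

set_option autoImplicit false

noncomputable section

open NumberField Module Height IntermediateField MvPolynomial

namespace FermatAgent.MW

open FermatAgent.GaloisBasic (Qbar)

variable {ι κ : Type*}

theorem homogeneousComponent_mul_of_isHomogeneous {R : Type*} [CommRing R] {f : MvPolynomial ι R}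
    {e : ℕ} (hf : f.IsHomogeneous e) (s : MvPolynomial ι R) (M : ℕ) :
    homogeneousComponent M (s * f) =
      if e ≤ M then homogeneousComponent (M - e) s * f else 0 := by
  classical
  conv_lhs => rw [← sum_homogeneousComponent s, Finset.sum_mul, map_sum]
  rw [Finset.sum_congr rfl fun i _ => homogeneousComponent_of_mem
    ((mem_homogeneousSubmodule _ _).2 ((homogeneousComponent_isHomogeneous i s).mul hf))]
  split_ifs with h
  · rw [Finset.sum_eq_single (M - e) (fun i _ hi => if_neg (by omega)) (fun hi => ?_),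
      if_pos (by omega)]
    rw [homogeneousComponent_eq_zero _ s (by simp at hi; omega), zero_mul, ite_self]
  · exact Finset.sum_eq_zero fun i _ => if_neg (by omega)

variable [Finite ι] [Finite κ]

omit [Finite κ] in
/-- Powers of the coordinates in terms of a map without common zeros. -/
theorem exists_pow_eq_sum [Fintype κ] {N : ℕ} {P : κ → MvPolynomial ι Qbar}
    (hP : ∀ j, (P j).IsHomogeneous N) {F : Set (MvPolynomial ι Qbar)}
    (hF : ∀ f ∈ F, ∃ e, f.IsHomogeneous e)
    (hzero : ∀ x, (∀ f ∈ F, eval x f = 0) → (∀ j, eval x (P j) = 0) → x = 0) :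
    ∃ (M : ℕ) (g : ι → κ → MvPolynomial ι Qbar), (∀ i j, (g i j).IsHomogeneous M) ∧
      ∀ x, (∀ f ∈ F, eval x f = 0) → ∀ i, ∑ j, eval x (g i j) * eval x (P j) = x i ^ (M + N) := by
  classical
  have := Fintype.ofFinite ι
  let I : Ideal (MvPolynomial ι Qbar) := Ideal.span (F ∪ Set.range P)
  have hI : ∀ i, (X i : MvPolynomial ι Qbar) ∈ I.radical := fun i => by
    rw [← MvPolynomial.vanishingIdeal_zeroLocus_eq_radical (K := Qbar)]
    intro x hx
    have h0 : x = 0 := by
      refine hzero x (fun f hf => ?_) fun j => ?_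
      · simpa [aeval_eq_eval] using hx f (Ideal.subset_span (Or.inl hf))
      · simpa [aeval_eq_eval] using hx (P j) (Ideal.subset_span (Or.inr ⟨j, rfl⟩))
    simp [h0]
  choose m hm using fun i => Ideal.mem_radical_iff.1 (hI i)
  have key : ∀ r ∈ I, ∀ s : MvPolynomial ι Qbar, ∀ M, ∃ g : κ → MvPolynomial ι Qbar,
      (∀ j, (g j).IsHomogeneous M) ∧ ∀ x, (∀ f ∈ F, eval x f = 0) →
        eval x (homogeneousComponent (M + N) (s * r)) = ∑ j, eval x (g j) * eval x (P j) := by
    intro r hr
    induction hr using Submodule.span_induction with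
    | mem p hp =>
      intro s M
      rcases hp with hp | ⟨j, rfl⟩
      · refine ⟨fun _ => 0, fun _ => isHomogeneous_zero _ _ _, fun x hx => ?_⟩
        obtain ⟨e, he⟩ := hF p hp
        rw [homogeneousComponent_mul_of_isHomogeneous he]
        split_ifs <;> simp [hx p hp]
      · refine ⟨fun k => if k = j then homogeneousComponent M s else 0, fun k => ?_, fun x _ => ?_⟩
        · dsimp only
          split_ifs
          · exact homogeneousComponent_isHomogeneous _ _
          · exact isHomogeneous_zero _ _ _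
        · rw [homogeneousComponent_mul_of_isHomogeneous (hP j), if_pos (Nat.le_add_left N M),
            Nat.add_sub_cancel]
          simp [apply_ite (eval x), ite_mul]
    | zero => exact fun s M => ⟨fun _ => 0, fun _ => isHomogeneous_zero _ _ _, fun x _ => by simp⟩
    | add p q _ _ ihp ihq =>
      intro s M
      obtain ⟨g, hg, hgx⟩ := ihp s M
      obtain ⟨g', hg', hgx'⟩ := ihq s M
      refine ⟨fun j => g j + g' j, fun j => (hg j).add (hg' j), fun x hx => ?_⟩
      simp [mul_add, map_add, hgx x hx, hgx' x hx, add_mul, Finset.sum_add_distrib]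
    | smul a p _ ih =>
      intro s M
      obtain ⟨g, hg, hgx⟩ := ih (s * a) M
      exact ⟨g, hg, fun x hx => by rw [smul_eq_mul, ← mul_assoc, hgx x hx]⟩
  set M := ∑ i, m i
  choose g hg hgx using fun i => key _ (hm i) (X i ^ (M + N - m i)) M
  refine ⟨M, g, hg, fun x hx i => ?_⟩
  have hle : m i ≤ M + N :=
    (Finset.single_le_sum (fun k _ => Nat.zero_le (m k)) (Finset.mem_univ i)).trans
      (Nat.le_add_right _ _)
  have h := hgx i x hx
  rw [← pow_add, Nat.sub_add_cancel hle, homogeneousComponent_of_mem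
    ((mem_homogeneousSubmodule _ _).2 (isHomogeneous_X_pow i (M + N))), if_pos rfl] at h
  rw [← h]; simp

/-- **Lower bound for the height** under a homogeneous map without common zeros. -/
theorem exists_habs_eval_ge {N : ℕ} {P : κ → MvPolynomial ι Qbar}
    (hP : ∀ j, (P j).IsHomogeneous N) {F : Set (MvPolynomial ι Qbar)}
    (hF : ∀ f ∈ F, ∃ e, f.IsHomogeneous e)
    (hzero : ∀ x, (∀ f ∈ F, eval x f = 0) → (∀ j, eval x (P j) = 0) → x = 0) :
    ∃ C, ∀ x, (∀ f ∈ F, eval x f = 0) →
      N * habs x ≤ habs (fun j => eval x (P j)) + C := by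
  classical
  have := Fintype.ofFinite ι
  have := Fintype.ofFinite κ
  obtain ⟨M, g, hg, hgx⟩ := exists_pow_eq_sum hP hF hzero
  choose c hc using fun p : ι × κ => exists_eval_eq_sum (hg p.1 p.2)
  let A : ((Fin M → ι) × κ → Qbar) →ₗ[Qbar] (ι → Qbar) :=
    { toFun := fun t i => ∑ p : (Fin M → ι) × κ, c (i, p.2) p.1 * t p
      map_add' := fun s t => funext fun j => by simp [mul_add, Finset.sum_add_distrib]
      map_smul' := fun a t => funext fun j => by simp [Finset.mul_sum, mul_left_comm] }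
  obtain ⟨C, hC⟩ := exists_habs_linear_le A
  refine ⟨max C 0, fun x hx => ?_⟩
  rcases eq_or_ne x 0 with rfl | hx0
  · rw [habs_zero, mul_zero]
    linarith [habs_nonneg (fun j => eval (0 : ι → Qbar) (P j)), le_max_right C 0]
  have hPx : (fun j => eval x (P j)) ≠ 0 := fun e => hx0 (hzero x hx fun j => congrFun e j)
  have hT : (fun w : Fin M → ι => ∏ k, x (w k)) ≠ 0 := by
    obtain ⟨i, hi⟩ := Function.ne_iff.1 hx0
    exact Function.ne_iff.2 ⟨fun _ => i, by simpa using pow_ne_zero M hi⟩
  have e : (fun i => x i ^ (M + N)) =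
      A (fun p : (Fin M → ι) × κ => (∏ k, x (p.1 k)) * eval x (P p.2)) := funext fun i => by
    rw [← hgx x hx i]
    show _ = ∑ p : (Fin M → ι) × κ, _
    rw [Fintype.sum_prod_type, Finset.sum_comm]
    refine Finset.sum_congr rfl fun j _ => ?_
    rw [hc (i, j) x, Finset.sum_mul]
    simp [mul_assoc]
  have h := hC fun p : (Fin M → ι) × κ => (∏ k, x (p.1 k)) * eval x (P p.2)
  rw [← e, habs_pow, habs_tensor hT hPx, habs_piProd fun _ => hx0] at h
  simp only [Finset.sum_const, Finset.card_univ, Fintype.card_fin, nsmul_eq_mul] at h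
  push_cast at h
  nlinarith [le_max_left C 0]

omit [Finite ι] [Finite κ] in
theorem exists_tensor_of_minors {z : ι × κ → Qbar}
    (h : ∀ i i' j j', z (i, j) * z (i', j') = z (i, j') * z (i', j)) {i₀ : ι} {j₀ : κ}
    (h₀ : z (i₀, j₀) ≠ 0) (p : ι × κ) : z p = z (p.1, j₀) * (z (i₀, p.2) / z (i₀, j₀)) := by
  rw [← mul_div_assoc, ← h p.1 i₀ p.2 j₀, mul_div_cancel_right₀ _ h₀]

omit [Finite ι] [Finite κ] in
theorem eval_mul_const_eq_zero {σ : Type*} {f : MvPolynomial σ Qbar} {e : ℕ} (c : Qbar)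
    (x : σ → Qbar) (hf : f.IsHomogeneous e) (h : eval x f = 0) :
    eval (fun i => x i * c) f = 0 := by
  rw [eval_eq] at h ⊢
  calc ∑ d ∈ f.support, coeff d f * ∏ i ∈ d.support, (x i * c) ^ d i
      = ∑ d ∈ f.support, (coeff d f * ∏ i ∈ d.support, x i ^ d i) * c ^ e :=
        Finset.sum_congr rfl fun d hd => by
          rw [Finset.prod_congr rfl fun i _ => mul_pow (x i) c (d i), Finset.prod_mul_distrib,
            Finset.prod_pow_eq_pow_sum, ← hf.degree_eq_sum_deg_support hd, mul_assoc]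
    _ = 0 := by rw [← Finset.sum_mul, h, zero_mul]

/-- **Lower bound for heights** under bihomogeneous maps without common zeros. -/
theorem exists_habs_biEval_ge {μ : Type*} [Finite μ] {N : ℕ}
    {P : μ → MvPolynomial (ι × κ) Qbar} (hP : ∀ j, (P j).IsHomogeneous N)
    {F : Set (MvPolynomial ι Qbar)} (hF : ∀ f ∈ F, ∃ e, f.IsHomogeneous e)
    {G : Set (MvPolynomial κ Qbar)} (hG : ∀ f ∈ G, ∃ e, f.IsHomogeneous e)
    (hzero : ∀ x y, (∀ f ∈ F, eval x f = 0) → (∀ f ∈ G, eval y f = 0) →
      (∀ j, eval (fun p => x p.1 * y p.2) (P j) = 0) → x = 0 ∨ y = 0) :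
    ∃ C, ∀ x y, x ≠ 0 → y ≠ 0 → (∀ f ∈ F, eval x f = 0) → (∀ f ∈ G, eval y f = 0) →
      N * (habs x + habs y) ≤ habs (fun j => eval (fun p => x p.1 * y p.2) (P j)) + C := by
  let E : Set (MvPolynomial (ι × κ) Qbar) :=
    Set.range (fun a : (ι × ι) × κ × κ =>
      X (a.1.1, a.2.1) * X (a.1.2, a.2.2) - X (a.1.1, a.2.2) * X (a.1.2, a.2.1)) ∪
    Set.range (fun a : F × κ => rename (fun i => (i, a.2)) a.1.1) ∪
    Set.range (fun a : G × ι => rename (fun j => (a.2, j)) a.1.1)
  have hE : ∀ f ∈ E, ∃ e, f.IsHomogeneous e := by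
    rintro f ((⟨a, rfl⟩ | ⟨a, rfl⟩) | ⟨a, rfl⟩)
    · exact ⟨1 + 1, ((isHomogeneous_X _ _).mul (isHomogeneous_X _ _)).sub
        ((isHomogeneous_X _ _).mul (isHomogeneous_X _ _))⟩
    · obtain ⟨e, he⟩ := hF _ a.1.2; exact ⟨e, he.rename_isHomogeneous⟩
    · obtain ⟨e, he⟩ := hG _ a.1.2; exact ⟨e, he.rename_isHomogeneous⟩
  obtain ⟨C, hC⟩ := exists_habs_eval_ge (P := P) hP hE (fun z hz hPz => by
    by_contra hz0
    obtain ⟨⟨i₀, j₀⟩, h₀⟩ := Function.ne_iff.1 hz0
    have hmin : ∀ i i' j j', z (i, j) * z (i', j') = z (i, j') * z (i', j) := fun i i' j j' => by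
      simpa [sub_eq_zero] using hz _ (Or.inl (Or.inl ⟨((i, i'), j, j'), rfl⟩))
    have e := funext (exists_tensor_of_minors hmin h₀)
    have hx : ∀ f ∈ F, eval (fun i => z (i, j₀)) f = 0 := fun f hf => by
      simpa [eval_rename, Function.comp_def] using hz _ (Or.inl (Or.inr ⟨(⟨f, hf⟩, j₀), rfl⟩))
    have hy : ∀ f ∈ G, eval (fun j => z (i₀, j) / z (i₀, j₀)) f = 0 := fun f hf => by
      obtain ⟨d, hd⟩ := hG f hf
      simp only [div_eq_mul_inv]
      exact eval_mul_const_eq_zero _ _ hd (by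
        simpa [eval_rename, Function.comp_def] using hz _ (Or.inr ⟨(⟨f, hf⟩, i₀), rfl⟩))
    rcases hzero _ _ hx hy (fun j => by rw [← e]; exact hPz j) with h | h
    · exact h₀ (congrFun h i₀)
    · exact one_ne_zero ((div_self h₀).symm.trans (congrFun h j₀)))
  refine ⟨C, fun x y hx0 hy0 hx hy => ?_⟩
  have h := hC (fun p => x p.1 * y p.2) (by
    rintro f ((⟨a, rfl⟩ | ⟨a, rfl⟩) | ⟨a, rfl⟩)
    · simp; ring
    · obtain ⟨d, hd⟩ := hF _ a.1.2
      rw [eval_rename]
      exact eval_mul_const_eq_zero (y a.2) x hd (hx _ a.1.2)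
    · obtain ⟨d, hd⟩ := hG _ a.1.2
      rw [eval_rename]
      have h := eval_mul_const_eq_zero (x a.2) y hd (hy _ a.1.2)
      simpa [Function.comp_def, mul_comm] using h)
  rwa [habs_tensor hx0 hy0] at h

/-- **Heights add** under bilinear maps without zero divisors. -/
theorem exists_habs_bilinear_eq {μ : Type*} [Finite μ]
    (B : (ι → Qbar) →ₗ[Qbar] (κ → Qbar) →ₗ[Qbar] (μ → Qbar))
    (hB : ∀ x y, B x y = 0 → x = 0 ∨ y = 0) :
    ∃ C, ∀ x y, x ≠ 0 → y ≠ 0 → |habs (B x y) - habs x - habs y| ≤ C := by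
  classical
  have := Fintype.ofFinite ι
  have := Fintype.ofFinite κ
  let b : μ → ι × κ → Qbar := fun m p => B (Pi.single p.1 1) (Pi.single p.2 1) m
  let A : (ι × κ → Qbar) →ₗ[Qbar] (μ → Qbar) :=
    { toFun := fun t m => ∑ p, b m p * t p
      map_add' := fun s t => funext fun m => by simp [mul_add, Finset.sum_add_distrib]
      map_smul' := fun a t => funext fun m => by simp [Finset.mul_sum, mul_left_comm] }
  have hA : ∀ x y, B x y = A (fun p => x p.1 * y p.2) := fun x y => funext fun m => by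
    show B x y m = ∑ p : ι × κ, b m p * (x p.1 * y p.2)
    rw [Fintype.sum_prod_type]
    conv_lhs => rw [pi_eq_sum_univ' x]
    rw [map_sum, LinearMap.sum_apply, Finset.sum_apply]
    refine Finset.sum_congr rfl fun i _ => ?_
    rw [map_smul, LinearMap.smul_apply, Pi.smul_apply, smul_eq_mul]
    conv_lhs => rw [pi_eq_sum_univ' y]
    rw [map_sum, Finset.sum_apply, Finset.mul_sum]
    refine Finset.sum_congr rfl fun j _ => ?_
    rw [map_smul, Pi.smul_apply, smul_eq_mul]
    simp only [b]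
    ring
  obtain ⟨C, hC⟩ := exists_habs_linear_le A
  obtain ⟨C', hC'⟩ := exists_habs_biEval_ge (N := 1)
    (P := fun m : μ => ∑ p : ι × κ, MvPolynomial.C (σ := ι × κ) (b m p) * MvPolynomial.X p)
    (fun m => IsHomogeneous.sum _ _ _ fun p _ => (isHomogeneous_X _ _).C_mul _)
    (F := ∅) (by simp) (G := ∅) (by simp) (fun x y _ _ h => hB x y (funext fun m => by
      rw [hA]; simpa [A] using h m))
  refine ⟨max C C', fun x y hx hy => ?_⟩
  have h1 := hC fun p => x p.1 * y p.2
  have h2 := hC' x y hx hy (by simp) (by simp)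
  have e : (fun m => eval (fun p : ι × κ => x p.1 * y p.2)
      (∑ p, MvPolynomial.C (b m p) * X p)) = B x y := funext fun m => by rw [hA]; simp [A]
  rw [e] at h2
  rw [← hA, habs_tensor hx hy] at h1
  exact abs_le.2 ⟨by push_cast at h2; linarith [le_max_right C C'],
    by linarith [le_max_left C C']⟩

omit [Finite κ] in
/-- **Northcott**: finitely many normalised tuples of bounded height in a number field. -/
theorem finite_habs_le (L : IntermediateField ℚ Qbar) [FiniteDimensional ℚ L] (B : ℝ) :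
    {x : ι → Qbar | (∀ i, x i ∈ L) ∧ (∃ i₀, x i₀ = 1) ∧ habs x ≤ B}.Finite := by
  have hfin : {a : L | logHeight₁ a ≤ B * finrank ℚ L}.Finite :=
    NumberField.finite_setOfPred_logHeight₁_le L _
  refine ((Set.Finite.pi' fun _ : ι => hfin).image fun y i => (y i : Qbar)).subset ?_
  rintro x ⟨hx, ⟨i₀, hi₀⟩, hB⟩
  refine ⟨fun i => ⟨x i, hx i⟩, fun i => ?_, rfl⟩
  have h1 : logHeight₁ (⟨x i, hx i⟩ : L) ≤ logHeight (fun i => (⟨x i, hx i⟩ : L)) := by
    rw [logHeight₁_eq_logHeight]
    refine le_trans (le_of_eq (congrArg logHeight (funext fun k => ?_)))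
      (logHeight_comp_le ![i, i₀] fun i => (⟨x i, hx i⟩ : L))
    fin_cases k
    · rfl
    · exact Subtype.ext hi₀.symm
  rw [habs_eq hx, div_le_iff₀ (Nat.cast_pos.2 Module.finrank_pos)] at hB
  exact h1.trans hB

end FermatAgent.MW
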