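import Fermat.Agent.MW.Cone
import Fermat.Agent.MW.HeightNS

/-!
# The increments of the height of Plücker arrays are additive

With `hgt m D` the height of the Plücker array of `L(m O - D)` and
`δ_m(D, P) = hgt m (D + P) - hgt m D`, multiplication `L(a O - D) ⊗ L(b O - E) → L((a+b) O - D - E)`
gives `δ_{a+b}(D + E, P) = δ_a(D, P) + δ_b(E, P) + O(1)`.
-/

set_option autoImplicit false

noncomputable section

open AlgebraicCurve Module FermatAgent.Curve FermatAgent.Curve.Jac MvPolynomial
open FermatAgent.GaloisBasic (Qbar)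

namespace FermatAgent.MW

section Linear

variable {ι κ μ : Type*} [Finite ι] [Finite κ] [Finite μ]

theorem habs_tensor_le (x : ι → Qbar) (y : κ → Qbar) :
    habs (fun p : ι × κ => x p.1 * y p.2) ≤ habs x + habs y := by
  by_cases h : x ≠ 0 ∧ y ≠ 0
  · exact (habs_tensor h.1 h.2).le
  have : (fun p : ι × κ => x p.1 * y p.2) = 0 := funext fun p => by
    rcases not_and_or.1 h with h | h <;> simp [not_not.1 h]
  rw [this, habs_zero]
  exact add_nonneg (habs_nonneg _) (habs_nonneg _)

/-- Linear substitutions of the coordinates raise heights by at most a constant. -/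
theorem exists_habs_sum_le {α : Type*} [Fintype α] (a : κ → α → Qbar) (f : κ → α → ι) :
    ∃ C, ∀ x : ι → Qbar, habs (fun k => ∑ i, a k i * x (f k i)) ≤ habs x + C := by
  obtain ⟨C, hC⟩ := exists_habs_linear_le
    ({ toFun := fun x k => ∑ i, a k i * x (f k i)
       map_add' := fun s t => funext fun m => by simp [mul_add, Finset.sum_add_distrib]
       map_smul' := fun a t => funext fun m => by simp [Finset.mul_sum, mul_left_comm] } :
      (ι → Qbar) →ₗ[Qbar] (κ → Qbar))
  exact ⟨C, hC⟩

end Linear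

variable {F : Type*} [Field F] [Algebra Qbar F] [IsFF Qbar F] (O : Place Qbar F)

/-- The height of the Plücker array of `L(m O - D)`. -/
def hgt (m : ℕ) (D : Divisor Qbar F) : ℝ :=
  habs (plk O m (rrn Qbar F m (Divisor.degree D).toNat) D)

/-- Coordinates of the products of slices. -/
def mulEntry (a b : ℕ) {n n' : ℕ}
    (z : (Fin (n + 1) → Fin (lsDim O a)) × (Fin (n' + 1) → Fin (lsDim O b)) → Qbar)
    (p : (Fin n → Fin (lsDim O a)) × (Fin n' → Fin (lsDim O b))) (k : Fin (lsDim O (a + b))) :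
    Qbar :=
  ∑ j, ∑ l, z (Fin.cons j p.1, Fin.cons l p.2) * coord O (a + b) (phi O a j * phi O b l) k

/-- The maximal minors of the matrix of products. -/
def mulMinor (a b N : ℕ) {n n' : ℕ}
    (z : (Fin (n + 1) → Fin (lsDim O a)) × (Fin (n' + 1) → Fin (lsDim O b)) → Qbar)
    (q : (Fin N → (Fin n → Fin (lsDim O a)) × (Fin n' → Fin (lsDim O b))) ×
      (Fin N → Fin (lsDim O (a + b)))) : Qbar :=
  Matrix.det (Matrix.of fun i k => mulEntry O a b z (q.1 i) (q.2 k))

variable {O}

theorem mulEntry_eq {a b n n' : ℕ} (x : (Fin (n + 1) → Fin (lsDim O a)) → Qbar)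
    (y : (Fin (n' + 1) → Fin (lsDim O b)) → Qbar)
    (p : (Fin n → Fin (lsDim O a)) × (Fin n' → Fin (lsDim O b))) :
    mulEntry O a b (fun q => x q.1 * y q.2) p =
      coord O (a + b) (slice x p.1 * slice y p.2) := by
  have e : slice x p.1 * slice y p.2 = ∑ q : Fin (lsDim O a) × Fin (lsDim O b),
      (x (Fin.cons q.1 p.1) * y (Fin.cons q.2 p.2)) • (phi O a q.1 * phi O b q.2) := by
    rw [slice, slice, Finset.sum_mul, Fintype.sum_prod_type]
    refine Finset.sum_congr rfl fun j _ => ?_
    rw [Finset.mul_sum]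
    exact Finset.sum_congr rfl fun l _ => by
      rw [Algebra.smul_def, Algebra.smul_def, Algebra.smul_def, map_mul]
      ring
  rw [e, coord_sum_comb (O := O) (m := a + b)
    (fun q : Fin (lsDim O a) × Fin (lsDim O b) => x (Fin.cons q.1 p.1) * y (Fin.cons q.2 p.2))
    (b := fun q : Fin (lsDim O a) × Fin (lsDim O b) => phi O a q.1 * phi O b q.2)
    fun q => mul_mem_LS (phi_mem (O := O) (m := a) q.1) (phi_mem (O := O) (m := b) q.2)]
  funext k
  simp [mulEntry, Fintype.sum_prod_type]

variable (O) in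
/-- The polynomials giving the minors. -/
def mulPoly (a b N n n' : ℕ) (q : (Fin N → (Fin n → Fin (lsDim O a)) × (Fin n' → Fin (lsDim O b))) ×
      (Fin N → Fin (lsDim O (a + b)))) :
      MvPolynomial ((Fin (n + 1) → Fin (lsDim O a)) × (Fin (n' + 1) → Fin (lsDim O b))) Qbar :=
  Matrix.det (Matrix.of fun i k => ∑ j, ∑ l,
      MvPolynomial.C (coord O (a + b) (phi O a j * phi O b l) (q.2 k)) *
        X (Fin.cons j (q.1 i).1, Fin.cons l (q.1 i).2))

theorem isHomogeneous_det {σ : Type*} {N : ℕ} (A : Matrix (Fin N) (Fin N) (MvPolynomial σ Qbar))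
    (h : ∀ i k, (A i k).IsHomogeneous 1) : A.det.IsHomogeneous N := by
  rw [Matrix.det_apply]
  refine IsHomogeneous.sum _ _ _ fun π _ => ?_
  have h' := IsHomogeneous.prod (Finset.univ : Finset (Fin N)) (fun k => A (π k) k) (fun _ => 1)
    fun k _ => h (π k) k
  simp only [Finset.sum_const, Finset.card_univ, Fintype.card_fin, smul_eq_mul, mul_one] at h'
  rcases Int.units_eq_one_or (Equiv.Perm.sign π) with e | e
  · rw [e, one_smul]; exact h'
  · rw [e, Units.neg_smul, one_smul]; exact h'.neg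

theorem isHomogeneous_mulPoly (a b N n n' : ℕ) (q) :
    (mulPoly O a b N n n' q).IsHomogeneous N :=
  isHomogeneous_det _ fun i k => by
    rw [Matrix.of_apply]
    exact IsHomogeneous.sum _ _ _ fun j _ => IsHomogeneous.sum _ _ _
      fun l _ => (isHomogeneous_X _ _).C_mul _

theorem eval_mulPoly (a b N n n' : ℕ)
    (z : (Fin (n + 1) → Fin (lsDim O a)) × (Fin (n' + 1) → Fin (lsDim O b)) → Qbar) :
    (fun q => eval z (mulPoly O a b N n n' q)) = mulMinor O a b N z := by
  funext q
  rw [mulPoly, mulMinor, RingHom.map_det]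
  congr 1
  ext i k
  rw [RingHom.mapMatrix_apply, Matrix.map_apply, Matrix.of_apply, Matrix.of_apply, mulEntry,
    map_sum]
  refine Finset.sum_congr rfl fun j _ => ?_
  rw [map_sum]
  exact Finset.sum_congr rfl fun l _ => by rw [map_mul, eval_C, eval_X, mul_comm]

theorem exists_habs_mulMinor_le (a b N n n' : ℕ) :
    ∃ C, ∀ z, habs (mulMinor O a b N (n := n) (n' := n') z) ≤ N * habs z + C := by
  obtain ⟨C, hC⟩ := exists_habs_eval_le (isHomogeneous_mulPoly (O := O) a b N n n')
  exact ⟨C, fun z => eval_mulPoly a b N n n' z ▸ hC z⟩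

/-- Laplace expansion, as a linear map on heights. -/
theorem exists_habs_expand_le (R M : Type*) [Fintype R] [Finite M] (N : ℕ) :
    ∃ C, ∀ (u : R → Qbar) (μ : (Fin N → R) × (Fin N → M) → Qbar),
      habs (fun p : (Fin (N + 1) → R) × (Fin N → M) => ∑ i : Fin (N + 1),
        (-1) ^ (i : ℕ) * u (p.1 i) * μ (fun l => p.1 (i.succAbove l), p.2)) ≤
      habs u + habs μ + C := by
  obtain ⟨C, hC⟩ := exists_habs_sum_le
    (fun (_ : (Fin (N + 1) → R) × (Fin N → M)) (i : Fin (N + 1)) => (-1 : Qbar) ^ (i : ℕ))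
    (fun p i => (p.1 i, (fun l => p.1 (i.succAbove l), p.2)))
  refine ⟨C, fun u μ => le_trans (le_of_eq (congrArg habs (funext fun p => ?_)))
    ((hC fun q => u q.1 * μ q.2).trans (by linarith [habs_tensor_le u μ]))⟩
  exact Finset.sum_congr rfl fun i _ => by ring

/-- Cramer's rule, as a linear map on heights. -/
theorem exists_habs_cramer_le (R M : Type*) [Fintype R] [Fintype M] (N : ℕ) :
    ∃ C, ∀ (G : R × M → Qbar) (η : (Fin N → M) → Qbar),
      habs (fun p : R × (Fin (N + 1) → M) => ∑ k : Fin (N + 1),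
        (-1) ^ (k : ℕ) * G (p.1, p.2 k) * η (fun l => p.2 (k.succAbove l))) ≤
      habs G + habs η + C := by
  obtain ⟨C, hC⟩ := exists_habs_sum_le
    (fun (_ : R × (Fin (N + 1) → M)) (k : Fin (N + 1)) => (-1 : Qbar) ^ (k : ℕ))
    (fun p k => ((p.1, p.2 k), fun l => p.2 (k.succAbove l)))
  refine ⟨C, fun G η => le_trans (le_of_eq (congrArg habs (funext fun p => ?_)))
    ((hC fun q => G q.1 * η q.2).trans (by linarith [habs_tensor_le G η]))⟩
  exact Finset.sum_congr rfl fun i _ => by ring

/-- The matrix of products is linear in the tensor. -/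
theorem exists_habs_mulEntry_le (a b n n' : ℕ) :
    ∃ C, ∀ z, habs (fun q : ((Fin n → Fin (lsDim O a)) × (Fin n' → Fin (lsDim O b))) ×
      Fin (lsDim O (a + b)) => mulEntry O a b z q.1 q.2) ≤ habs z + C := by
  obtain ⟨C, hC⟩ := exists_habs_sum_le
    (fun (p : ((Fin n → Fin (lsDim O a)) × (Fin n' → Fin (lsDim O b))) × Fin (lsDim O (a + b)))
      (i : Fin (lsDim O a) × Fin (lsDim O b)) =>
        coord O (a + b) (phi O a i.1 * phi O b i.2) p.2)
    (fun p i => ((Fin.cons i.1 p.1.1 : Fin (n + 1) → Fin (lsDim O a)),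
      (Fin.cons i.2 p.1.2 : Fin (n' + 1) → Fin (lsDim O b))))
  refine ⟨C, fun z => le_trans (le_of_eq (congrArg habs (funext fun p => ?_))) (hC z)⟩
  simp [mulEntry, Fintype.sum_prod_type, mul_comm]

/-- Enough independent functions among generators give a nonzero minor. -/
theorem exists_minor_ne_zero {m N : ℕ} {α : Type*} [Finite α] (g : α → F)
    (hg : ∀ i, g i ∈ LS O m) (h : N ≤ finrank Qbar (Submodule.span Qbar (Set.range g))) :
    ∃ (I : Fin N → α) (J : Fin N → Fin (lsDim O m)),
      Matrix.det (Matrix.of fun i k => coord O m (g (I i)) (J k)) ≠ 0 := by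
  classical
  obtain ⟨s, hsub, hspan, hli⟩ := exists_linearIndependent Qbar (Set.range g)
  have : Fintype s := ((Set.finite_range g).subset hsub).fintype
  have hcard : N ≤ Fintype.card s := by
    have h1 := finrank_span_eq_card hli
    rw [Subtype.range_coe, hspan] at h1
    simp only [← Nat.card_eq_fintype_card, Set.coe_eq_subtype] at h1 ⊢
    omega
  let e : Fin N ↪ s := (Fin.castLEEmb hcard).trans (Fintype.equivFin s).symm.toEmbedding
  choose I hI using fun i => hsub (e i).2
  have hli' : LinearIndependent Qbar fun i => g (I i) := by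
    have e' : (fun i => g (I i)) = Subtype.val ∘ e := funext hI
    rw [e']
    exact hli.comp e e.injective
  obtain ⟨J, hJ⟩ := exists_det_ne_zero (Matrix.of fun i k => coord O m (g (I i)) k)
    (linearIndependent_coord (fun i => hg (I i)) hli')
  exact ⟨I, J, hJ⟩

variable {c : ℤ} (hc : Flat.IsThreshold Qbar F c)
include hc

theorem span_slice_mul {a b n n' d e : ℕ} (ha : c + d + 1 ≤ a) (hab : c + a + e ≤ b)
    {x : (Fin (n + 1) → Fin (lsDim O a)) → Qbar} {y : (Fin (n' + 1) → Fin (lsDim O b)) → Qbar}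
    {D E : Divisor Qbar F} (hd : Divisor.degree D = d) (he : Divisor.degree E = e)
    (hx : Submodule.span Qbar (Set.range (slice x)) = WS O a D)
    (hy : Submodule.span Qbar (Set.range (slice y)) = WS O b E) :
    rrn Qbar F (a + b) (d + e) ≤ finrank Qbar (Submodule.span Qbar
      (Set.range fun p : (Fin n → Fin (lsDim O a)) × (Fin n' → Fin (lsDim O b)) =>
        slice x p.1 * slice y p.2)) := by
  set V := Submodule.span Qbar
      (Set.range fun p : (Fin n → Fin (lsDim O a)) × (Fin n' → Fin (lsDim O b)) =>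
        slice x p.1 * slice y p.2)
  have : Module.Finite Qbar V := Module.Finite.span_of_finite Qbar (Set.finite_range _)
  have hUV : ∀ u ∈ WS O a D, ∀ w ∈ WS O b E, u * w ∈ V := by
    intro u hu w hw
    rw [← hx] at hu
    rw [← hy] at hw
    refine Submodule.span_induction (p := fun u _ => u * w ∈ V) ?_ (by simp)
      (fun u u' _ _ h h' => by rw [add_mul]; exact add_mem h h')
      (fun r u _ h => by rw [smul_mul_assoc]; exact Submodule.smul_mem _ r h) hu
    rintro _ ⟨S, rfl⟩
    refine Submodule.span_induction (p := fun w _ => slice x S * w ∈ V) ?_ (by simp)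
      (fun u u' _ _ h h' => by rw [mul_add]; exact add_mem h h')
      (fun r u _ h => by rw [mul_smul_comm]; exact Submodule.smul_mem _ r h) hw
    rintro _ ⟨T, rfl⟩
    exact Submodule.subset_span ⟨(S, T), rfl⟩
  have h1 := Flat.span_mul_eq hc (G := Finsupp.single O (a : ℤ) - D)
    (G' := Finsupp.single O (b : ℤ) - E) (by rw [degree_WS, hd]; omega)
    (by rw [degree_WS, degree_WS, hd, he]; omega)
  have h2 : WS O (a + b) (D + E) ≤ V := by
    refine le_trans (le_of_eq ?_) (h1.trans (Submodule.span_le.2 ?_))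
    · rw [WS]; congr 1; rw [Nat.cast_add, Finsupp.single_add]; abel
    · rintro _ ⟨u, hu, w, hw, rfl⟩
      exact hUV u hu w hw
  have hc0 := hc.1
  rw [← (finrank_WS (O := O) (m := a + b) (d := d + e) hc
    (show Divisor.degree (D + E) = ((d + e : ℕ) : ℤ) by rw [map_add, hd, he]; push_cast; rfl)
    (by push_cast; omega)).2]
  exact Submodule.finrank_mono h2

/-- **The product estimate**: the maximal minors of the products are large. -/
theorem exists_mulMinor_ge {a b n n' d e B B' : ℕ} (ha : c + d + 1 ≤ a) (hab : c + a + e + 1 ≤ b)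
    (hB : c + a ≤ B) (hB' : c + b ≤ B') (hn : n + 1 = rrn Qbar F a d)
    (hn' : n' + 1 = rrn Qbar F b e) :
    ∃ C, ∀ x y, x ≠ 0 → y ≠ 0 → IsGood O a B (rrn Qbar F (a + B) d) (n := n) x →
      IsGood O b B' (rrn Qbar F (b + B') e) (n := n') y →
      (rrn Qbar F (a + b) (d + e) : ℝ) * (habs x + habs y) ≤
        habs (mulMinor O a b (rrn Qbar F (a + b) (d + e)) (fun q => x q.1 * y q.2)) + C := by
  set N := rrn Qbar F (a + b) (d + e)
  obtain ⟨C, hC⟩ := exists_habs_biEval_ge (isHomogeneous_mulPoly (O := O) a b N n n')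
    (isHomogeneous_goodEqs (O := O) (m := a) (B := B) (N := rrn Qbar F (a + B) d) (n := n))
    (isHomogeneous_goodEqs (O := O) (m := b) (B := B') (N := rrn Qbar F (b + B') e) (n := n'))
    (fun x y hx hy h0 => by
      by_contra hne
      push Not at hne
      obtain ⟨D, hD, hd, hxD⟩ := IsGood.exists_divisor hc ha hB hn hne.1 ((isGood_iff x).2 hx)
      obtain ⟨E, hE, he, hyE⟩ := IsGood.exists_divisor hc (by have := hc.1; omega) hB' hn' hne.2
        ((isGood_iff y).2 hy)
      obtain ⟨I, J, hIJ⟩ := exists_minor_ne_zero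
        (g := fun p : (Fin n → Fin (lsDim O a)) × (Fin n' → Fin (lsDim O b)) =>
          slice x p.1 * slice y p.2)
        (fun p => mul_mem_LS (slice_mem_LS x p.1) (slice_mem_LS y p.2))
        (span_slice_mul hc ha (by omega) hd he hxD hyE)
      refine hIJ ?_
      have h := h0 (I, J)
      rw [congrFun (eval_mulPoly a b N n n' _) (I, J), mulMinor] at h
      simpa only [mulEntry_eq] using h)
  exact ⟨C, fun x y hx hy hxg hyg => by
    have h := hC x y hx hy ((isGood_iff x).1 hxg) ((isGood_iff y).1 hyg)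
    rwa [eval_mulPoly] at h⟩

omit hc in
theorem hgt_eq {m d n : ℕ} {D : Divisor Qbar F} (hd : Divisor.degree D = d)
    (hn : n = rrn Qbar F m d) : hgt O m D = habs (plk O m n D) := by
  subst hn
  have h : (Divisor.degree D).toNat = d := by rw [hd, Int.toNat_natCast]
  subst h
  rfl

theorem habs_ctr_plk {m d n : ℕ} {D : Divisor Qbar F} (hD : 0 ≤ D) (hd : Divisor.degree D = d)
    (hm : c + d + 1 ≤ m) (hn : n = rrn Qbar F m (d + 1)) {P : Place Qbar F} (hP : D P = 0)
    (hPO : P ≠ O) :
    ctr (psi O m P) (plk O m (n + 1) D) ≠ 0 ∧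
      habs (ctr (psi O m P) (plk O m (n + 1) D)) = hgt O m (D + Finsupp.single P 1) := by
  obtain ⟨a, ha, h⟩ := ctr_plk hc hD hd hm hn hP hPO
  have hd' : Divisor.degree (D + Finsupp.single P 1) = ((d + 1 : ℕ) : ℤ) := by
    simp [hd, deg_eq_one]
  obtain ⟨b, hb⟩ := exists_isFrame (O := O) (m := m) (d := d + 1) hc hd' (by push_cast; omega)
  refine ⟨?_, by rw [h, habs_smul ha, hgt_eq hd' hn]⟩
  rw [h, hn]
  exact smul_ne_zero ha (plk_ne_zero (add_nonneg hD fun v => by
    classical
    rw [Finsupp.single_apply]; split_ifs <;> simp) hb)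

omit hc in
theorem pval_slice {m n : ℕ} (x : (Fin (n + 1) → Fin (lsDim O m)) → Qbar)
    (S : Fin n → Fin (lsDim O m)) {P : Place Qbar F} (hP : P ≠ O) :
    pval P (slice x S) = ctr (psi O m P) x S := by
  rw [pval_eq_sum (slice_mem_LS x S) hP, slice, coord_sum_smul]
  exact Finset.sum_congr rfl fun j _ => mul_comm _ _

theorem span_slice_plk {m d n : ℕ} {D : Divisor Qbar F} (hD : 0 ≤ D) (hd : Divisor.degree D = d)
    (hm : c + d ≤ m) (hn : n + 1 = rrn Qbar F m d) :
    Submodule.span Qbar (Set.range (slice (plk O m (n + 1) D))) = WS O m D := by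
  have hfr : ∃ b : Fin (n + 1) → F, IsFrame (WS O m D) b := by
    rw [hn]; exact exists_isFrame hc hd hm
  obtain ⟨b, hb⟩ := hfr
  refine Submodule.eq_of_le_of_finrank_le
    (Submodule.span_le.2 (Set.range_subset_iff.2 (slice_plk_mem hD hb))) ?_
  rw [(finrank_WS (O := O) hc hd hm).2, ← hn]
  exact (isGood_plk hc (B := m) hm hn hD hd).le_finrank (plk_ne_zero hD hb)

/-! ### Steps of the additivity -/

omit hc in
/-- The genus is not negative. -/
private lemma rGenus_nonneg_Qbar : (0 : ℤ) ≤ rGenus Qbar F := by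
  classical
  have h1 : rrDim (0 : Divisor Qbar F) ≤ 1 := by
    obtain ⟨O⟩ := exists_place (K := Qbar) (F := F)
    have hp := rrDim_le_add (D := -Finsupp.single O (1 : ℤ)) (E := (0 : Divisor Qbar F))
      (fun v => by
        simp only [Finsupp.neg_apply, Finsupp.single_apply, Finsupp.zero_apply]
        split_ifs <;> simp)
    have hbot : rrDim (-Finsupp.single O (1 : ℤ) : Divisor Qbar F) = 0 := by
      rw [rrDim, riemannRochSpace_eq_bot_of_degree_neg (by simp [deg_eq_one]), finrank_bot]
    rw [hbot, sub_neg_eq_add, zero_add, Divisor.degree_single, deg_eq_one] at hp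
    omega
  have := rrDef_le_rGenus (0 : Divisor Qbar F)
  rw [rrDef, map_zero] at this
  omega

/-- Spaces of the expected dimension have frames. -/
private lemma exists_frame_succ {m d n : ℕ} {D : Divisor Qbar F} (hd : Divisor.degree D = d)
    (hm : c + d ≤ m) (hn : n + 1 = rrn Qbar F m d) :
    ∃ bb : Fin (n + 1) → F, IsFrame (WS O m D) bb := by
  rw [hn]
  exact exists_isFrame hc hd hm

omit hc in
/-- The coordinate determinant of combinations of `bb` is a multiple of that of `bb`. -/
private lemma detT_eq_det_smul {m N : ℕ} {bb g : Fin N → F} (hbb : ∀ i, bb i ∈ LS O m)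
    {γ : Fin N → Fin N → Qbar} (hg : ∀ i, ∑ l, γ i l • bb l = g i) :
    detT O m g = Matrix.det (Matrix.of γ) • detT O m bb := by
  funext J
  show Matrix.det (Matrix.of fun i k => coord O m (g i) (J k)) =
    Matrix.det (Matrix.of γ) * Matrix.det (Matrix.of fun i k => coord O m (bb i) (J k))
  rw [← Matrix.det_mul]
  congr 1
  ext i k
  rw [Matrix.mul_apply, Matrix.of_apply, ← hg i, coord_sum_comb _ hbb]
  simp

omit hc in
/-- The minors of the products are the coordinate determinants of the products. -/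
private lemma mulMinor_eq_detT {a b N n n' : ℕ} (x : (Fin (n + 1) → Fin (lsDim O a)) → Qbar)
    (y : (Fin (n' + 1) → Fin (lsDim O b)) → Qbar)
    (I : Fin N → (Fin n → Fin (lsDim O a)) × (Fin n' → Fin (lsDim O b)))
    (J : Fin N → Fin (lsDim O (a + b))) :
    mulMinor O a b N (fun q => x q.1 * y q.2) (I, J) =
      detT O (a + b) (fun i => slice x (I i).1 * slice y (I i).2) J := by
  simp only [mulMinor, detT, mulEntry_eq]

omit hc in
/-- Laplace expansion of a contracted determinant along the values at `P`. -/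
private lemma ctr_detT_pval {m N : ℕ} (g : Fin (N + 1) → F) (hg : ∀ i, g i ∈ LS O m)
    {P : Place Qbar F} (hP : P ≠ O) (J : Fin N → Fin (lsDim O m)) :
    ctr (psi O m P) (detT O m g) J = ∑ i : Fin (N + 1), (-1) ^ (i : ℕ) * pval P (g i) *
      detT O m (fun l => g (i.succAbove l)) J := by
  rw [ctr_detT]
  refine Finset.sum_congr rfl fun i _ => ?_
  rw [pval_eq_sum (hg i) hP, detT]
  congr 2
  exact Finset.sum_congr rfl fun j _ => mul_comm _ _

omit hc in
/-- Cramer's rule for the value at `P` of a combination of `bb`. -/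
private lemma pval_mul_detT_eq {m N : ℕ} {bb : Fin (N + 1) → F} (hbb : ∀ i, bb i ∈ LS O m)
    {P : Place Qbar F} (hP : P ≠ O) (γ : Fin (N + 1) → Qbar)
    (J : Fin (N + 1) → Fin (lsDim O m)) :
    pval P (∑ i, γ i • bb i) * detT O m bb J = ∑ k : Fin (N + 1), (-1) ^ (k : ℕ) *
      coord O m (∑ i, γ i • bb i) (J k) *
        ctr (psi O m P) (detT O m bb) (fun l => J (k.succAbove l)) := by
  set A : Matrix (Fin (N + 1)) (Fin (N + 1)) Qbar :=
    Matrix.of fun i k => coord O m (bb i) (J k)
  set φ : Fin (N + 1) → Qbar := fun i => pval P (bb i)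
  have hup : ∀ k : Fin (N + 1), Matrix.det (A.updateCol k φ) =
      (-1) ^ (k : ℕ) * ctr (psi O m P) (detT O m bb) (fun l => J (k.succAbove l)) := by
    intro k
    rw [Matrix.det_succ_column _ k, ctr_detT_pval bb hbb hP, Finset.mul_sum]
    refine Finset.sum_congr rfl fun i _ => ?_
    rw [Matrix.updateCol_self, Matrix.submatrix_updateCol_succAbove, detT,
      show A.submatrix i.succAbove k.succAbove = Matrix.of fun l r =>
        coord O m (bb (i.succAbove l)) (J (k.succAbove r)) from rfl, pow_add]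
    ring
  have hcr := A.mulVec_cramer φ
  rw [pval_sum fun i _ => (ordGE_of_mem (hbb i) hP).smul _,
    Finset.sum_congr rfl fun i _ => pval_smul (γ i) (ordGE_of_mem (hbb i) hP), detT, Finset.sum_mul]
  trans ∑ k, (∑ i, γ i * A i k) * Matrix.det (A.updateCol k φ)
  · simp only [Finset.sum_mul]
    rw [Finset.sum_comm]
    refine Finset.sum_congr rfl fun i _ => ?_
    have h := congrFun hcr i
    simp only [Matrix.mulVec, dotProduct, Matrix.cramer_apply, Pi.smul_apply, smul_eq_mul] at h
    rw [mul_assoc, mul_comm (φ i), ← h, Finset.mul_sum]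
    exact Finset.sum_congr rfl fun k _ => by ring
  · refine Finset.sum_congr rfl fun k _ => ?_
    rw [hup, coord_sum_comb _ hbb]
    simp [A]
    ring

omit hc in
/-- The values at `P` of the products of slices. -/
private lemma habs_pval_products {a b n n' : ℕ} {x : (Fin (n + 1) → Fin (lsDim O a)) → Qbar}
    {y : (Fin (n' + 1) → Fin (lsDim O b)) → Qbar} {P : Place Qbar F} (hP : P ≠ O)
    (hx : ctr (psi O a P) x ≠ 0) (hy : ctr (psi O b P) y ≠ 0) :
    (fun p : (Fin n → Fin (lsDim O a)) × (Fin n' → Fin (lsDim O b)) =>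
        pval P (slice x p.1 * slice y p.2)) ≠ 0 ∧
      habs (fun p : (Fin n → Fin (lsDim O a)) × (Fin n' → Fin (lsDim O b)) =>
        pval P (slice x p.1 * slice y p.2)) =
        habs (ctr (psi O a P) x) + habs (ctr (psi O b P) y) := by
  have h : (fun p : (Fin n → Fin (lsDim O a)) × (Fin n' → Fin (lsDim O b)) =>
      pval P (slice x p.1 * slice y p.2)) =
      fun p => ctr (psi O a P) x p.1 * ctr (psi O b P) y p.2 := funext fun p => by
    rw [pval_mul (ordGE_of_mem (slice_mem_LS x p.1) hP) (ordGE_of_mem (slice_mem_LS y p.2) hP),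
      pval_slice _ _ hP, pval_slice _ _ hP]
  rw [h]
  obtain ⟨S, hS⟩ := Function.ne_iff.1 hx
  obtain ⟨T, hT⟩ := Function.ne_iff.1 hy
  exact ⟨Function.ne_iff.2 ⟨(S, T), mul_ne_zero hS hT⟩, habs_tensor hx hy⟩

/-- Some maximal minor of the products is nonzero in a frame of `L((a + b) O - D - E)`. -/
private lemma det_coeff_ne_zero {a b n n' d e N : ℕ} (ha : c + d + 1 ≤ a) (hab : c + a + e ≤ b)
    {D E : Divisor Qbar F} (hD : 0 ≤ D) (hE : 0 ≤ E) (hd : Divisor.degree D = d)
    (he : Divisor.degree E = e) (hn : n + 1 = rrn Qbar F a d) (hn' : n' + 1 = rrn Qbar F b e)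
    (hN : N + 1 = rrn Qbar F (a + b) (d + e)) {bb : Fin (N + 1) → F}
    (hbb : ∀ i, bb i ∈ LS O (a + b))
    {γ : (Fin n → Fin (lsDim O a)) × (Fin n' → Fin (lsDim O b)) → Fin (N + 1) → Qbar}
    (hγ : ∀ p, ∑ i, γ p i • bb i =
      slice (plk O a (n + 1) D) p.1 * slice (plk O b (n' + 1) E) p.2) :
    (fun I : Fin (N + 1) → (Fin n → Fin (lsDim O a)) × (Fin n' → Fin (lsDim O b)) =>
      Matrix.det (Matrix.of fun i => γ (I i))) ≠ 0 := by
  have hc0 := hc.1
  set x := plk O a (n + 1) D
  set y := plk O b (n' + 1) E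
  obtain ⟨I, J, hIJ⟩ := exists_minor_ne_zero
    (g := fun p : (Fin n → Fin (lsDim O a)) × (Fin n' → Fin (lsDim O b)) =>
      slice x p.1 * slice y p.2)
    (fun p => mul_mem_LS (slice_mem_LS x p.1) (slice_mem_LS y p.2))
    (span_slice_mul hc ha hab hd he
      (span_slice_plk hc hD hd (by omega) hn) (span_slice_plk hc hE he (by omega) hn'))
  intro h0
  refine hIJ ?_
  have h := congrFun (detT_eq_det_smul hbb fun i => hγ (I (finCongr hN i)))
    (fun k => J (finCongr hN k))
  rw [congrFun h0 (fun i => I (finCongr hN i)), Pi.zero_apply, zero_smul, Pi.zero_apply] at h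
  rw [← h, detT, ← Matrix.det_submatrix_equiv_self (finCongr hN)]
  congr 1

/-- **The increments of the heights are additive**: for divisors `D`, `E ≥ 0` of degrees `d`,
`e` and a place `P` outside both, the increment of `hgt (a + b)` at `D + E` by `P` is the sum of
those of `hgt a` at `D` and of `hgt b` at `E`, up to a constant. -/
theorem exists_delta {a b d e : ℕ} (ha : c + d + 2 + rGenus Qbar F ≤ a)
    (hab : c + a + e + 2 ≤ b) :
    ∃ C, ∀ (D E : Divisor Qbar F) (P : Place Qbar F), 0 ≤ D → 0 ≤ E → Divisor.degree D = d →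
      Divisor.degree E = e → P ≠ O → D P = 0 → E P = 0 →
        |(hgt O (a + b) (D + E + Finsupp.single P 1) - hgt O (a + b) (D + E)) -
          (hgt O a (D + Finsupp.single P 1) - hgt O a D) -
          (hgt O b (E + Finsupp.single P 1) - hgt O b E)| ≤ C := by
  classical
  have hc0 := hc.1
  have hg0 := rGenus_nonneg_Qbar (F := F)
  set n := rrn Qbar F a (d + 1) with hn_def
  set n' := rrn Qbar F b (e + 1) with hn'_def
  set N := rrn Qbar F (a + b) (d + e + 1) with hN_def
  have e1 := rrn_eq hc (m := a) (d := d + 1) (by push_cast; omega) O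
  have e2 := rrn_eq hc (m := a) (d := d) (by omega) O
  have e3 := rrn_eq hc (m := b) (d := e + 1) (by push_cast; omega) O
  have e4 := rrn_eq hc (m := b) (d := e) (by omega) O
  have e5 := rrn_eq hc (m := a + b) (d := d + e + 1) (by push_cast; omega) O
  have e6 := rrn_eq hc (m := a + b) (d := d + e) (by push_cast; omega) O
  have hn : n + 1 = rrn Qbar F a d := by rw [hn_def]; push_cast at e1; omega
  have hn' : n' + 1 = rrn Qbar F b e := by rw [hn'_def]; push_cast at e3; omega
  have hN : N + 1 = rrn Qbar F (a + b) (d + e) := by rw [hN_def]; push_cast at e5 e6; omega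
  obtain ⟨C₀, hC₀⟩ := exists_mulMinor_ge (O := O) hc (a := a) (b := b) (B := a + c.toNat)
    (B' := b + c.toNat) (d := d) (e := e) (by omega) (by omega) (by omega) (by omega) hn hn'
  obtain ⟨C₁, hC₁⟩ := exists_habs_mulMinor_le (O := O) a b N n n'
  let R := (Fin n → Fin (lsDim O a)) × (Fin n' → Fin (lsDim O b))
  obtain ⟨C₂, hC₂⟩ := exists_habs_mulEntry_le (O := O) a b n n'
  obtain ⟨C₃, hC₃⟩ := exists_habs_expand_le R (Fin (lsDim O (a + b))) N
  obtain ⟨C₄, hC₄⟩ := exists_habs_cramer_le R (Fin (lsDim O (a + b))) N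
  refine ⟨|C₀| + |C₁| + |C₂| + |C₃| + |C₄|, fun D E P hD hE hd he hPO hDP hEP => ?_⟩
  have hde : Divisor.degree (D + E) = ((d + e : ℕ) : ℤ) := by rw [map_add, hd, he]; push_cast; rfl
  have hDE : 0 ≤ D + E := add_nonneg hD hE
  set x := plk O a (n + 1) D with hx_def
  set y := plk O b (n' + 1) E with hy_def
  obtain ⟨bD, hbD⟩ := exists_frame_succ hc hd (by omega) hn (O := O)
  obtain ⟨bE, hbE⟩ := exists_frame_succ hc he (by omega) hn' (O := O)
  obtain ⟨bb, hbb⟩ := exists_frame_succ hc hde (by push_cast; omega) hN (O := O)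
  have hx0 : x ≠ 0 := plk_ne_zero hD hbD
  have hy0 : y ≠ 0 := plk_ne_zero hE hbE
  have hbbLS : ∀ i, bb i ∈ LS O (a + b) := fun i => WS_le_LS hDE (hbb.mem i)
  set w := detT O (a + b) bb with hw
  obtain ⟨α, hα, hwα⟩ := plk_eq hDE hbb
  have hw0 : w ≠ 0 := detT_ne_zero hbbLS hbb.li
  obtain ⟨hcx0, hcx⟩ := habs_ctr_plk hc hD hd (by omega) hn_def hDP hPO
  obtain ⟨hcy0, hcy⟩ := habs_ctr_plk hc hE he (by omega) hn'_def hEP hPO
  obtain ⟨hcw0', hcw'⟩ := habs_ctr_plk hc hDE hde (by push_cast; omega) hN_def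
    (by rw [Finsupp.add_apply, hDP, hEP, add_zero]) hPO
  rw [hwα, map_smul] at hcw' hcw0'
  rw [habs_smul hα] at hcw'
  have hπ : hgt O (a + b) (D + E) = habs w := by rw [hgt_eq hde hN, hwα, habs_smul hα]
  -- the products in the frame `bb`
  choose γ hγ using fun p : R => hbb.exists_coeff (f := slice x p.1 * slice y p.2) (by
    have h := mul_mem_riemannRochSpace (slice_plk_mem hD hbD p.1) (slice_plk_mem hE hbE p.2)
    convert h using 2
    rw [Nat.cast_add, Finsupp.single_add]; abel)
  set z : (Fin (n + 1) → Fin (lsDim O a)) × (Fin (n' + 1) → Fin (lsDim O b)) → Qbar :=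
    fun q => x q.1 * y q.2
  have hz : habs z = habs x + habs y := habs_tensor hx0 hy0
  let cI : (Fin (N + 1) → R) → Qbar := fun I => Matrix.det (Matrix.of fun i => γ (I i))
  have hcI0 : cI ≠ 0 := det_coeff_ne_zero hc (by omega) (by omega) hD hE hd he hn hn' hN hbbLS hγ
  obtain ⟨hMψ0, hMψ⟩ := habs_pval_products hPO hcx0 hcy0
  -- the first inequality: Laplace expansion
  have hi : habs cI + habs (ctr (psi O (a + b) P) w) ≤
      habs (ctr (psi O a P) x) + habs (ctr (psi O b P) y) + (N * (habs x + habs y) + C₁) + C₃ := by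
    rw [← habs_tensor hcI0 fun h => hcw0' (by rw [h, smul_zero]), ← hMψ]
    refine le_trans (le_of_eq (congrArg habs (funext fun p => ?_)))
      ((hC₃ _ (mulMinor O a b N z)).trans (by linarith [hz ▸ hC₁ z]))
    have h := ctr_detT_pval (fun i => slice x (p.1 i).1 * slice y (p.1 i).2)
      (fun i => mul_mem_LS (slice_mem_LS x _) (slice_mem_LS y _)) hPO p.2
    rw [detT_eq_det_smul hbbLS fun i => hγ (p.1 i), map_smul, Pi.smul_apply, smul_eq_mul] at h
    simpa only [z, mulMinor_eq_detT] using h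
  -- the second inequality: Cramer's rule
  have hii : habs (ctr (psi O a P) x) + habs (ctr (psi O b P) y) + habs w ≤
      (habs x + habs y + C₂) + habs (ctr (psi O (a + b) P) w) + C₄ := by
    rw [← hMψ, ← habs_tensor hMψ0 hw0]
    refine le_trans (le_of_eq (congrArg habs (funext fun p => ?_)))
      ((hC₄ (fun q => mulEntry O a b z q.1 q.2) (ctr (psi O (a + b) P) w)).trans
        (by linarith [hz ▸ hC₂ z]))
    simpa only [z, w, mulEntry_eq, hγ] using pval_mul_detT_eq hbbLS hPO (γ p.1) p.2
  have hminN : habs (mulMinor O a b (N + 1) z) = habs cI + habs w := by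
    rw [← habs_tensor hcI0 hw0]
    exact congrArg habs (funext fun q => (mulMinor_eq_detT x y q.1 q.2).trans
      (congrFun (detT_eq_det_smul hbbLS fun i => hγ (q.1 i)) q.2))
  have h0 := hC₀ x y hx0 hy0 (isGood_plk hc (by omega) hn hD hd)
    (isGood_plk hc (by omega) hn' hE he)
  rw [← hN, show (fun q : (Fin (n + 1) → Fin (lsDim O a)) × (Fin (n' + 1) → Fin (lsDim O b)) =>
    x q.1 * y q.2) = z from rfl, hminN] at h0
  push_cast at h0
  rw [← hcx, ← hcy, ← hcw', hπ, show hgt O a D = habs x from hgt_eq hd hn,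
    show hgt O b E = habs y from hgt_eq he hn']
  rw [abs_le]
  constructor <;>
    linarith [le_abs_self C₀, le_abs_self C₁, le_abs_self C₂, le_abs_self C₃, le_abs_self C₄,
      abs_nonneg C₀, abs_nonneg C₁, abs_nonneg C₂, abs_nonneg C₃, abs_nonneg C₄]

end FermatAgent.MW
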