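import Fermat.Agent.MW.North
import Fermat.Agent.Flat.ModularCoords
import Mathlib.GroupTheory.Descent

/-!
# Descent on the invariant classes

If the invariant classes modulo two form a finite group, the invariant classes are finitely
generated.
-/

set_option autoImplicit false

noncomputable section

open AlgebraicCurve Module FermatAgent.Curve FermatAgent.Curve.Jac
open FermatAgent.GaloisBasic
open ModularCurve (arithmeticGalois laurentBaseChange)

namespace FermatAgent.MW

variable (F₀ : IntermediateField ℚ (LaurentSeries ℚ))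

/-- The classes invariant under every automorphism of the base. -/
abbrev invClasses : AddSubgroup (Pic0 Qbar (laurentBaseChange Qbar F₀)) :=
  FixedPoints.addSubgroup GQ (Pic0 Qbar (laurentBaseChange Qbar F₀))

variable {F₀} [IsFF Qbar (laurentBaseChange Qbar F₀)]

/-- A place and the basis attached to it are fixed by the automorphisms over a number field. -/
theorem exists_field_fixing (O : Place Qbar (laurentBaseChange Qbar F₀)) (k : ℕ) :
    ∃ L : IntermediateField ℚ Qbar, FiniteDimensional ℚ L ∧ ∀ σ ∈ L.fixingSubgroup,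
      arithmeticGalois F₀ σ • O = O ∧ ∀ i, arithmeticGalois F₀ σ • phi O k i = phi O k i :=
  (Flat.smallFixed_place F₀ O).and
    (Flat.SmallFixed.forall_finite fun i => Flat.smallFixed_fun F₀ (phi O k i))

/-- A norm array of an invariant class with one coordinate equal to `1` is defined over any field
fixing the base place and its basis. -/
theorem mem_of_isNorm_of_invariant [DecidableEq (Place Qbar (laurentBaseChange Qbar F₀))]
    {m d n k : ℕ} {O : Place Qbar (laurentBaseChange Qbar F₀)}
    (L : IntermediateField ℚ Qbar) (hfix : ∀ σ ∈ L.fixingSubgroup,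
      arithmeticGalois F₀ σ • O = O ∧ ∀ i, arithmeticGalois F₀ σ • phi O k i = phi O k i)
    (x : invClasses F₀) {v : (Fin n → Fin (lsDim O k)) → Qbar}
    (hv : IsNorm O m d n k (x : Pic0 Qbar (laurentBaseChange Qbar F₀)) v)
    {J₀ : Fin n → Fin (lsDim O k)} (hJ₀ : v J₀ = 1) (J : Fin n → Fin (lsDim O k)) : v J ∈ L := by
  rw [← InfiniteGalois.fixedField_fixingSubgroup L, IntermediateField.mem_fixedField_iff]
  intro σ hσ
  obtain ⟨hO, hphi⟩ := hfix σ hσ
  have hmap := hv.map (arithmeticGalois F₀ σ) hO hphi
  rw [← ModularCurve.galois_smul_pic0_def, x.2 σ] at hmap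
  obtain ⟨a, -, ha⟩ := hv.unique hmap
  have h1 := congrFun ha J₀
  simp only [Pi.smul_apply, smul_eq_mul, hJ₀, map_one, mul_one] at h1
  have h2 := congrFun ha J
  rw [← h1, one_smul] at h2
  exact h2

/-- **Northcott's property**: there are only finitely many invariant classes of height at most a
given bound. -/
theorem finite_invariant_hCls_le {c : ℤ} (hc : Flat.IsThreshold Qbar (laurentBaseChange Qbar F₀) c)
    (O : Place Qbar (laurentBaseChange Qbar F₀)) (B : ℝ) :
    {x : invClasses F₀ | hCls O hc (x : Pic0 Qbar (laurentBaseChange Qbar F₀)) ≤ B}.Finite := by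
  classical
  have hc0 := hc.1
  set m := ambDeg (laurentBaseChange Qbar F₀) c with hm
  set d := repDeg c with hd
  set n := rrn Qbar (laurentBaseChange Qbar F₀) m d with hn
  set k := m + m - 2 * d with hk
  have hmd : 2 * d ≤ m + m := by simp only [hm, hd, ambDeg]; omega
  obtain ⟨C, hC⟩ := exists_habs_isNorm (O := O) hc (k := k)
    (show 2 * d + k = m + m by omega)
  obtain ⟨L, hL, hfix⟩ := exists_field_fixing O k
  have := hL
  have hfin : ∀ v : (Fin n → Fin (lsDim O k)) → Qbar,
      {x : Pic0 Qbar (laurentBaseChange Qbar F₀) | IsNorm O m d n k x v}.Finite := by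
    have key : ∀ j, j = n → ∀ v : (Fin j → Fin (lsDim O k)) → Qbar,
        {x : Pic0 Qbar (laurentBaseChange Qbar F₀) | IsNorm O m d j k x v}.Finite := by
      rintro (_ | j) hj v
      · exfalso
        have e := rrn_eq hc (m := m) (d := d) (by simp only [hm, hd, ambDeg]; push_cast; omega) O
        have : 1 ≤ rrn Qbar (laurentBaseChange Qbar F₀) m d := by
          have : (0 : ℤ) < (m : ℤ) - d + 1 - rGenus Qbar (laurentBaseChange Qbar F₀) := by
            simp only [hm, hd, ambDeg]; push_cast; omega
          omega
        omega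
      · exact finite_isNorm hc (by simp only [hd, repDeg]; omega)
          (by simp only [hm, hd, ambDeg]; push_cast; omega) (hj.trans hn) (by omega) v
    exact key n rfl
  set V : Set ((Fin n → Fin (lsDim O k)) → Qbar) :=
    {v | (∀ J, v J ∈ L) ∧ (∃ J₀, v J₀ = 1) ∧ habs v ≤ (B + C) / 2}
  refine ((((finite_habs_le L ((B + C) / 2) : V.Finite).biUnion fun v _ => hfin v)).preimage
    Subtype.val_injective.injOn).subset fun x hx => ?_
  obtain ⟨v, hv, hvx⟩ := hC (x : Pic0 Qbar (laurentBaseChange Qbar F₀))
  have hv0 : v ≠ 0 := hv.choose_spec.1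
  obtain ⟨J₀, hJ₀⟩ := Function.ne_iff.1 hv0
  have hnorm := hv.smul (inv_ne_zero hJ₀)
  simp only [Set.mem_preimage, Set.mem_iUnion, Set.mem_ofPred_eq]
  refine ⟨(v J₀)⁻¹ • v, ⟨fun J => ?_, ⟨J₀, by simp [inv_mul_cancel₀ hJ₀]⟩, ?_⟩, hnorm⟩
  · exact mem_of_isNorm_of_invariant L hfix x hnorm (J₀ := J₀)
      (by simp [inv_mul_cancel₀ hJ₀]) J
  · rw [habs_smul (inv_ne_zero hJ₀)]
    have := abs_le.1 hvx
    have hxB : hCls O hc (x : Pic0 Qbar (laurentBaseChange Qbar F₀)) ≤ B := hx
    linarith

/-- **Descent**: if the invariant classes modulo two form a finite group, the invariant classes are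
finitely generated: only finitely many of them have height below a given bound, and the height
satisfies the parallelogram law up to a bounded error. -/
theorem fg_invClasses (hfi : (nsmulAddMonoidHom (α := invClasses F₀) 2).range.FiniteIndex) :
    AddGroup.FG (invClasses F₀) := by
  classical
  have : Infinite (Place Qbar (laurentBaseChange Qbar F₀)) := Jac.infinite_places
  obtain ⟨O⟩ := (inferInstance : Nonempty (Place Qbar (laurentBaseChange Qbar F₀)))
  obtain ⟨c, hc⟩ := Flat.exists_isThreshold (K := Qbar) (F := laurentBaseChange Qbar F₀)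
  obtain ⟨C, hC⟩ := exists_habs_isNorm (O := O) hc
    (k := ambDeg (laurentBaseChange Qbar F₀) c + ambDeg (laurentBaseChange Qbar F₀) c -
      2 * repDeg c)
    (by simp only [ambDeg]; omega)
  obtain ⟨C', hC'⟩ := exists_parallelogram O hc
  let h : invClasses F₀ → ℝ := fun x => hCls O hc (x : Pic0 Qbar (laurentBaseChange Qbar F₀)) + C
  have : Northcott h := ⟨fun B => (finite_invariant_hCls_le hc O (B - C)).subset fun x hx => by
    have : h x ≤ B := hx
    show hCls O hc _ ≤ B - C
    simp only [h] at this
    linarith⟩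
  refine AddCommGroup.fg_of_descent' (h := h) (C := C' + 2 * |C|) hfi (fun x => ?_) fun x y => ?_
  · obtain ⟨v, -, hv⟩ := hC (x : Pic0 Qbar (laurentBaseChange Qbar F₀))
    have := abs_le.1 hv
    have := habs_nonneg v
    simp only [h]
    linarith
  · have h1 := abs_le.1 (hC' (x : Pic0 Qbar (laurentBaseChange Qbar F₀)) y)
    have := le_abs_self C
    have := neg_le_abs C
    simp only [h, AddSubgroup.coe_add, AddSubgroup.coe_sub]
    rw [abs_le]
    constructor <;> linarith

end FermatAgent.MW
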