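import Fermat.Agent.Flat.ModularCoords
import Fermat.Agent.GaloisBasic.Frobenius
import Fermat.Agent.MW.Halve.System

/-!
# Divisibility by two of the degree zero class group

For every place `P0` and almost every place `P` the class of `P - P0` is twice another class:
the halving system is solved at the generic point and then specialised.
-/

set_option autoImplicit false

noncomputable section

open AlgebraicCurve MvPolynomial

namespace FermatAgent.MW

open FermatAgent.Curve Halve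

variable {K F : Type} [Field K] [Field F] [Algebra K F] [IsFF K F] [IsAlgClosed K] [CharZero K]

local notation "Ω" => AlgebraicClosure F

namespace Halve

omit [IsFF K F] [IsAlgClosed K] [CharZero K] in
theorem HasVal.planeEq {P0 : Place K F} (Φ : Frame P0) {v : Place K F} {o : Over v Ω}
    {q : Fin 2 → K} {z : Fin 2 → Ω} (hz : ∀ s, HasVal o (z s) (q s)) {c : Option ↥Φ.Z → Ω}
    {a : Option ↥Φ.Z → K} (hc : ∀ i, HasVal o (c i) (a i))
    (T : MvPolynomial (Fin 2) K → MvPolynomial (Fin 2) K) :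
    HasVal o (Φ.planeEq T (MvPolynomial.eval₂ (Frame.kΩ (K := K) (F := F)) z) c)
      (Φ.planeEq T (MvPolynomial.eval q) a) := by
  refine (((HasVal.eval₂ hz _).add ((hc none).mul (HasVal.eval₂ hz _)))).add
    (HasVal.sum Finset.univ fun i _ => (hc (some i)).mul (HasVal.eval₂ hz _))

/-- The function defined by the coefficients. -/
def Frame.fn {P0 : Place K F} (Φ : Frame P0) (a : Option ↥Φ.Z → K) : F :=
  Polynomial.aeval Φ.M.x (Φ.hx ^ 2) + algebraMap K F (a none) * Φ.g0 +
    ∑ i : ↥Φ.Z, algebraMap K F (a (some i)) * Φ.g i.1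

variable {P0 : Place K F} (Φ : Frame P0)

omit [IsFF K F] [IsAlgClosed K] [CharZero K] in
theorem Frame.fn_eq (a : Option ↥Φ.Z → K) :
    Φ.fn a * Polynomial.aeval Φ.M.x Φ.den = Φ.M.val (Φ.planeEq id id fun i => C (a i)) := by
  have hC : ∀ b : K, Φ.M.val (C b) = algebraMap K F b := fun b => aeval_C _ _
  have h0 : Φ.M.val Φ.H0 = Polynomial.aeval Φ.M.x (Φ.den * Φ.hx ^ 2) := Φ.M.val_aeval _
  simp only [Frame.fn, Frame.planeEq, id, map_add, map_mul, map_sum, hC, h0, ← Φ.G0_eq]
  rw [add_mul, add_mul, Finset.sum_mul, Finset.sum_congr rfl fun i _ => by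
    rw [mul_assoc, Φ.G_eq i.1 i.2]]
  ring

omit [CharZero K] in
theorem Frame.fn_ne_zero (a : Option ↥Φ.Z → K) : Φ.fn a ≠ 0 := by
  classical
  intro h0
  have hzero : Φ.M.val (Φ.planeEq id id fun i => C (a i)) = 0 := by rw [← Φ.fn_eq, h0, zero_mul]
  have hci : ∀ j : ↥Φ.Z, a (some j) = 0 := by
    intro j
    have h := Φ.M.kills _ hzero (Φ.p j.1) (Φ.point j.1 j.2).2.1
    simp only [Frame.planeEq, id, map_add, map_mul, map_sum, eval_C, (Φ.eval_H0 j.2).1,
      Φ.G0_eval j.1 j.2, mul_zero, zero_add] at h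
    rw [Finset.sum_eq_single j (fun i _ hij => by
      rw [Φ.G_eval i.1 i.2 j.1 j.2 (fun e => hij (Subtype.ext e)), mul_zero])
      (fun h => absurd (Finset.mem_univ j) h)] at h
    exact (mul_eq_zero.1 h).resolve_right (Φ.G_eval_ne j.1 j.2)
  simp only [Frame.fn, hci, map_zero, zero_mul, Finset.sum_const_zero, add_zero] at h0
  set h := Polynomial.aeval Φ.M.x (Φ.hx ^ 2)
  have hx0 : OrdGE P0 1 (Φ.M.x - algebraMap K F 0) := by
    rw [map_zero, sub_zero]; exact Or.inr Φ.ord_x.ge
  have hh : h ≠ 0 ∧ P0.ord h = 0 := by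
    obtain ⟨b, hb⟩ := exists_sub_algebraMap P0 (Φ.M.int P0 (Or.inr (by rw [Φ.ord_x]; omega)))
    have hat : Φ.M.At P0 ![0, b] := ⟨by simpa using hx0, by simpa using hb⟩
    have := hat.ne_zero_ord (G := Polynomial.aeval (X 0) (Φ.hx ^ 2))
      (by simpa [eval_aeval_X] using Φ.hx_zero)
    rwa [Φ.M.val_aeval] at this
  rcases eq_or_ne (a none) 0 with ha | ha
  · rw [ha, map_zero, zero_mul, add_zero] at h0
    exact hh.1 h0
  · have := congrArg P0.ord (eq_neg_of_add_eq_zero_left h0)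
    rw [ord_neg_eq, P0.ord_mul ((_root_.map_ne_zero _).2 ha) Φ.g0_ord.1, ord_algebraMap ha,
      Φ.g0_ord.2, hh.2] at this
    omega

omit [IsFF K F] [IsAlgClosed K] [CharZero K] in
theorem Frame.fn_mem (a : Option ↥Φ.Z → K) :
    Φ.fn a ∈ riemannRochSpace (2 • Φ.B + Finsupp.single P0 1) := by
  refine Submodule.add_mem _ (Submodule.add_mem _ Φ.h_mem ?_) (Submodule.sum_mem _ fun i _ => ?_)
  · rw [← Algebra.smul_def]; exact Submodule.smul_mem _ _ Φ.g0_mem
  · rw [← Algebra.smul_def]; exact Submodule.smul_mem _ _ (Φ.g_mem i.1 i.2)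

/-! ### Specialising the generic solution -/

omit [IsFF K F] [IsAlgClosed K] [CharZero K] in
/-- Evaluation of polynomials at the `j`-th point of a solution. -/
private def Frame.Sol.ev {Φ : Frame P0} (S : Φ.Sol) (j : ↥Φ.Z) :
    MvPolynomial (Fin 2) K → AlgebraicClosure F :=
  eval₂ (Frame.kΩ (K := K) (F := F)) ![S.X j, S.Y j]

open Classical in
/-- The elements which must be regular for the specialisation. -/
private def Frame.Sol.specSet {Φ : Frame P0} (S : Φ.Sol) : Finset (AlgebraicClosure F) :=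
  Finset.univ.image S.c ∪ Finset.univ.image S.X ∪ Finset.univ.image S.Y ∪
    Finset.univ.image (fun j => (S.ev j (Polynomial.aeval (MvPolynomial.X 0) Φ.den))⁻¹) ∪
    Finset.univ.image (fun j => (S.ev j (pderiv 1 Φ.M.R))⁻¹) ∪
    Finset.univ.image (fun j => (S.X j)⁻¹) ∪
    Finset.univ.image (fun j => (S.X j - algebraMap F (AlgebraicClosure F) Φ.M.x)⁻¹) ∪
    Finset.univ.image (fun ij : ↥Φ.Z × ↥Φ.Z =>
      (if S.X ij.1 - S.X ij.2 = 0 then S.Y ij.1 - S.Y ij.2 else S.X ij.1 - S.X ij.2)⁻¹)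

omit [IsFF K F] [IsAlgClosed K] [CharZero K] in
/-- Distinct points of the solution specialise to distinct places. -/
private lemma injective_specialisation (S : Φ.Sol) {P : Place K F} {o : Over P Ω}
    (hval : ∀ z ∈ S.specSet, ∃ b, HasVal o z b) {q : ↥Φ.Z → Fin 2 → K}
    (hq : ∀ j s, HasVal o (![S.X j, S.Y j] s) (q j s)) {Q : ↥Φ.Z → Place K F}
    (hQ : ∀ j, Φ.M.At (Q j) (q j)) : Function.Injective Q := by
  classical
  intro i j hij
  by_contra hne
  obtain ⟨b, hb⟩ := hval
    (if S.X i - S.X j = 0 then S.Y i - S.Y j else S.X i - S.X j)⁻¹ (by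
      simp only [Frame.Sol.specSet, Finset.mem_union]
      exact Or.inr (Finset.mem_image.2 ⟨(i, j), by simp, rfl⟩))
  have hcoord : ∀ s, q i s = q j s := fun s => by
    refine eq_of_ordGE_one_sub (v := Q j) (f := ![Φ.M.x, Φ.M.y] s) ?_ ?_
    · rw [← hij]
      fin_cases s
      · simpa using (hQ i).1
      · simpa using (hQ i).2
    · fin_cases s
      · simpa using (hQ j).1
      · simpa using (hQ j).2
  have hx := hq i 0
  have hy := hq i 1
  have hx' := hq j 0
  have hy' := hq j 1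
  simp only [Matrix.cons_val_zero, Matrix.cons_val_one] at hx hy hx' hy'
  split_ifs at hb with hX
  · exact (hy.sub hy').val_ne_zero hb
      ((S.distinct i j hne).resolve_left fun h => h hX) (sub_eq_zero.2 (hcoord 1))
  · exact (hx.sub hx').val_ne_zero hb hX (sub_eq_zero.2 (hcoord 0))

omit [CharZero K] in
/-- The solution specialises at `P` to coefficients and smooth points away from `P` and `P0`. -/
private lemma exists_specialisation (S : Φ.Sol) {P : Place K F} {o : Over P Ω}
    (hval : ∀ z ∈ S.specSet, ∃ b, HasVal o z b) (hxP : OrdGE P 0 Φ.M.x) :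
    ∃ (a : Option ↥Φ.Z → K) (q : ↥Φ.Z → Fin 2 → K) (Q : ↥Φ.Z → Place K F),
      (∀ i, HasVal o (S.c i) (a i)) ∧ (∀ j s, HasVal o (![S.X j, S.Y j] s) (q j s)) ∧
      (∀ j, eval (q j) (Polynomial.aeval (MvPolynomial.X 0) Φ.den) ≠ 0) ∧
      (∀ j, Φ.M.Smooth (q j)) ∧ (∀ j, Φ.M.At (Q j) (q j)) ∧
      (∀ j, Q j ≠ P ∧ Q j ≠ P0) ∧ Function.Injective Q := by
  classical
  choose a ha using fun i => hval (S.c i) (by simp [Frame.Sol.specSet])
  choose qx hqx using fun j => hval (S.X j) (by simp [Frame.Sol.specSet])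
  choose qy hqy using fun j => hval (S.Y j) (by simp [Frame.Sol.specSet])
  let q : ↥Φ.Z → Fin 2 → K := fun j => ![qx j, qy j]
  have hq : ∀ j s, HasVal o (![S.X j, S.Y j] s) (q j s) := fun j s => by
    fin_cases s <;> simp [q, hqx, hqy]
  have hev : ∀ j G, HasVal o (S.ev j G) (eval (q j) G) := fun j G => HasVal.eval₂ (hq j) G
  have hsm : ∀ j, Φ.M.Smooth (q j) := fun j => by
    obtain ⟨b, hb⟩ := hval (S.ev j (pderiv 1 Φ.M.R))⁻¹ (by simp [Frame.Sol.specSet])
    refine ⟨((hev j Φ.M.R).unique ?_), (hev j _).val_ne_zero hb (S.smooth j)⟩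
    rw [show S.ev j Φ.M.R = 0 from S.curve j]
    exact HasVal.of_zero o
  choose Q hQ using fun j => Model.exists_at (hsm j)
  refine ⟨a, q, Q, ha, hq, fun j => ?_, hsm, hQ, fun j => ?_,
    injective_specialisation Φ S hval hq hQ⟩
  · obtain ⟨b, hb⟩ := hval (S.ev j (Polynomial.aeval (MvPolynomial.X 0) Φ.den))⁻¹
      (by simp [Frame.Sol.specSet])
    exact (hev j _).val_ne_zero hb (S.den_ne j)
  obtain ⟨xP, hxP1⟩ := exists_sub_algebraMap P hxP
  obtain ⟨b, hb⟩ := hval (S.X j)⁻¹ (by simp [Frame.Sol.specSet])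
  obtain ⟨b', hb'⟩ := hval (S.X j - algebraMap F Ω Φ.M.x)⁻¹ (by simp [Frame.Sol.specSet])
  have hQx : OrdGE (Q j) 1 (Φ.M.x - algebraMap K F (qx j)) := by simpa [q] using (hQ j).1
  refine ⟨fun h => ?_, fun h => ?_⟩ <;> rw [h] at hQx
  · exact ((hqx j).sub (HasVal.of_ord o hxP1)).val_ne_zero hb' (S.X_ne j).2
      (sub_eq_zero.2 (eq_of_ordGE_one_sub hQx hxP1))
  · exact (hqx j).val_ne_zero hb (S.X_ne j).1
      (eq_of_ordGE_one_sub hQx (by rw [map_zero, sub_zero]; exact Or.inr Φ.ord_x.ge))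

omit [CharZero K] in
/-- The specialised function vanishes at `P`. -/
private lemma ordGE_one_fn (S : Φ.Sol) {P : Place K F} {o : Over P Ω} {a : Option ↥Φ.Z → K}
    (ha : ∀ i, HasVal o (S.c i) (a i)) (hh : OrdGE P 0 (Polynomial.aeval Φ.M.x (Φ.hx ^ 2)))
    (h0 : OrdGE P 0 Φ.g0) (hg : ∀ i : ↥Φ.Z, OrdGE P 0 (Φ.g i.1)) : OrdGE P 1 (Φ.fn a) := by
  obtain ⟨bh, hbh⟩ := exists_sub_algebraMap P hh
  obtain ⟨b0, hb0⟩ := exists_sub_algebraMap P h0
  choose bi hbi using fun i : ↥Φ.Z => exists_sub_algebraMap P (hg i)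
  have h := ((HasVal.of_ord o hbh).add ((ha none).mul (HasVal.of_ord o hb0))).add
    (HasVal.sum Finset.univ fun i _ => (ha (some i)).mul (HasVal.of_ord o (hbi i)))
  rw [S.gen] at h
  have h1 := congrArg (algebraMap K F) ((HasVal.of_zero o).unique h)
  simp only [map_zero, map_add, map_mul, map_sum] at h1
  have e : Φ.fn a = (Polynomial.aeval Φ.M.x (Φ.hx ^ 2) - algebraMap K F bh) +
      algebraMap K F (a none) * (Φ.g0 - algebraMap K F b0) +
      ∑ i : ↥Φ.Z, algebraMap K F (a (some i)) * (Φ.g i.1 - algebraMap K F (bi i)) := by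
    simp only [Frame.fn, mul_sub, Finset.sum_sub_distrib]
    linear_combination -h1
  rw [e]
  exact (hbh.add (((ordGE_algebraMap _).mul hb0).mono (by omega))).add
    (OrdGE.sum fun i _ => ((ordGE_algebraMap _).mul (hbi i)).mono (by omega))

omit [CharZero K] in
/-- The specialised function vanishes twice at each specialised point. -/
private lemma ordGE_two_fn (S : Φ.Sol) {P : Place K F} {o : Over P Ω} {a : Option ↥Φ.Z → K}
    (ha : ∀ i, HasVal o (S.c i) (a i)) (j : ↥Φ.Z) {q : Fin 2 → K}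
    (hq : ∀ s, HasVal o (![S.X j, S.Y j] s) (q s))
    (hden : eval q (Polynomial.aeval (MvPolynomial.X 0) Φ.den) ≠ 0) (hsm : Φ.M.Smooth q)
    {Q : Place K F} (hQ : Φ.M.At Q q) : OrdGE Q 2 (Φ.fn a) := by
  set G := Φ.planeEq id id fun i => C (a i) with hG
  have hTeval : ∀ U : MvPolynomial (Fin 2) K → MvPolynomial (Fin 2) K,
      (∀ G H, U (G + H) = U G + U H) → (∀ b G, U (C b * G) = C b * U G) →
      eval q (U G) = Φ.planeEq U (eval q) a := fun U hadd hmul => by
    let Uh : MvPolynomial (Fin 2) K →+ MvPolynomial (Fin 2) K := AddMonoidHom.mk' U hadd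
    have hsum : U (∑ i : ↥Φ.Z, C (a (some i)) * Φ.G i.1) =
        ∑ i : ↥Φ.Z, U (C (a (some i)) * Φ.G i.1) := map_sum Uh _ _
    simp only [hG, Frame.planeEq, id, hadd, hmul, hsum, map_add, map_mul, map_sum, eval_C]
  have h1 : eval q G = 0 := by
    show eval q (id G) = 0
    rw [hTeval id (fun _ _ => rfl) fun _ _ => rfl]
    refine (HasVal.planeEq Φ hq ha id).unique ?_
    rw [S.plane j]; exact HasVal.of_zero o
  have h2 : eval q (tang Φ.M.R G) = 0 := by
    rw [hTeval (tang Φ.M.R) (fun G H => by simp [tang]; ring) fun b G => by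
      simp [tang]; ring]
    refine (HasVal.planeEq Φ hq ha (tang Φ.M.R)).unique ?_
    rw [S.tangent j]; exact HasVal.of_zero o
  have h3 := hQ.ordGE_two hsm h1 h2
  obtain ⟨he0, he1⟩ := hQ.ne_zero_ord hden
  rw [Φ.M.val_aeval] at he0 he1
  rw [← Φ.fn_eq, ordGE_iff_le (mul_ne_zero (Φ.fn_ne_zero a) he0),
    Q.ord_mul (Φ.fn_ne_zero a) he0, he1] at h3
  exact Or.inr (by omega)

omit [CharZero K] in
/-- A function of the system with these zeros halves `P - P0`. -/
private lemma exists_halving {P : Place K F} {a : Option ↥Φ.Z → K} {Q : ↥Φ.Z → Place K F}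
    (hne : P ≠ P0) (hxP : OrdGE P 0 Φ.M.x) (hxQ : ∀ j, OrdGE (Q j) 0 Φ.M.x)
    (hQne : ∀ j, Q j ≠ P ∧ Q j ≠ P0) (hQinj : Function.Injective Q)
    (hPzero : OrdGE P 1 (Φ.fn a)) (hQzero : ∀ j, OrdGE (Q j) 2 (Φ.fn a)) :
    ∃ (E : Divisor K F) (f : F), Divisor.degree E = 0 ∧ f ≠ 0 ∧
      divisorOf f = Finsupp.single P 1 - Finsupp.single P0 1 - 2 • E := by
  classical
  set Zd : Divisor K F := ∑ j : ↥Φ.Z, Finsupp.single (Q j) (1 : ℤ) with hZd
  have hdegZ : Divisor.degree Zd = Φ.Z.card := by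
    rw [hZd, map_sum]
    simp [Divisor.degree_single, deg_eq_one]
  set D : Divisor K F := 2 • Φ.B + Finsupp.single P0 1 - Finsupp.single P 1 - 2 • Zd
  have hdegD : Divisor.degree D = 0 := by
    simp only [D, map_sub, map_add, map_nsmul, hdegZ, Φ.degree_B, Divisor.degree_single,
      deg_eq_one]
    ring
  have hfn := Φ.fn_ne_zero a
  have hmem : Φ.fn a ∈ riemannRochSpace D := by
    rw [mem_riemannRochSpace_iff_ne_zero hfn]
    intro v
    have hbase := (mem_riemannRochSpace_iff_ne_zero hfn).1 (Φ.fn_mem a) v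
    have hZv : Zd v = if ∃ j, Q j = v then 1 else 0 := by
      rw [hZd, Finsupp.finsetSum_apply]
      split_ifs with h
      · obtain ⟨j, rfl⟩ := h
        rw [Finset.sum_eq_single j
          (fun i _ hij => Finsupp.single_eq_of_ne fun e => hij (hQinj e).symm)
          (fun h => absurd (Finset.mem_univ j) h), Finsupp.single_eq_same]
      · exact Finset.sum_eq_zero fun i _ => Finsupp.single_eq_of_ne fun e => h ⟨i, e.symm⟩
    simp only [D, Finsupp.sub_apply, Finsupp.add_apply, Finsupp.smul_apply, hZv] at hbase ⊢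
    by_cases hvP : v = P
    · subst hvP
      rw [if_neg (fun ⟨j, hj⟩ => (hQne j).1 hj), Φ.B_eq v hxP, Finsupp.single_eq_same,
        Finsupp.single_eq_of_ne hne]
      have := (ordGE_iff_le hfn).1 hPzero
      simp only [smul_zero]
      omega
    rw [Finsupp.single_eq_of_ne (a := P) hvP]
    split_ifs with hv
    · obtain ⟨j, rfl⟩ := hv
      rw [Φ.B_eq _ (hxQ j), Finsupp.single_eq_of_ne (hQne j).2]
      have := (ordGE_iff_le hfn).1 (hQzero j)
      simp only [smul_zero, nsmul_eq_mul, mul_one]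
      omega
    · simp only [smul_zero, sub_zero]
      exact hbase
  refine ⟨Φ.B - Zd, Φ.fn a, by rw [map_sub, hdegZ, Φ.degree_B, sub_self], hfn, ?_⟩
  rw [divisorOf_eq_neg_of_mem hdegD hfn hmem]
  simp only [D]
  abel

theorem finite_bad_halving (P0 : Place K F) : {P : Place K F | ¬∃ (E : Divisor K F) (f : F),
    Divisor.degree E = 0 ∧ f ≠ 0 ∧
      divisorOf f = Finsupp.single P 1 - Finsupp.single P0 1 - 2 • E}.Finite := by
  classical
  obtain ⟨Φ⟩ := exists_frame P0
  obtain ⟨S⟩ := Φ.exists_sol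
  let regs : Finset F := {Φ.M.x, Φ.g0, Polynomial.aeval Φ.M.x (Φ.hx ^ 2)} ∪ Φ.Z.image Φ.g
  refine (((finite_bad (K := K) S.specSet).union (regs.finite_toSet.biUnion fun f _ =>
    finite_ord_ne_zero (K := K) f)).union (Set.finite_singleton P0)).subset ?_
  intro P hP
  by_contra hgood
  simp only [Set.mem_union, Set.mem_iUnion, Set.mem_ofPred_eq, Set.mem_singleton_iff, not_or,
    not_exists, Finset.mem_coe] at hgood
  obtain ⟨⟨hT, hreg⟩, hne⟩ := hgood
  apply hP
  obtain ⟨o⟩ : Nonempty (Over P Ω) := nonempty_over P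
  have hval : ∀ z ∈ S.specSet, ∃ b, HasVal o z b := fun z hz => by
    by_contra h
    exact hT o z ⟨hz, not_exists.1 h⟩
  have hregP : ∀ f ∈ regs, OrdGE P 0 f := fun f hf => by
    by_contra h
    exact hreg f hf fun h0 => h (Or.inr h0.ge)
  have hxP : OrdGE P 0 Φ.M.x := hregP _ (by simp [regs])
  obtain ⟨a, q, Q, ha, hq, hden, hsm, hQ, hQne, hQinj⟩ := exists_specialisation Φ S hval hxP
  exact exists_halving Φ hne hxP (fun j => (hQ j).ordGE_x) hQne hQinj
    (ordGE_one_fn Φ S ha (hregP _ (by simp [regs])) (hregP _ (by simp [regs]))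
      fun i => hregP _ (Finset.mem_union_right _ (Finset.mem_image_of_mem _ i.2)))
    fun j => ordGE_two_fn Φ S ha j (hq j) (hden j) (hsm j) (hQ j)

end Halve

/-- The degree zero divisor class group of a function field over an algebraically closed field of
characteristic zero is divisible by two. -/
theorem exists_two_nsmul_eq (x : Pic0 K F) : ∃ y : Pic0 K F, 2 • y = x := by
  classical
  obtain ⟨D, rfl⟩ := Pic0.mk_surjective x
  obtain ⟨R, hR⟩ : ∃ R : Place K F, ∀ P ∈ (D : Divisor K F).support,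
      ∃ (E : Divisor K F) (f : F), Divisor.degree E = 0 ∧ f ≠ 0 ∧
        divisorOf f = Finsupp.single R 1 - Finsupp.single P 1 - 2 • E := by
    have := Jac.infinite_places (K := K) (F := F)
    obtain ⟨R, hR⟩ := ((D : Divisor K F).support.finite_toSet.biUnion fun P _ =>
      Halve.finite_bad_halving P).exists_notMem
    refine ⟨R, fun P hP => ?_⟩
    by_contra h
    exact hR (Set.mem_biUnion hP h)
  choose! E f hE hf hdiv using hR
  set E' : Divisor K F := ∑ P ∈ (D : Divisor K F).support, ((D : Divisor K F) P) • (-E P)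
  have hE' : E' ∈ Divisor.degZero (K := K) (F := F) :=
    Divisor.degZero.sum_mem fun P hP => Divisor.degZero.zsmul_mem
      (Divisor.degZero.neg_mem (Divisor.mem_degZero.2 (hE P hP))) _
  refine ⟨Pic0.mk ⟨E', hE'⟩, (QuotientAddGroup.eq_iff_sub_mem).2 ?_⟩
  rw [AddSubgroup.mem_addSubgroupOf]
  show 2 • E' - (D : Divisor K F) ∈ Divisor.principal
  have hdiag : (D : Divisor K F) =
      ∑ P ∈ (D : Divisor K F).support, ((D : Divisor K F) P) •
        (Finsupp.single P 1 - Finsupp.single R 1) := by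
    have h0 : ∑ P ∈ (D : Divisor K F).support, (D : Divisor K F) P = 0 := by
      have h := Divisor.mem_degZero.1 D.2
      rw [Divisor.degree, Finsupp.liftAddHom_apply, Finsupp.sum] at h
      simpa [deg_eq_one] using h
    simp only [smul_sub, Finset.sum_sub_distrib]
    rw [← Finset.sum_smul (x := Finsupp.single R (1 : ℤ)), h0, zero_smul, sub_zero]
    simp only [Finsupp.smul_single, smul_eq_mul, mul_one]
    exact (Finsupp.sum_single (D : Divisor K F)).symm
  have heq : 2 • E' - (D : Divisor K F) =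
      ∑ P ∈ (D : Divisor K F).support, ((D : Divisor K F) P) • divisorOf (f P) := by
    conv_lhs => arg 2; rw [hdiag]
    rw [Finset.smul_sum, ← Finset.sum_sub_distrib]
    refine Finset.sum_congr rfl fun P hP => ?_
    rw [hdiv P hP]
    module
  rw [heq]
  exact sum_mem fun P hP => AddSubgroup.zsmul_mem _
    (⟨f P, hf P hP, fun v => divisorOf_apply (f P) v⟩ : divisorOf (f P) ∈ Divisor.principal) _

/-- `J₀(N)(ℚ̄)` is divisible by two. -/
theorem exists_two_nsmul_eq_jZero (N : ℕ) [NeZero N] (x : ModularCurve.JZero N) :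
    ∃ y : ModularCurve.JZero N, 2 • y = x := by
  have := Curve.Red.isFF_bar N
  exact exists_two_nsmul_eq x

end FermatAgent.MW
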