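import Fermat.Agent.MW.HeightExt
import Fermat.Agent.GaloisBasic.Frobenius
import Mathlib.NumberTheory.Height.Northcott
import Mathlib.RingTheory.Nullstellensatz
import Mathlib.RingTheory.MvPolynomial.Homogeneous

/-!
# Absolute heights of tuples of algebraic numbers

`habs x` is the logarithmic height of a tuple over a number field containing it, divided by the
degree; it is additive on tensor products, grows by at most a constant under linear maps, and is
at most multiplied by `N`, plus a constant, under homogeneous maps of degree `N`.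
-/

set_option autoImplicit false

noncomputable section

open NumberField Module Height IntermediateField MvPolynomial

namespace FermatAgent.MW

open FermatAgent.GaloisBasic (Qbar)

variable {ι κ : Type*} [Finite ι] [Finite κ]

/-- The field generated by a tuple. -/
def fieldOf (x : ι → Qbar) : IntermediateField ℚ Qbar := adjoin ℚ (Set.range x)

instance finiteDimensional_fieldOf (x : ι → Qbar) : FiniteDimensional ℚ (fieldOf x) :=
  finiteDimensional_adjoin fun a _ => Algebra.IsIntegral.isIntegral a

instance numberField_of_finite (L : IntermediateField ℚ Qbar) [FiniteDimensional ℚ L] :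
    NumberField L where

omit [Finite ι] in
theorem mem_fieldOf (x : ι → Qbar) (i : ι) : x i ∈ fieldOf x :=
  subset_adjoin _ _ ⟨i, rfl⟩

omit [Finite ι] in
theorem fieldOf_le {x : ι → Qbar} {L : IntermediateField ℚ Qbar} (h : ∀ i, x i ∈ L) :
    fieldOf x ≤ L :=
  adjoin_le_iff.2 (Set.range_subset_iff.2 h)

/-- Absolute logarithmic height of a tuple of algebraic numbers. -/
def habs (x : ι → Qbar) : ℝ :=
  logHeight (fun i => (⟨x i, mem_fieldOf x i⟩ : fieldOf x)) / (finrank ℚ (fieldOf x) : ℝ)

/-- The absolute height may be computed in any number field containing the coordinates. -/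
theorem habs_eq {x : ι → Qbar} {L : IntermediateField ℚ Qbar} [FiniteDimensional ℚ L]
    (h : ∀ i, x i ∈ L) :
    habs x = logHeight (fun i => (⟨x i, h i⟩ : L)) / (finrank ℚ L : ℝ) := by
  let : Algebra (fieldOf x) L := (IntermediateField.inclusion (fieldOf_le h)).toRingHom.toAlgebra
  exact (logHeight_div_finrank (L := L) fun i => (⟨x i, mem_fieldOf x i⟩ : fieldOf x)).symm

theorem habs_nonneg (x : ι → Qbar) : 0 ≤ habs x :=
  div_nonneg (logHeight_nonneg _) (Nat.cast_nonneg _)

theorem habs_zero : habs (0 : ι → Qbar) = 0 := by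
  rw [habs_eq (x := (0 : ι → Qbar)) (L := ⊥) fun _ => zero_mem _,
    show (fun i : ι => (⟨(0 : ι → Qbar) i, zero_mem _⟩ : (⊥ : IntermediateField ℚ Qbar))) = 0
      from rfl]
  simp

theorem habs_smul {c : Qbar} (hc : c ≠ 0) (x : ι → Qbar) : habs (c • x) = habs x := by
  let L := fieldOf x ⊔ adjoin ℚ {c}
  have : FiniteDimensional ℚ (adjoin ℚ ({c} : Set Qbar)) :=
    finiteDimensional_adjoin fun a _ => Algebra.IsIntegral.isIntegral a
  have hx : ∀ i, x i ∈ L := fun i => (le_sup_left : fieldOf x ≤ L) (mem_fieldOf x i)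
  have hcL : c ∈ L := (le_sup_right : adjoin ℚ {c} ≤ L) (subset_adjoin _ _ rfl)
  have hcx : ∀ i, (c • x) i ∈ L := fun i => mul_mem hcL (hx i)
  rw [habs_eq hcx, habs_eq hx]
  congr 1
  exact logHeight_smul_eq_logHeight (fun i => (⟨x i, hx i⟩ : L)) (c := (⟨c, hcL⟩ : L))
    fun e => hc (congrArg Subtype.val e)

/-- Heights are additive on tensor products. -/
theorem habs_tensor {x : ι → Qbar} (hx : x ≠ 0) {y : κ → Qbar} (hy : y ≠ 0) :
    habs (fun p : ι × κ => x p.1 * y p.2) = habs x + habs y := by
  let L := fieldOf x ⊔ fieldOf y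
  have hxL : ∀ i, x i ∈ L := fun i => (le_sup_left : fieldOf x ≤ L) (mem_fieldOf x i)
  have hyL : ∀ i, y i ∈ L := fun i => (le_sup_right : fieldOf y ≤ L) (mem_fieldOf y i)
  rw [habs_eq (L := L) (x := fun p : ι × κ => x p.1 * y p.2) fun p => mul_mem (hxL p.1) (hyL p.2),
    habs_eq hxL, habs_eq hyL, ← add_div]
  congr 1
  have hx' : (fun i => (⟨x i, hxL i⟩ : L)) ≠ 0 := fun e =>
    hx (funext fun i => congrArg Subtype.val (congrFun e i))
  have hy' : (fun i => (⟨y i, hyL i⟩ : L)) ≠ 0 := fun e =>
    hy (funext fun i => congrArg Subtype.val (congrFun e i))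
  exact logHeight_fun_mul_eq hx' hy'

/-- Heights are additive on tensor products of several tuples. -/
theorem habs_piProd {α : Type*} [Fintype α] {x : α → ι → Qbar} (hx : ∀ a, x a ≠ 0) :
    habs (fun w : α → ι => ∏ a, x a (w a)) = ∑ a, habs (x a) := by
  let L := fieldOf (fun p : α × ι => x p.1 p.2)
  have hxL : ∀ a i, x a i ∈ L := fun a i => mem_fieldOf (fun p : α × ι => x p.1 p.2) (a, i)
  rw [habs_eq (L := L) (x := fun w : α → ι => ∏ a, x a (w a)) fun w =>
    prod_mem fun a _ => hxL a (w a), Finset.sum_congr rfl fun a _ => habs_eq (hxL a),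
    ← Finset.sum_div]
  congr 1
  have hx' : ∀ a, (fun i => (⟨x a i, hxL a i⟩ : L)) ≠ 0 := fun a e =>
    hx a (funext fun i => congrArg Subtype.val (congrFun e i))
  refine Eq.trans ?_ (logHeight_fun_prod_eq hx')
  congr 1
  funext w
  exact Subtype.ext (by simp)

theorem habs_pow (x : ι → Qbar) (M : ℕ) : habs (fun i => x i ^ M) = M * habs x := by
  rw [habs_eq (L := fieldOf x) (x := fun i => x i ^ M) fun i => pow_mem (mem_fieldOf x i) M, habs,
    ← mul_div_assoc, ← logHeight_pow]
  rfl

/-- Heights grow at most by a constant under linear maps. -/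
theorem exists_habs_linear_le (A : (ι → Qbar) →ₗ[Qbar] (κ → Qbar)) :
    ∃ C, ∀ x, habs (A x) ≤ habs x + C := by
  classical
  have := Fintype.ofFinite ι
  let a : κ × ι → Qbar := fun p => A (Pi.single p.2 1) p.1
  have hA : ∀ x j, A x j = ∑ i, a (j, i) * x i := fun x j => by
    conv_lhs => rw [pi_eq_sum_univ' x]
    simp [map_sum, map_smul, a, mul_comm]
  refine ⟨habs a + Real.log (Nat.card ι), fun x => ?_⟩
  let L := fieldOf a ⊔ fieldOf x
  have haL : ∀ p, a p ∈ L := fun p => (le_sup_left : fieldOf a ≤ L) (mem_fieldOf a p)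
  have hxL : ∀ i, x i ∈ L := fun i => (le_sup_right : fieldOf x ≤ L) (mem_fieldOf x i)
  have hAL : ∀ j, A x j ∈ L := fun j => by
    rw [hA]; exact sum_mem fun i _ => mul_mem (haL _) (hxL i)
  rw [habs_eq hAL, habs_eq haL, habs_eq hxL]
  have e : (fun j => (⟨A x j, hAL j⟩ : L)) =
      fun j => ∑ i, (⟨a (j, i), haL _⟩ : L) * ⟨x i, hxL i⟩ :=
    funext fun j => Subtype.ext (by simp [hA x j])
  have h := logHeight_linearMap_apply_le (fun p => (⟨a p, haL p⟩ : L))
    (fun i => (⟨x i, hxL i⟩ : L))
  rw [← e, NumberField.totalWeight_eq_finrank] at h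
  have hd : (0 : ℝ) < finrank ℚ L := Nat.cast_pos.2 Module.finrank_pos
  rw [div_le_iff₀ hd]
  refine h.trans (le_of_eq ?_)
  field_simp
  ring

omit [Finite ι] in
/-- Values of homogeneous polynomials are linear in the tensor powers. -/
theorem exists_eval_eq_sum [Fintype ι] [DecidableEq ι] {N : ℕ} {p : MvPolynomial ι Qbar}
    (hp : p.IsHomogeneous N) :
    ∃ c : (Fin N → ι) → Qbar, ∀ x, eval x p = ∑ w, c w * ∏ k, x (w k) := by
  classical
  have hw : ∀ d ∈ p.support, ∃ w : Fin N → ι, ∀ x : ι → Qbar,
      ∏ k, x (w k) = ∏ i ∈ d.support, x i ^ d i := by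
    intro d hd
    have hdeg : ∑ i ∈ d.support, d i = N := (hp.degree_eq_sum_deg_support hd).symm
    let m : Multiset ι := Finsupp.toMultiset d
    have hm : m.toList.length = N := by
      rw [Multiset.length_toList, Finsupp.card_toMultiset]; exact hdeg
    refine ⟨fun k => m.toList.get (Fin.cast hm.symm k), fun x => ?_⟩
    have h1 : ∏ k, x (m.toList.get (Fin.cast hm.symm k)) = ∏ k, x (m.toList.get k) :=
      Equiv.prod_comp (finCongr hm.symm) fun k => x (m.toList.get k)
    rw [h1, ← List.prod_ofFn, List.ofFn_comp' m.toList.get x, List.ofFn_get,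
      ← Multiset.prod_coe, ← Multiset.map_coe, Multiset.coe_toList, Finsupp.toMultiset_map,
      Finsupp.prod_toMultiset, Finsupp.prod_mapDomain_index (by simp) (by simp [pow_add]),
      Finsupp.prod]
  choose w hw using hw
  refine ⟨fun v => ∑ d ∈ p.support.attach with w d.1 d.2 = v, coeff d.1 p, fun x => ?_⟩
  rw [eval_eq, ← Finset.sum_attach, ← Finset.sum_fiberwise p.support.attach fun d => w d.1 d.2]
  refine Finset.sum_congr rfl fun v _ => ?_
  rw [Finset.sum_mul]
  refine Finset.sum_congr rfl fun d hd => ?_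
  rw [← (Finset.mem_filter.1 hd).2, hw d.1 d.2]

/-- The tensor power of a tuple. -/
theorem habs_tensorPower {N : ℕ} (x : ι → Qbar) :
    habs (fun w : Fin N → ι => ∏ k, x (w k)) ≤ N * habs x := by
  rcases eq_or_ne x 0 with rfl | hx
  · rcases Nat.eq_zero_or_pos N with rfl | hN
    · have := Fintype.ofFinite ι
      rw [show (fun w : Fin 0 → ι => ∏ k, (0 : ι → Qbar) (w k)) =
        fun w : Fin 0 → ι => ∏ k : Fin 0, (1 : Fin 1 → Qbar) 0 from funext fun w => by simp]
      rw [habs_eq (L := ⊥) (x := fun _ : Fin 0 → ι => ∏ _k : Fin 0, (1 : Fin 1 → Qbar) 0)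
        fun _ => by simp [one_mem]]
      simp [logHeight_eq_zero_of_subsingleton]
    · have : (fun w : Fin N → ι => ∏ k, (0 : ι → Qbar) (w k)) = 0 := funext fun w =>
        Finset.prod_eq_zero (Finset.mem_univ ⟨0, hN⟩) rfl
      rw [this, habs_zero, habs_zero, mul_zero]
  · rw [habs_piProd fun _ => hx]
    simp

/-- Upper bound for homogeneous polynomial maps. -/
theorem exists_habs_eval_le {N : ℕ} {P : κ → MvPolynomial ι Qbar}
    (hP : ∀ j, (P j).IsHomogeneous N) :
    ∃ C, ∀ x, habs (fun j => eval x (P j)) ≤ N * habs x + C := by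
  classical
  have := Fintype.ofFinite ι
  choose c hc using fun j => exists_eval_eq_sum (hP j)
  let A : ((Fin N → ι) → Qbar) →ₗ[Qbar] (κ → Qbar) :=
    { toFun := fun t j => ∑ w, c j w * t w
      map_add' := fun s t => funext fun j => by simp [mul_add, Finset.sum_add_distrib]
      map_smul' := fun a t => funext fun j => by
        simp [Finset.mul_sum, mul_left_comm] }
  obtain ⟨C, hC⟩ := exists_habs_linear_le A
  refine ⟨C, fun x => ?_⟩
  rw [show (fun j => eval x (P j)) = A (fun w => ∏ k, x (w k)) from funext fun j => hc j x]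
  linarith [hC fun w => ∏ k, x (w k), habs_tensorPower (N := N) x]

end FermatAgent.MW
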