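import Mathlib.NumberTheory.Height.NumberField
import Mathlib.NumberTheory.Height.MvPolynomial
import Mathlib.RingTheory.Ideal.Norm.RelNorm
import Mathlib.NumberTheory.NumberField.InfinitePlace.Ramification

/-!
# Heights of tuples under extensions of number fields

The logarithmic height of a tuple is multiplied by the degree in an extension of number fields,
so the height divided by the degree over `ℚ` does not change.
-/

set_option autoImplicit false

noncomputable section

open NumberField Module Height

namespace FermatAgent.MW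

variable (K L : Type*) [Field K] [NumberField K] [Field L] [NumberField L] [Algebra K L]

theorem card_embeddings_over (ψ : K →+* ℂ) [DecidableEq (K →+* ℂ)] :
    (Finset.univ.filter fun φ : L →+* ℂ => φ.comp (algebraMap K L) = ψ).card = finrank K L := by
  let := ψ.toAlgebra
  rw [← AlgHom.card K L ℂ, ← Fintype.card_subtype]
  exact (Fintype.card_congr
    { toFun := fun f => ⟨f.toRingHom, RingHom.ext f.commutes⟩
      invFun := fun φ => { φ.1 with commutes' := fun a => RingHom.congr_fun φ.2 a }
      left_inv := fun _ => rfl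
      right_inv := fun _ => rfl }).symm

theorem prod_infinitePlace_eq_prod_embeddings {M : Type*} [Field M] [NumberField M]
    (g : InfinitePlace M → ℝ) :
    ∏ v, g v ^ v.mult = ∏ φ : M →+* ℂ, g (InfinitePlace.mk φ) := by
  classical
  rw [← Finset.prod_fiberwise _ InfinitePlace.mk fun φ => g (InfinitePlace.mk φ)]
  refine Finset.prod_congr rfl fun w _ => ?_
  rw [Finset.prod_congr rfl fun φ hφ => by rw [(Finset.mem_filter.1 hφ).2],
    Finset.prod_const, InfinitePlace.card_filter_mk_eq]

theorem prod_infinitePlace_comap (f : InfinitePlace K → ℝ) :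
    ∏ w : InfinitePlace L, f (w.comap (algebraMap K L)) ^ w.mult =
      (∏ v : InfinitePlace K, f v ^ v.mult) ^ finrank K L := by
  classical
  rw [prod_infinitePlace_eq_prod_embeddings (fun w => f (w.comap (algebraMap K L))),
    prod_infinitePlace_eq_prod_embeddings f, ← Finset.prod_pow,
    ← Finset.prod_fiberwise _ (fun φ : L →+* ℂ => φ.comp (algebraMap K L))]
  refine Finset.prod_congr rfl fun ψ _ => ?_
  rw [Finset.prod_congr rfl fun φ hφ => by
      rw [InfinitePlace.comap_mk, (Finset.mem_filter.1 hφ).2],
    Finset.prod_const]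
  congr 1
  convert card_embeddings_over K L ψ

variable {K L}
variable {ι : Type*} [Finite ι]

theorem mulHeight_algebraMap_of_integral {x : ι → 𝓞 K} (hx : x ≠ 0) :
    mulHeight (fun i => algebraMap K L (x i : K)) =
      mulHeight (fun i => (x i : K)) ^ finrank K L := by
  obtain ⟨i₀, hi₀⟩ := Function.ne_iff.1 hx
  have hxK : (fun i => (x i : K)) ≠ 0 := Function.ne_iff.2 ⟨i₀, by simpa using hi₀⟩
  let y : ι → 𝓞 L := fun i => algebraMap (𝓞 K) (𝓞 L) (x i)
  have hy : ∀ i, algebraMap K L (x i : K) = (y i : L) := fun i => rfl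
  have hy0 : y ≠ 0 := Function.ne_iff.2 ⟨i₀, by
    simpa [y] using hi₀⟩
  have hyL : (fun i => (y i : L)) ≠ 0 := Function.ne_iff.2 ⟨i₀, by
    rw [← hy]; simpa using hi₀⟩
  simp only [hy]
  have hK := NumberField.absNorm_mul_finprod_finitePlace_eq_one hx
  have hL := NumberField.absNorm_mul_finprod_finitePlace_eq_one hy0
  have hN : Ideal.absNorm (Ideal.span (Set.range y)) =
      Ideal.absNorm (Ideal.span (Set.range x)) ^ finrank (𝓞 K) (𝓞 L) := by
    rw [← Ideal.absNorm_algebraMap, Ideal.map_span, ← Set.range_comp]
    rfl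
  have hr : finrank (𝓞 K) (𝓞 L) = finrank K L :=
    (IsFractionRing.finrank_eq (𝓞 K) K (𝓞 L) L).symm
  rw [hN, hr, Nat.cast_pow] at hL
  rw [NumberField.mulHeight_eq hyL, NumberField.mulHeight_eq hxK, mul_pow,
    eq_inv_of_mul_eq_one_right hK, eq_inv_of_mul_eq_one_right hL, inv_pow]
  congr 1
  rw [← prod_infinitePlace_comap K L fun v => ⨆ i, v (x i : K)]
  rfl

/-- In an extension `L/K` of number fields the multiplicative height is raised to the power
`[L : K]`. -/
theorem mulHeight_comp_algebraMap (x : ι → K) :
    mulHeight (fun i => algebraMap K L (x i)) = mulHeight x ^ finrank K L := by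
  rcases eq_or_ne x 0 with rfl | hx
  · simp
  obtain ⟨d, hd⟩ := IsLocalization.exist_integer_multiples_of_finite (nonZeroDivisors (𝓞 K)) x
  choose y hy using hd
  have hd0 : ((d : 𝓞 K) : K) ≠ 0 := by
    simp [nonZeroDivisors.coe_ne_zero d]
  have hyx : (fun i => (y i : K)) = ((d : 𝓞 K) : K) • x := funext fun i => by
    rw [Pi.smul_apply, smul_eq_mul, ← Algebra.smul_def]
    exact hy i
  have hy0 : y ≠ 0 := by
    rintro rfl
    obtain ⟨i, hi⟩ := Function.ne_iff.1 hx
    have h := congrFun hyx i
    simp only [Pi.zero_apply, Pi.smul_apply, smul_eq_mul] at h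
    exact mul_ne_zero hd0 hi (by simpa using h.symm)
  have h := mulHeight_algebraMap_of_integral (L := L) hy0
  rw [hyx, mulHeight_smul_eq_mulHeight _ hd0] at h
  rw [← h, ← mulHeight_smul_eq_mulHeight _
    ((map_ne_zero (algebraMap K L)).2 hd0)]
  congr 1
  funext i
  rw [Pi.smul_apply, smul_eq_mul, ← map_mul, ← smul_eq_mul, ← Pi.smul_apply, ← hyx]

/-- In an extension `L/K` of number fields the logarithmic height is multiplied by `[L : K]`. -/
theorem logHeight_comp_algebraMap (x : ι → K) :
    logHeight (fun i => algebraMap K L (x i)) = finrank K L * logHeight x := by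
  rw [logHeight_eq_log_mulHeight, logHeight_eq_log_mulHeight, mulHeight_comp_algebraMap,
    Real.log_pow]

/-- Normalised heights do not change under extensions. -/
theorem logHeight_div_finrank (x : ι → K) :
    logHeight (fun i => algebraMap K L (x i)) / (finrank ℚ L : ℝ) =
      logHeight x / (finrank ℚ K : ℝ) := by
  rw [logHeight_comp_algebraMap, ← finrank_mul_finrank ℚ K L, Nat.cast_mul,
    mul_comm (finrank ℚ K : ℝ), mul_div_mul_left]
  exact_mod_cast (Module.finrank_pos (R := K) (M := L)).ne'

end FermatAgent.MW
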