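import Fermat.Agent.MW.Plucker
import Fermat.Agent.Flat.Frame

/-!
# Classes as reduced effective divisors in general position

Every class of degree zero is the class of `s - d O` for `d` distinct places `s` avoiding a given
finite set, once `d` is large.
-/

set_option autoImplicit false

noncomputable section

open AlgebraicCurve Module FermatAgent.Curve FermatAgent.Curve.Jac

namespace FermatAgent.MW

variable {K F : Type*} [Field K] [Field F] [Algebra K F] [IsAlgClosed K] [IsFF K F]
variable (O : Place K F)

/-- The class of `s - |s| O`. -/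
def cls (s : Finset (Place K F)) : Pic0 K F :=
  Pic0.mk ⟨setDiv s - Finsupp.single O (s.card : ℤ), by
    rw [Divisor.mem_degZero, map_sub, degree_setDiv, Divisor.degree_single, deg_eq_one,
      Nat.cast_one, mul_one, sub_self]⟩

variable {O}

theorem cls_union [DecidableEq (Place K F)] {s t : Finset (Place K F)} (h : Disjoint s t) :
    cls O (s ∪ t) = cls O s + cls O t := by
  rw [cls, cls, cls, ← Pic0.mk_add]
  congr 1
  refine Subtype.ext ?_
  show setDiv (s ∪ t) - _ = (setDiv s - _) + (setDiv t - _)
  rw [setDiv_union h, Finset.card_union_of_disjoint h, Nat.cast_add, Finsupp.single_add]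
  abel

theorem cls_eq_iff {s t : Finset (Place K F)} (h : s.card = t.card) :
    cls O s = cls O t ↔ Divisor.IsPrincipal (setDiv s - setDiv t) := by
  rw [cls, cls, Jac.pic0_mk_eq_iff]
  simp only [h, sub_sub_sub_cancel_right]

variable [CharZero K] {c : ℤ} (hc : Flat.IsThreshold K F c)
include hc

/-- **Reduced representatives in general position**: for `d` beyond the threshold every class of
degree zero is the class of `s - d O` with `s` a set of `d` places other than `O` avoiding `S`. -/
theorem exists_rep (O : Place K F) {d : ℕ} (hd : c + 1 ≤ d) (x : Pic0 K F)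
    (S : Finset (Place K F)) :
    ∃ s : Finset (Place K F), s.card = d ∧ Disjoint s S ∧ O ∉ s ∧ cls O s = x := by
  classical
  obtain ⟨⟨D₀, hD₀⟩, rfl⟩ := Pic0.mk_surjective x
  set G := D₀ + Finsupp.single O (d : ℤ)
  have hG : Divisor.degree G = d := by
    rw [map_add, Divisor.mem_degZero.1 hD₀, Divisor.degree_single, deg_eq_one]; simp
  have hc0 := hc.1
  -- two sections exact on `S`, at `O` and on the support of `G`; the second also at the zeros
  set P : Option ↥(G.support ∪ S) → Place K F := fun i => i.elim O Subtype.val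
  have hP : ∀ w, w ∉ Set.range P → G w = 0 ∧ w ∉ S ∧ w ≠ O := fun w hw =>
    ⟨by_contra fun h => hw ⟨some ⟨w, Finset.mem_union_left _ (Finsupp.mem_support_iff.2 h)⟩, rfl⟩,
      fun h => hw ⟨some ⟨w, Finset.mem_union_right _ h⟩, rfl⟩, fun h => hw ⟨none, h.symm⟩⟩
  obtain ⟨g, hg, hg0, hgP⟩ := exists_exact hc.2 (D := G) (by omega) P
  obtain ⟨h, hh, hh0, hhP⟩ := exists_exact hc.2 (D := G) (by omega)
    (Sum.elim P fun z : (finite_ord_pos (K := K) g).toFinset => (z : Place K F))
  have hhZ : ∀ w, 0 < w.ord g → w.ord h = -G w := fun w hw =>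
    hhP (Sum.inr ⟨w, (finite_ord_pos (K := K) g).mem_toFinset.2 hw⟩)
  obtain ⟨w, hw⟩ : ∃ w, 0 < w.ord g + G w := by
    by_contra hno
    push Not at hno
    have h1 := degree_mono (show divisorOf g + G ≤ 0 from hno)
    rw [map_add, degree_divisorOf, hG, map_zero] at h1
    omega
  have hwP : w ∉ Set.range P := by rintro ⟨i, rfl⟩; rw [hgP] at hw; omega
  have hGw := (hP w hwP).1
  obtain ⟨f, hf, hf0, hfP, hsimple⟩ := exists_pencil_member hg hh hg0 hh0 hgP
    (fun i => hhP (Sum.inl i)) (fun w hw => (hP w hw).1) hhZ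
    (transcendental_of_ord_ne_zero (v := w) (by
      rw [ord_div hg0 hh0, hhZ w (by omega), hGw]; omega))
  set E := divisorOf f + G
  have hE : ∀ w, E w = 0 ∨ (E w = 1 ∧ w ∉ S ∧ w ≠ O) := by
    intro w
    simp only [E, Finsupp.add_apply, divisorOf_apply]
    by_cases hw : w ∈ Set.range P
    · obtain ⟨i, rfl⟩ := hw
      exact Or.inl (by rw [hfP, neg_add_cancel])
    · have h1 := (mem_riemannRochSpace_iff_ne_zero hf0).1 hf w
      rw [(hP w hw).1, add_zero]
      rw [(hP w hw).1, neg_zero] at h1
      rcases h1.eq_or_lt with h2 | h2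
      · exact Or.inl h2.symm
      · exact Or.inr ⟨hsimple w hw h2, (hP w hw).2⟩
  have hEs : setDiv E.support = E := Finsupp.ext fun P => by
    rw [setDiv_apply]
    rcases hE P with h | ⟨h, -⟩ <;> simp [h]
  have hcard : E.support.card = d := by
    have h1 := congrArg Divisor.degree hEs
    rw [degree_setDiv, map_add, degree_divisorOf, hG, zero_add] at h1
    exact_mod_cast h1
  refine ⟨E.support, hcard, ?_, ?_, ?_⟩
  · rw [Finset.disjoint_left]
    intro P hP
    exact ((hE P).resolve_left (Finsupp.mem_support_iff.1 hP)).2.1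
  · intro h
    exact ((hE O).resolve_left (Finsupp.mem_support_iff.1 h)).2.2 rfl
  · rw [cls, Jac.pic0_mk_eq_iff]
    refine ⟨f, hf0, fun P => ?_⟩
    simp only [hEs, hcard, E, G, Finsupp.sub_apply, Finsupp.add_apply, divisorOf_apply]
    ring

end FermatAgent.MW
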