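import Fermat.Agent.MW.Plucker
import Fermat.Agent.MW.Position
import Fermat.Agent.Flat.Equivariant

/-!
# The form attached to a class

For a class `x` with representatives `s` of `x` and `s'` of `-x`, and `w` with divisor
`s + s' - 2 d O`, the form `det L(m O - s) * det L(m O - s') / ∏ w` on `n`-tuples of points depends
on `x` only up to a constant, commutes with the Galois action and determines `x` up to finitely
many choices.
-/

set_option autoImplicit false

noncomputable section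

open AlgebraicCurve Module FermatAgent.Curve FermatAgent.Curve.Jac

namespace FermatAgent.MW

variable {K F : Type*} [Field K] [Field F] [Algebra K F] [IsAlgClosed K] [IsFF K F]
variable (O : Place K F)

/-- The function `∏ g l (P l)`. -/
def prodT (m : ℕ) {n : ℕ} (g : Fin n → F) : (Fin n → Fin (lsDim O m)) → K :=
  fun J => ∏ l, coord O m (g l) (J l)

/-- Representatives of a class and the function joining them. -/
structure NormData (m d n : ℕ) (x : Pic0 K F) where
  /-- the places representing the class -/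
  s : Finset (Place K F)
  /-- the places representing the opposite class -/
  s' : Finset (Place K F)
  /-- the frame attached to `s` -/
  b : Fin n → F
  /-- the frame attached to `s'` -/
  b' : Fin n → F
  /-- the function with divisor `s + s'` less its pole at `O` -/
  w : F
  card_s : s.card = d
  card_s' : s'.card = d
  notMem : O ∉ s
  notMem' : O ∉ s'
  cls_s : cls O s = x
  cls_s' : cls O s' = -x
  frame : IsFrame (WS O m (setDiv s)) b
  frame' : IsFrame (WS O m (setDiv s')) b'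
  w_ne : w ≠ 0
  div_w : divisorOf w = setDiv s + setDiv s' - Finsupp.single O ((2 * d : ℕ) : ℤ)

variable {O}

/-- The defining identity of the form. -/
def NormData.Fits {m d n : ℕ} {x : Pic0 K F} (δ : NormData O m d n x) (k : ℕ)
    (v : (Fin n → Fin (lsDim O k)) → K) : Prop :=
  v ≠ 0 ∧ ∃ a : K, a ≠ 0 ∧ ∀ P : Fin n → Place K F, (∀ l, P l ≠ O) →
    evalT O k v P * ∏ l, pval (P l) δ.w =
      a * (evalT O m (detT O m δ.b) P * evalT O m (detT O m δ.b') P)

variable (O) in
/-- The forms of a class. -/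
def IsNorm (m d n k : ℕ) (x : Pic0 K F) (v : (Fin n → Fin (lsDim O k)) → K) : Prop :=
  ∃ δ : NormData O m d n x, δ.Fits k v

theorem evalT_prodT {m n : ℕ} {g : Fin n → F} (hg : ∀ l, g l ∈ LS O m) {P : Fin n → Place K F}
    (hP : ∀ l, P l ≠ O) : evalT O m (prodT O m g) P = ∏ l, pval (P l) (g l) := by
  simp only [evalT, prodT, ← Finset.prod_mul_distrib, pval_eq_sum (hg _) (hP _), Fintype.prod_sum]

theorem evalT_sum {m n : ℕ} {ι : Type*} (T : Finset ι)
    (c : ι → (Fin n → Fin (lsDim O m)) → K) (P : Fin n → Place K F) :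
    evalT O m (∑ i ∈ T, c i) P = ∑ i ∈ T, evalT O m (c i) P := by
  simp only [evalT, Finset.sum_apply, Finset.sum_mul]
  exact Finset.sum_comm

namespace NormData

variable {m d n k : ℕ} {x : Pic0 K F} (δ : NormData O m d n x)

theorem mem_b (i : Fin n) : δ.b i ∈ LS O m := WS_le_LS (setDiv_nonneg _) (δ.frame.mem i)

theorem mem_b' (i : Fin n) : δ.b' i ∈ LS O m := WS_le_LS (setDiv_nonneg _) (δ.frame'.mem i)

theorem w_mem : δ.w ∈ LS O (2 * d) := by
  rw [mem_riemannRochSpace_iff_ne_zero δ.w_ne]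
  intro P
  have h := DFunLike.congr_fun δ.div_w P
  have := setDiv_nonneg δ.s P
  have := setDiv_nonneg δ.s' P
  simp only [divisorOf_apply, Finsupp.sub_apply, Finsupp.add_apply, Finsupp.zero_apply] at *
  omega

theorem quot_mem (hk : m + m = 2 * d + k) (i j : Fin n) : δ.b i * δ.b' j / δ.w ∈ LS O k := by
  have h1 := mem_riemannRochSpace.1 (δ.frame.mem i)
  have h2 := mem_riemannRochSpace.1 (δ.frame'.mem j)
  refine mem_riemannRochSpace.2 fun P => ?_
  rw [div_eq_mul_inv]
  refine (((h1 P).mul (h2 P)).mul (ordGE_self δ.w⁻¹)).mono ?_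
  have h := DFunLike.congr_fun δ.div_w P
  simp only [divisorOf_apply, Finsupp.sub_apply, Finsupp.add_apply] at h
  rw [Place.ord_inv, h]
  simp only [Finsupp.sub_apply]
  by_cases hP : P = O
  · subst hP; simp only [Finsupp.single_eq_same]; push_cast; omega
  · simp only [Finsupp.single_eq_of_ne hP]; omega

/-- Every datum has a form. -/
theorem exists_fits (hk : m + m = 2 * d + k) : ∃ v, δ.Fits k v := by
  classical
  let v : (Fin n → Fin (lsDim O k)) → K := ∑ σ : Equiv.Perm (Fin n), ∑ τ : Equiv.Perm (Fin n),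
    (((Equiv.Perm.sign σ : ℤ) : K) * ((Equiv.Perm.sign τ : ℤ) : K)) •
      prodT O k (fun l => δ.b (σ l) * δ.b' (τ l) / δ.w)
  have hev : ∀ P : Fin n → Place K F, (∀ l, P l ≠ O) →
      evalT O k v P * ∏ l, pval (P l) δ.w =
        1 * (evalT O m (detT O m δ.b) P * evalT O m (detT O m δ.b') P) := by
    intro P hP
    rw [evalT_detT δ.mem_b hP, evalT_detT δ.mem_b' hP, Matrix.det_apply', Matrix.det_apply',
      one_mul, evalT_sum, Finset.sum_mul, Finset.sum_mul]
    refine Finset.sum_congr rfl fun σ _ => ?_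
    rw [evalT_sum, Finset.sum_mul, Finset.mul_sum]
    refine Finset.sum_congr rfl fun τ _ => ?_
    rw [evalT_smul, evalT_prodT (fun l => δ.quot_mem hk _ _) hP]
    have h : ∀ l, pval (P l) (δ.b (σ l) * δ.b' (τ l) / δ.w) * pval (P l) δ.w =
        pval (P l) (δ.b (σ l)) * pval (P l) (δ.b' (τ l)) := fun l => by
      rw [← pval_mul (ordGE_of_mem (δ.quot_mem hk _ _) (hP l)) (ordGE_of_mem δ.w_mem (hP l)),
        div_mul_cancel₀ _ δ.w_ne,
        pval_mul (ordGE_of_mem (δ.mem_b _) (hP l)) (ordGE_of_mem (δ.mem_b' _) (hP l))]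
    simp only [Matrix.of_apply, mul_assoc, ← Finset.prod_mul_distrib]
    rw [Finset.prod_congr rfl fun l _ => h l, Finset.prod_mul_distrib]
    ring
  refine ⟨v, fun hv => ?_, 1, one_ne_zero, hev⟩
  obtain ⟨P, hP, h1, h2⟩ := exists_evalT_ne_zero ∅ (detT_ne_zero δ.mem_b δ.frame.li)
    (detT_ne_zero δ.mem_b' δ.frame'.li)
  have h := hev P fun l => (hP l).2
  rw [hv] at h
  exact mul_ne_zero h1 h2 (by simpa [evalT] using h.symm)

end NormData

/-- Frames of equivalent divisors differ by a function and a constant. -/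
theorem exists_evalT_frame {m n : ℕ} {s t : Finset (Place K F)} {b b' : Fin n → F}
    (hb : IsFrame (WS O m (setDiv s)) b) (hb' : IsFrame (WS O m (setDiv t)) b') {f : F}
    (hf0 : f ≠ 0) (hf : divisorOf f = setDiv t - setDiv s) :
    ∃ a : K, a ≠ 0 ∧ ∀ P : Fin n → Place K F, (∀ l, P l ≠ O) → (∀ l, OrdGE (P l) 0 f) →
      evalT O m (detT O m b') P = a * ((∏ l, pval (P l) f) * evalT O m (detT O m b) P) := by
  set b₁ : Fin n → F := fun i => f * b i
  have hmem : ∀ i, b₁ i ∈ WS O m (setDiv t) := by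
    intro i
    have h := mem_riemannRochSpace.1 (hb.mem i)
    refine mem_riemannRochSpace.2 fun v => ((ordGE_self (v := v) f).mul (h v)).mono ?_
    have := DFunLike.congr_fun hf v
    simp only [Finsupp.sub_apply, divisorOf_apply] at this ⊢
    omega
  have hli : LinearIndependent K b₁ :=
    hb.li.map' (LinearMap.mulLeft K f) (LinearMap.ker_eq_bot.2 (mul_right_injective₀ hf0))
  have hb₁ : IsFrame (WS O m (setDiv t)) b₁ := by
    refine ⟨hli, Submodule.eq_of_le_of_finrank_le
      (Submodule.span_le.2 (Set.range_subset_iff.2 hmem)) ?_⟩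
    rw [← hb'.span_eq, finrank_span_eq_card hli, finrank_span_eq_card hb'.li]
  obtain ⟨a, ha, e⟩ := detT_change (WS_le_LS (setDiv_nonneg t)) hb₁ hb'
  refine ⟨a, ha, fun P hP hreg => ?_⟩
  rw [e, evalT_smul, evalT_detT (fun i => WS_le_LS (setDiv_nonneg t) (hmem i)) hP,
    evalT_detT (fun i => WS_le_LS (setDiv_nonneg s) (hb.mem i)) hP, ← Matrix.det_mul_row]
  congr 2
  ext i l
  simp only [Matrix.of_apply, b₁]
  rw [pval_mul (hreg l) (ordGE_of_mem (WS_le_LS (setDiv_nonneg s) (hb.mem i)) (hP l))]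

/-- **The form is unique** up to a constant. -/
theorem IsNorm.unique {m d n k : ℕ} {x : Pic0 K F} {v v' : (Fin n → Fin (lsDim O k)) → K}
    (hv : IsNorm O m d n k x v) (hv' : IsNorm O m d n k x v') : ∃ a : K, a ≠ 0 ∧ v' = a • v := by
  classical
  obtain ⟨δ, hv0, a₀, ha₀, hδ⟩ := hv
  obtain ⟨η, hv'0, a₁, ha₁, hη⟩ := hv'
  obtain ⟨f, hf0, hf⟩ := Curve.isPrincipal_iff.1
    ((cls_eq_iff (η.card_s.trans δ.card_s.symm)).1 (η.cls_s.trans δ.cls_s.symm))
  obtain ⟨f', hf'0, hf'⟩ := Curve.isPrincipal_iff.1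
    ((cls_eq_iff (η.card_s'.trans δ.card_s'.symm)).1 (η.cls_s'.trans δ.cls_s'.symm))
  obtain ⟨p, hp, hfP⟩ := exists_evalT_frame δ.frame η.frame hf0 hf.symm
  obtain ⟨q, hq, hf'P⟩ := exists_evalT_frame δ.frame' η.frame' hf'0 hf'.symm
  obtain ⟨r, hr⟩ : ∃ r : K, η.w = algebraMap K F r * (f * f' * δ.w) := by
    obtain ⟨r, hr⟩ := exists_eq_algebraMap (K := K) (f := η.w / (f * f' * δ.w)) fun v => by
      rw [ord_div η.w_ne (mul_ne_zero (mul_ne_zero hf0 hf'0) δ.w_ne),
        Place.ord_mul v (mul_ne_zero hf0 hf'0) δ.w_ne, Place.ord_mul v hf0 hf'0]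
      have h1 := DFunLike.congr_fun δ.div_w v
      have h2 := DFunLike.congr_fun η.div_w v
      have h3 := DFunLike.congr_fun hf v
      have h4 := DFunLike.congr_fun hf' v
      simp only [divisorOf_apply, Finsupp.sub_apply, Finsupp.add_apply] at h1 h2 h3 h4
      omega
    exact ⟨r, by rw [← hr, div_mul_cancel₀ _ (mul_ne_zero (mul_ne_zero hf0 hf'0) δ.w_ne)]⟩
  have hr0 : r ≠ 0 := fun h => η.w_ne (by rw [hr, h, map_zero, zero_mul])
  refine ⟨a₁ * p * q / (a₀ * r ^ n), div_ne_zero (mul_ne_zero (mul_ne_zero ha₁ hp) hq)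
    (mul_ne_zero ha₀ (pow_ne_zero _ hr0)), ?_⟩
  refine ext_evalT ((finite_ord_ne_zero (K := K) f).toFinset ∪
    (finite_ord_ne_zero (K := K) f').toFinset ∪ δ.s ∪ δ.s') fun P hP => ?_
  have hPO : ∀ l, P l ≠ O := fun l => (hP l).2
  have hreg : ∀ l, (P l).ord f = 0 ∧ (P l).ord f' = 0 ∧ P l ∉ δ.s ∧ P l ∉ δ.s' := fun l => by
    have h := (hP l).1
    simp only [Finset.mem_union, Set.Finite.mem_toFinset, Set.mem_ofPred_eq, not_or, not_not] at h
    exact ⟨h.1.1.1, h.1.1.2, h.1.2, h.2⟩
  have hf1 : ∀ l, OrdGE (P l) 0 f := fun l => Or.inr (hreg l).1.ge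
  have hf2 : ∀ l, OrdGE (P l) 0 f' := fun l => Or.inr (hreg l).2.1.ge
  have hw : ∀ l, pval (P l) η.w = r * (pval (P l) f * pval (P l) f' * pval (P l) δ.w) := fun l => by
    have h12 : OrdGE (P l) 0 (f * f') := ((hf1 l).mul (hf2 l)).mono (by simp)
    have h3 := ordGE_of_mem δ.w_mem (hPO l)
    rw [hr, pval_mul (ordGE_algebraMap r) ((h12.mul h3).mono (by simp)), pval_algebraMap,
      pval_mul h12 h3, pval_mul (hf1 l) (hf2 l)]
  have hne : ∀ l, pval (P l) f ≠ 0 ∧ pval (P l) f' ≠ 0 ∧ pval (P l) δ.w ≠ 0 := fun l => by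
    have hw0 : (P l).ord δ.w = 0 := by
      have h := DFunLike.congr_fun δ.div_w (P l)
      simp only [divisorOf_apply, Finsupp.sub_apply, Finsupp.add_apply, setDiv_apply,
        if_neg (hreg l).2.2.1, if_neg (hreg l).2.2.2, Finsupp.single_eq_of_ne (hPO l)] at h
      omega
    have hnz : ∀ {g : F}, g ≠ 0 → (P l).ord g = 0 → pval (P l) g ≠ 0 := fun hg ho h0 => by
      have := (ordGE_iff_le hg).1 ((pval_eq_zero_iff (Or.inr ho.ge)).1 h0)
      omega
    exact ⟨hnz hf0 (hreg l).1, hnz hf'0 (hreg l).2.1, hnz δ.w_ne hw0⟩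
  have h1 := hη P hPO
  have h0 := hδ P hPO
  rw [hfP P hPO hf1, hf'P P hPO hf2, Finset.prod_congr rfl fun l _ => hw l,
    Finset.prod_mul_distrib, Finset.prod_mul_distrib, Finset.prod_mul_distrib, Finset.prod_const,
    Finset.card_univ, Fintype.card_fin] at h1
  have hA : (∏ l, pval (P l) f) * (∏ l, pval (P l) f') * ∏ l, pval (P l) δ.w ≠ 0 :=
    mul_ne_zero (mul_ne_zero (Finset.prod_ne_zero_iff.2 fun l _ => (hne l).1)
      (Finset.prod_ne_zero_iff.2 fun l _ => (hne l).2.1))
      (Finset.prod_ne_zero_iff.2 fun l _ => (hne l).2.2)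
  refine mul_right_cancel₀ hA ?_
  rw [evalT_smul]
  field_simp
  linear_combination a₀ * h1 - a₁ * p * q * (∏ l, pval (P l) f) * (∏ l, pval (P l) f') * h0

theorem IsNorm.smul {m d n k : ℕ} {x : Pic0 K F} {v : (Fin n → Fin (lsDim O k)) → K}
    (hv : IsNorm O m d n k x v) {a : K} (ha : a ≠ 0) : IsNorm O m d n k x (a • v) := by
  obtain ⟨δ, hv0, a₀, ha₀, hδ⟩ := hv
  exact ⟨δ, smul_ne_zero ha hv0, a * a₀, mul_ne_zero ha ha₀, fun P hP => by
    rw [evalT_smul, mul_assoc, hδ P hP, mul_assoc]⟩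

/-- A form of a class fits every datum of the class. -/
theorem IsNorm.fits {m d n k : ℕ} (hk : m + m = 2 * d + k) {x : Pic0 K F}
    {v : (Fin n → Fin (lsDim O k)) → K} (hv : IsNorm O m d n k x v) (δ : NormData O m d n x) :
    δ.Fits k v := by
  obtain ⟨v₁, hv₁⟩ := δ.exists_fits hk
  obtain ⟨a, ha, rfl⟩ := IsNorm.unique ⟨δ, hv₁⟩ hv
  obtain ⟨h0, a₁, ha₁, h⟩ := hv₁
  exact ⟨smul_ne_zero ha h0, a * a₁, mul_ne_zero ha ha₁, fun P hP => by
    rw [evalT_smul, mul_assoc, h P hP, mul_assoc]⟩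

/-! ### Semilinear automorphisms -/

section Semilinear

variable (g : SemilinearAut K F)

omit [IsAlgClosed K] [IsFF K F] in
theorem smul_smul_eq (a : K) (f : F) : g • (a • f) = SemilinearAut.baseAut g a • (g • f) := by
  rw [Algebra.smul_def, Algebra.smul_def, smul_mul', SemilinearAut.smul_algebraMap]

omit [IsAlgClosed K] [IsFF K F] in
theorem ordGE_smul {P : Place K F} {n : ℤ} {f : F} (h : OrdGE P n f) :
    OrdGE (g • P) n (g • f) := by
  rcases h with rfl | h
  · exact Or.inl (smul_zero g)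
  · exact Or.inr (by rwa [SemilinearAut.ord_smul])

theorem pval_smul_place {P : Place K F} {f : F} (h : OrdGE P 0 f) :
    pval (g • P) (g • f) = SemilinearAut.baseAut g (pval P f) := by
  rw [pval_eq_iff (ordGE_smul g h), ← SemilinearAut.smul_algebraMap, ← smul_sub]
  exact ordGE_smul g (pval_spec h)

variable [DecidableEq (Place K F)]

omit [IsAlgClosed K] [IsFF K F] in
theorem dv_image (s : Finset (Place K F)) : setDiv (s.image (g • ·)) = g • setDiv s := by
  rw [setDiv, Finset.sum_image fun a _ b _ h => MulAction.injective g h, setDiv, Finset.smul_sum]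
  exact Finset.sum_congr rfl fun P _ => (SemilinearAut.smul_single g P 1).symm

theorem cls_image (hO : g • O = O) (s : Finset (Place K F)) :
    cls O (s.image (g • ·)) = g • cls O s := by
  rw [cls, cls, SemilinearAut.pic0_smul_mk]
  congr 1
  refine Subtype.ext ?_
  rw [SemilinearAut.coe_degZeroSMulHom]
  show setDiv _ - _ = g • (setDiv s - _)
  rw [Finset.card_image_of_injective _ (MulAction.injective g), dv_image, smul_sub,
    SemilinearAut.smul_single, hO]

omit [IsAlgClosed K] [IsFF K F] in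
theorem IsFrame.smul (hO : g • O = O) {m n : ℕ} {s : Finset (Place K F)} {b : Fin n → F}
    (hb : IsFrame (WS O m (setDiv s)) b) :
    IsFrame (WS O m (setDiv (s.image (g • ·)))) fun i => g • b i := by
  have hmem : ∀ {h : SemilinearAut K F} {t : Finset (Place K F)}, h • O = O → ∀ {f : F},
      f ∈ WS O m (setDiv t) → h • f ∈ WS O m (setDiv (t.image (h • ·))) := by
    intro h t hhO f hf
    have h1 := Flat.smul_mem_riemannRochSpace h hf
    rwa [smul_sub, SemilinearAut.smul_single, hhO, ← dv_image] at h1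
  have hli : LinearIndependent K fun i => g • b i := by
    rw [Fintype.linearIndependent_iff]
    intro a ha i
    have h : ∑ j, (SemilinearAut.baseAut g).symm (a j) • b j = 0 := by
      refine MulAction.injective g ?_
      simp only [Finset.smul_sum, smul_smul_eq, RingEquiv.apply_symm_apply, ha, smul_zero]
    simpa using Fintype.linearIndependent_iff.1 hb.li _ h i
  refine ⟨hli,
    le_antisymm (Submodule.span_le.2 (Set.range_subset_iff.2 fun i => hmem hO (hb.mem i)))
      fun f hf => ?_⟩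
  have hO' : g⁻¹ • O = O := inv_smul_eq_iff.2 hO.symm
  have h1 := hmem hO' hf
  rw [Finset.image_image, show ((fun P : Place K F => g⁻¹ • P) ∘ fun P => g • P) = id from
    funext fun P => inv_smul_smul g P, Finset.image_id] at h1
  obtain ⟨a, ha⟩ := hb.exists_coeff h1
  refine (Submodule.mem_span_range_iff_exists_fun K).2 ⟨fun i => SemilinearAut.baseAut g (a i), ?_⟩
  have e : f = g • (g⁻¹ • f) := (smul_inv_smul g f).symm
  rw [e, ← ha, Finset.smul_sum]
  exact Finset.sum_congr rfl fun i _ => (smul_smul_eq g _ _).symm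

/-- **The forms commute with semilinear automorphisms.** -/
theorem IsNorm.map {m d n k : ℕ} {x : Pic0 K F} (hO : g • O = O)
    (hphi : ∀ i, g • phi O k i = phi O k i) {v : (Fin n → Fin (lsDim O k)) → K}
    (hv : IsNorm O m d n k x v) :
    IsNorm O m d n k (g • x) fun J => SemilinearAut.baseAut g (v J) := by
  obtain ⟨δ, hv0, a, ha, hδ⟩ := hv
  let η : NormData O m d n (g • x) :=
    { s := δ.s.image (g • ·)
      s' := δ.s'.image (g • ·)
      b := fun i => g • δ.b i
      b' := fun i => g • δ.b' i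
      w := g • δ.w
      card_s := (Finset.card_image_of_injective _ (MulAction.injective g)).trans δ.card_s
      card_s' := (Finset.card_image_of_injective _ (MulAction.injective g)).trans δ.card_s'
      notMem := fun h => by
        obtain ⟨P, hP, e⟩ := Finset.mem_image.1 h
        exact δ.notMem (MulAction.injective g (e.trans hO.symm) ▸ hP)
      notMem' := fun h => by
        obtain ⟨P, hP, e⟩ := Finset.mem_image.1 h
        exact δ.notMem' (MulAction.injective g (e.trans hO.symm) ▸ hP)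
      cls_s := by rw [cls_image g hO, δ.cls_s]
      cls_s' := by rw [cls_image g hO, δ.cls_s', smul_neg]
      frame := δ.frame.smul g hO
      frame' := δ.frame'.smul g hO
      w_ne := by simpa using δ.w_ne
      div_w := by
        rw [← Flat.smul_divisorOf, δ.div_w, smul_sub, smul_add, SemilinearAut.smul_single, hO,
          dv_image, dv_image] }
  refine ⟨η, fun h => hv0 (funext fun J => (SemilinearAut.baseAut g).injective
    (by simpa using congrFun h J)), SemilinearAut.baseAut g a, by simpa using ha, fun Q hQ => ?_⟩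
  set P : Fin n → Place K F := fun l => g⁻¹ • Q l
  have hQP : Q = fun l => g • P l := funext fun l => (smul_inv_smul g (Q l)).symm
  have hP : ∀ l, P l ≠ O := fun l h => hQ l (by rw [congrFun hQP l]; show g • P l = O; rw [h, hO])
  have h1 : evalT O k (fun J => SemilinearAut.baseAut g (v J)) Q =
      SemilinearAut.baseAut g (evalT O k v P) := by
    simp only [evalT, map_sum, map_mul, map_prod, psi]
    refine Finset.sum_congr rfl fun J _ => ?_
    congr 1
    refine Finset.prod_congr rfl fun l _ => ?_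
    rw [← pval_smul_place g (ordGE_of_mem (phi_mem _) (hP l)), hphi, congrFun hQP l]
  have h2 : ∀ {b : Fin n → F}, (∀ i, b i ∈ LS O m) → (∀ i, g • b i ∈ LS O m) →
      evalT O m (detT O m fun i => g • b i) Q =
        SemilinearAut.baseAut g (evalT O m (detT O m b) P) := fun hb hgb => by
    rw [evalT_detT hgb hQ, evalT_detT hb hP, RingEquiv.map_det]
    congr 1
    ext i l
    rw [RingEquiv.mapMatrix_apply, Matrix.map_apply, Matrix.of_apply, Matrix.of_apply,
      ← pval_smul_place g (ordGE_of_mem (hb i) (hP l)), congrFun hQP l]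
  rw [h1, h2 δ.mem_b η.mem_b, h2 δ.mem_b' η.mem_b', ← map_mul, ← map_mul, ← hδ P hP, map_mul,
    map_prod]
  congr 1
  refine Finset.prod_congr rfl fun l _ => ?_
  rw [← pval_smul_place g (ordGE_of_mem δ.w_mem (hP l)), congrFun hQP l]

end Semilinear

/-! ### Tools for the finiteness of the classes of a form -/

theorem NormData.pval_w_ne_zero {m d n : ℕ} {x : Pic0 K F} (δ : NormData O m d n x)
    {Q : Place K F} (hQ : Q ≠ O) (h : Q ∉ δ.s) (h' : Q ∉ δ.s') : pval Q δ.w ≠ 0 := by
  classical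
  intro h0
  have h2 := (ordGE_iff_le δ.w_ne).1 ((pval_eq_zero_iff (ordGE_of_mem δ.w_mem hQ)).1 h0)
  have h3 := DFunLike.congr_fun δ.div_w Q
  simp only [divisorOf_apply, Finsupp.sub_apply, Finsupp.add_apply, setDiv_apply, if_neg h,
    if_neg h', Finsupp.single_eq_of_ne hQ] at h3
  omega

/-- The expansion of the determinant of `b` along a moving first point, the others being `T`. -/
def cofFun {n : ℕ} (T : Fin n → Place K F) (b : Fin (n + 1) → F) : F :=
  ∑ i : Fin (n + 1), ((-1) ^ (i : ℕ) *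
    Matrix.det (Matrix.of fun (l : Fin n) (r : Fin n) => pval (T r) (b (i.succAbove l)))) • b i

theorem cofFun_mem {n : ℕ} (T : Fin n → Place K F) {W : Submodule K F} {b : Fin (n + 1) → F}
    (hb : ∀ i, b i ∈ W) : cofFun T b ∈ W :=
  Submodule.sum_mem _ fun i _ => Submodule.smul_mem _ _ (hb i)

theorem evalT_detT_cons {m n : ℕ} {T : Fin n → Place K F} (hT : ∀ r, T r ≠ O)
    {b : Fin (n + 1) → F} (hb : ∀ i, b i ∈ LS O m) {Q : Place K F} (hQ : Q ≠ O) :
    evalT O m (detT O m b) (Fin.cons Q T) = pval Q (cofFun T b) := by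
  rw [evalT_detT hb (Fin.cases (by simpa using hQ) fun r => by simpa using hT r),
    Matrix.det_succ_column_zero, cofFun,
    pval_sum fun i _ => (ordGE_of_mem (hb i) hQ).smul _]
  refine Finset.sum_congr rfl fun i _ => ?_
  rw [pval_smul _ (ordGE_of_mem (hb i) hQ), Matrix.of_apply, Fin.cons_zero, mul_right_comm]
  congr 2

/-- The expansion vanishes at the fixed points. -/
theorem one_le_ord_cofFun {m n : ℕ} {T : Fin n → Place K F} (hT : ∀ r, T r ≠ O)
    {b : Fin (n + 1) → F} (hb : ∀ i, b i ∈ LS O m) (hne : cofFun T b ≠ 0) (r : Fin n) :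
    1 ≤ (T r).ord (cofFun T b) := by
  refine (ordGE_iff_le hne).1
    ((pval_eq_zero_iff (ordGE_of_mem (cofFun_mem T hb) (hT r))).1 ?_)
  rw [← evalT_detT_cons hT hb (hT r),
    evalT_detT hb (Fin.cases (by simpa using hT r) fun l => by simpa using hT l)]
  exact Matrix.det_zero_of_column_eq (Fin.succ_ne_zero r).symm (fun i => by simp)

theorem eq_of_mem_LS_of_pval_eq {m : ℕ} {f g : F} (hf : f ∈ LS O m) (hg : g ∈ LS O m)
    (h : ∀ Q, Q ≠ O → pval Q f = pval Q g) : f = g := by
  by_contra hne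
  have : Infinite (Place K F) := Jac.infinite_places
  obtain ⟨Q, hQ⟩ := Infinite.exists_notMem_finset
    (finite_pval_eq_zero (Submodule.sub_mem _ hf hg) (sub_ne_zero.2 hne)).toFinset
  simp only [Set.Finite.mem_toFinset, Set.mem_ofPred_eq, not_or] at hQ
  refine hQ.2 ?_
  rw [pval_sub (ordGE_of_mem hf hQ.1) (ordGE_of_mem hg hQ.1), h Q hQ.1, sub_self]

omit [IsAlgClosed K] [IsFF K F] in
theorem nonneg_ord_sub_dv {m : ℕ} {g : F} {s S : Finset (Place K F)} (hg0 : g ≠ 0)
    (hg : g ∈ WS O m (setDiv s)) (hdis : Disjoint s S) (hS : ∀ Q ∈ S, Q ≠ O ∧ 1 ≤ Q.ord g)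
    (Q : Place K F) : 0 ≤ Q.ord g + Finsupp.single O (m : ℤ) Q - setDiv s Q - setDiv S Q := by
  classical
  have h1 := (mem_riemannRochSpace_iff_ne_zero hg0).1 hg Q
  simp only [Finsupp.sub_apply] at h1
  rw [setDiv_apply S Q]
  split_ifs with hQ
  · obtain ⟨hQO, h2⟩ := hS Q hQ
    simp only [setDiv_apply, if_neg (Finset.disjoint_right.1 hdis hQ),
      Finsupp.single_eq_of_ne hQO] at h1 ⊢
    omega
  · omega

/-- The residual divisor of the first factor is bounded by the divisor of `q`. -/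
theorem residual_le_of_smul_eq {m d n k : ℕ} {x : Pic0 K F} (δ : NormData O m d n x)
    (hk : m + m = 2 * d + k) {f f' q : F} {a b : K} {S : Finset (Place K F)} (ha : a ≠ 0)
    (hb : b ≠ 0) (hq0 : q ≠ 0) (hf0 : f ≠ 0) (hf'0 : f' ≠ 0)
    (hid : b • (q * δ.w) = a • (f * f'))
    (hR : ∀ Q, 0 ≤ Q.ord f' + Finsupp.single O (m : ℤ) Q - setDiv δ.s' Q - setDiv S Q) :
    divisorOf f + Finsupp.single O (m : ℤ) - setDiv δ.s - setDiv S ≤
      divisorOf q + Finsupp.single O (k : ℤ) := by
  classical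
  intro Q
  have h1 := congrArg (fun z => Place.ord Q z) hid
  simp only [Algebra.smul_def, Place.ord_mul Q ((_root_.map_ne_zero _).2 hb)
    (mul_ne_zero hq0 δ.w_ne), Place.ord_mul Q ((_root_.map_ne_zero _).2 ha)
    (mul_ne_zero hf0 hf'0), ord_algebraMap hb, ord_algebraMap ha, Place.ord_mul Q hq0 δ.w_ne,
    Place.ord_mul Q hf0 hf'0] at h1
  have h2 := DFunLike.congr_fun δ.div_w Q
  have h4 := hR Q
  have h5 : 0 ≤ setDiv S Q := setDiv_nonneg S Q
  simp only [Finsupp.add_apply, Finsupp.sub_apply, divisorOf_apply,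
    Finsupp.single_apply] at h1 h2 h4 ⊢
  split_ifs at * <;> omega

variable [CharZero K] {c : ℤ} (hc : Flat.IsThreshold K F c)
include hc

/-- Data avoiding a finite set of places. -/
theorem exists_normData {m d : ℕ} (hd : c + 1 ≤ d) (hm : c + d ≤ m) (x : Pic0 K F)
    (S : Finset (Place K F)) :
    ∃ δ : NormData O m d (rrn K F m d) x, Disjoint δ.s δ.s' ∧ Disjoint δ.s S ∧ Disjoint δ.s' S := by
  classical
  obtain ⟨s, hs, hsS, hsO, hsx⟩ := exists_rep hc O hd x S
  obtain ⟨t, ht, htS, htO, htx⟩ := exists_rep hc O hd (-x) (S ∪ s)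
  obtain ⟨b, hb⟩ := exists_isFrame (O := O) (m := m) (d := d) hc
    (show Divisor.degree (setDiv s) = d by rw [degree_setDiv, hs]) hm
  obtain ⟨b', hb'⟩ := exists_isFrame (O := O) (m := m) (d := d) hc
    (show Divisor.degree (setDiv t) = d by rw [degree_setDiv, ht]) hm
  rw [Finset.disjoint_union_right] at htS
  have hprin : Divisor.IsPrincipal (setDiv s + setDiv t - Finsupp.single O ((2 * d : ℕ) : ℤ)) := by
    have h : cls O (s ∪ t) = 0 := by rw [cls_union htS.2.symm, hsx, htx, add_neg_cancel]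
    rw [cls, Pic0.mk, QuotientAddGroup.eq_zero_iff, AddSubgroup.mem_addSubgroupOf,
      Divisor.mem_principal] at h
    rw [← setDiv_union htS.2.symm]
    have hcard : (s ∪ t).card = 2 * d := by
      rw [Finset.card_union_of_disjoint htS.2.symm, hs, ht]; ring
    simpa [hcard] using h
  obtain ⟨w, hw0, hw⟩ := Curve.isPrincipal_iff.1 hprin
  exact ⟨⟨s, t, b, b', w, hs, ht, hsO, htO, hsx, htx, hb, hb', hw0, hw.symm⟩, htS.2.symm, hsS,
    htS.1⟩

/-- Data avoiding a finite set of places, with a given number of frame vectors. -/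
theorem exists_normData_avoid {m d j : ℕ} (hd : c + 1 ≤ d) (hm : c + d ≤ m)
    (hj : j = rrn K F m d) (x : Pic0 K F) (S : Finset (Place K F)) :
    ∃ δ : NormData O m d j x, Disjoint δ.s S ∧ Disjoint δ.s' S := by
  subst hj
  obtain ⟨δ, -, h, h'⟩ := exists_normData (O := O) (m := m) (d := d) hc hd hm x S
  exact ⟨δ, h, h'⟩

/-- **A form belongs to finitely many classes.** -/
theorem finite_isNorm {m d n k : ℕ} (hd : c + 1 ≤ d) (hm : c + d + 1 ≤ m)
    (hn : n + 1 = rrn K F m d) (hk : m + m = 2 * d + k)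
    (v : (Fin (n + 1) → Fin (lsDim O k)) → K) :
    {x : Pic0 K F | IsNorm O m d (n + 1) k x v}.Finite := by
  classical
  rcases Set.eq_empty_or_nonempty {x : Pic0 K F | IsNorm O m d (n + 1) k x v} with h | ⟨x₀, hx₀⟩
  · rw [h]; exact Set.finite_empty
  have hv0 : v ≠ 0 := hx₀.choose_spec.1
  obtain ⟨P, hP, hPv, -⟩ := exists_evalT_ne_zero ∅ hv0 hv0
  set T : Fin n → Place K F := Fin.tail P
  have hTO : ∀ r, T r ≠ O := fun r => (hP r.succ).2
  set q : F := ∑ j, evalT O k (fun J => v (Fin.cons j J)) T • phi O k j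
  set S : Finset (Place K F) := Finset.univ.image T
  set bound : Divisor K F := divisorOf q + Finsupp.single O (k : ℤ)
  let mkC : Divisor K F → Pic0 K F := fun R =>
    if h : Divisor.degree (Finsupp.single O ((m : ℤ) - d) - R - setDiv S) = 0 then
      Pic0.mk ⟨_, Divisor.mem_degZero.2 h⟩ else 0
  refine ((Finset.Icc (0 : Divisor K F) bound).finite_toSet.image mkC).subset fun y hy => ?_
  obtain ⟨δ, hsS, hs'S⟩ := exists_normData_avoid hc hd (by omega) hn y S
  obtain ⟨-, a, ha, hfit⟩ := IsNorm.fits hk hy δ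
  set c₁ := ∏ l, pval (T l) δ.w
  have hmemS : ∀ l, T l ∈ S := fun l => Finset.mem_image_of_mem _ (Finset.mem_univ l)
  have hc₁ : c₁ ≠ 0 := Finset.prod_ne_zero_iff.2 fun l _ => δ.pval_w_ne_zero (hTO l)
    (Finset.disjoint_right.1 hsS (hmemS l)) (Finset.disjoint_right.1 hs'S (hmemS l))
  set f := cofFun T δ.b
  set f' := cofFun T δ.b'
  have hf : f ∈ WS O m (setDiv δ.s) := cofFun_mem T δ.frame.mem
  have hf' : f' ∈ WS O m (setDiv δ.s') := cofFun_mem T δ.frame'.mem
  have hq : q ∈ LS O k := sum_smul_phi_mem _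
  have hqQ : ∀ Q, Q ≠ O → evalT O k v (Fin.cons Q T) = pval Q q := fun Q hQ => by
    rw [evalT_cons, pval_eq_sum hq hQ, coord_sum_smul]
    exact Finset.sum_congr rfl fun j _ => mul_comm _ _
  -- the identity of functions
  have hLf : f ∈ LS O m := WS_le_LS (setDiv_nonneg _) hf
  have hLf' : f' ∈ LS O m := WS_le_LS (setDiv_nonneg _) hf'
  have hff' : f * f' ∈ LS O (m + m) := mul_mem_LS hLf hLf'
  have hqw : q * δ.w ∈ LS O (m + m) := by
    rw [hk, add_comm]; exact mul_mem_LS hq δ.w_mem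
  have hid : c₁ • (q * δ.w) = a • (f * f') := eq_of_mem_LS_of_pval_eq
      (Submodule.smul_mem _ _ hqw) (Submodule.smul_mem _ _ hff') fun Q hQ => by
    have h := hfit (Fin.cons Q T) (Fin.cases (by simpa using hQ) fun r => by simpa using hTO r)
    rw [hqQ Q hQ, evalT_detT_cons hTO δ.mem_b hQ, evalT_detT_cons hTO δ.mem_b' hQ,
      Fin.prod_univ_succ] at h
    simp only [Fin.cons_zero, Fin.cons_succ] at h
    rw [pval_smul _ (ordGE_of_mem hqw hQ), pval_smul _ (ordGE_of_mem hff' hQ),
      pval_mul (ordGE_of_mem hq hQ) (ordGE_of_mem δ.w_mem hQ),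
      pval_mul (ordGE_of_mem hLf hQ) (ordGE_of_mem hLf' hQ), ← h]
    ring
  have hq0 : q ≠ 0 := fun h => hPv (by
    have := hqQ (P 0) (hP 0).2
    rwa [show Fin.cons (P 0) T = P from Fin.cons_self_tail P, h, pval_zero] at this)
  have hne : f * f' ≠ 0 := fun h => by
    rw [h, smul_zero] at hid
    exact (smul_ne_zero hc₁ (mul_ne_zero hq0 δ.w_ne)) hid
  have hf0 : f ≠ 0 := left_ne_zero_of_mul hne
  have hf'0 : f' ≠ 0 := right_ne_zero_of_mul hne
  -- the residual divisor
  have hzero : ∀ {b : Fin (n + 1) → F}, (∀ i, b i ∈ LS O m) → cofFun T b ≠ 0 →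
      ∀ Q ∈ S, Q ≠ O ∧ 1 ≤ Q.ord (cofFun T b) := fun hb hne Q hQ => by
    obtain ⟨r, -, rfl⟩ := Finset.mem_image.1 hQ
    exact ⟨hTO r, one_le_ord_cofFun hTO hb hne r⟩
  have hR0 := nonneg_ord_sub_dv hf0 hf hsS (hzero δ.mem_b hf0)
  have hR0' := nonneg_ord_sub_dv hf'0 hf' hs'S (hzero δ.mem_b' hf'0)
  set R := divisorOf f + Finsupp.single O (m : ℤ) - setDiv δ.s - setDiv S
  refine ⟨R, Finset.mem_coe.2 (Finset.mem_Icc.2 ⟨fun Q => by simpa [R] using hR0 Q,
    residual_le_of_smul_eq δ hk ha hc₁ hq0 hf0 hf'0 hid hR0'⟩), ?_⟩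
  have hdeg : Divisor.degree (Finsupp.single O ((m : ℤ) - d) - R - setDiv S) = 0 := by
    simp [R, degree_setDiv, degree_divisorOf, deg_eq_one, δ.card_s]
  show mkC R = y
  simp only [mkC, dif_pos hdeg]
  rw [← δ.cls_s, cls, Jac.pic0_mk_eq_iff]
  refine ⟨f⁻¹, inv_ne_zero hf0, fun Q => ?_⟩
  simp only [R, δ.card_s, Finsupp.sub_apply, Finsupp.add_apply, divisorOf_apply, Place.ord_inv,
    Finsupp.single_apply]
  split_ifs <;> omega

end FermatAgent.MW
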