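import Fermat.Agent.MW.Quad

/-!
# The approximate parallelogram law on the class group

`hCls x` is the sum of `hQ` at chosen representatives of `x` and `-x`; it satisfies the
parallelogram law up to a bounded error.
-/

set_option autoImplicit false

noncomputable section

open AlgebraicCurve Module FermatAgent.Curve FermatAgent.Curve.Jac
open FermatAgent.GaloisBasic (Qbar)

namespace FermatAgent.MW

variable {F : Type*} [Field F] [Algebra Qbar F] [IsFF Qbar F] (O : Place Qbar F)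
variable {c : ℤ} (hc : Flat.IsThreshold Qbar F c)

/-- The degree of the representatives. -/
abbrev repDeg (c : ℤ) : ℕ := c.toNat + 2

/-- The ambient degree. -/
def ambDeg (F : Type*) [Field F] [Algebra Qbar F] [IsFF Qbar F] (c : ℤ) : ℕ :=
  (c.toNat + 6 * repDeg c + 2 + (rGenus Qbar F).toNat) +
    (c.toNat + (c.toNat + 6 * repDeg c + 2 + (rGenus Qbar F).toNat) + 6 * repDeg c + 2)

include hc

theorem exists_rep_of_le {k : ℕ} (hk : repDeg c ≤ k) (x : Pic0 Qbar F)
    (S : Finset (Place Qbar F)) :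
    ∃ s : Finset (Place Qbar F), s.card = k ∧ Disjoint s S ∧ O ∉ s ∧ cls O s = x :=
  exists_rep hc O (by simp only [repDeg] at hk; omega) x S

/-- A chosen representative. -/
def repOf (k : ℕ) (hk : repDeg c ≤ k) (x : Pic0 Qbar F) : Finset (Place Qbar F) :=
  (exists_rep_of_le O hc hk x ∅).choose

theorem repOf_spec (k : ℕ) (hk : repDeg c ≤ k) (x : Pic0 Qbar F) :
    (repOf O hc k hk x).card = k ∧ O ∉ repOf O hc k hk x ∧ cls O (repOf O hc k hk x) = x :=
  let h := (exists_rep_of_le O hc hk x ∅).choose_spec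
  ⟨h.1, h.2.2.1, h.2.2.2⟩

/-- The symmetrised height of a class. -/
def hCls (x : Pic0 Qbar F) : ℝ :=
  hQ O (ambDeg F c) (repOf O hc (repDeg c) le_rfl x) +
    hQ O (ambDeg F c) (repOf O hc (repDeg c) le_rfl (-x))

theorem exists_hQ_invariant_small :
    ∃ C, 0 ≤ C ∧ ∀ s t : Finset (Place Qbar F), s.card = t.card → s.card ≤ 6 * repDeg c →
      cls O s = cls O t → |hQ O (ambDeg F c) s - hQ O (ambDeg F c) t| ≤ C := by
  classical
  have key : ∀ k : ℕ, ∃ C, ∀ s t : Finset (Place Qbar F), k ≤ 6 * repDeg c → s.card = k →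
      t.card = k → cls O s = cls O t →
      |hQ O (ambDeg F c) s - hQ O (ambDeg F c) t| ≤ C := by
    intro k
    by_cases hk : k ≤ 6 * repDeg c
    · obtain ⟨C, hC⟩ := exists_hQ_invariant (O := O) hc (m := ambDeg F c) (d := k)
        (by have := hc.1; simp only [ambDeg]; omega)
      exact ⟨C, fun s t _ => hC s t⟩
    · exact ⟨0, fun s t h => absurd h hk⟩
  choose C hC using key
  refine ⟨∑ k ∈ Finset.range (6 * repDeg c + 1), |C k|, by positivity, fun s t hst hs' he => ?_⟩
  refine (hC s.card s t hs' rfl hst.symm he).trans ((le_abs_self _).trans ?_)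
  exact Finset.single_le_sum (f := fun k => |C k|) (fun k _ => abs_nonneg _)
    (Finset.mem_range.2 (by omega))

theorem exists_bQ_add_small [DecidableEq (Place Qbar F)] :
    ∃ C, ∀ s t u : Finset (Place Qbar F), s.card + t.card + u.card ≤ 6 * repDeg c →
      Disjoint s t → Disjoint s u → Disjoint t u → O ∉ t → O ∉ u →
        |bQ O (ambDeg F c) s (t ∪ u) - bQ O (ambDeg F c) s t - bQ O (ambDeg F c) s u| ≤ C :=
  exists_bQ_add hc (A := c.toNat + 6 * repDeg c + 2 + (rGenus Qbar F).toNat)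
    (by have := hc.1; push_cast; omega) (by have := hc.1; push_cast; omega)

/-- The law in degree `2 d` against degree `d`. -/
theorem exists_double_law :
    ∃ C K : ℝ, ∀ (x y : Pic0 Qbar F) (p q r u : Finset (Place Qbar F)),
      p.card = 2 * repDeg c → q.card = 2 * repDeg c → r.card = 2 * repDeg c →
      u.card = 2 * repDeg c →
      cls O p = x + y → cls O q = -(x + y) → cls O r = x - y → cls O u = -(x - y) →
        |hQ O (ambDeg F c) p + hQ O (ambDeg F c) q + hQ O (ambDeg F c) r + hQ O (ambDeg F c) u -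
          2 * hCls O hc x - 2 * hCls O hc y - K| ≤ C := by
  classical
  obtain ⟨C, hC0, hC⟩ := exists_hQ_invariant_small O hc
  obtain ⟨C', hC'⟩ := exists_bQ_add_small O hc
  set d := repDeg c with hd
  set m := ambDeg F c
  obtain ⟨e₀, he₀, -, he₀O, he₀c⟩ := exists_rep_of_le O hc (k := 2 * d) (by omega) 0 ∅
  obtain ⟨f₀, hf₀, -, hf₀O, hf₀c⟩ := exists_rep_of_le O hc (k := 4 * d) (by omega) 0 ∅
  refine ⟨30 * C + 30 * |C'|, hQ O m f₀ - 2 * hQ O m e₀,
    fun x y p q r u hp hq hr hu hpx hqx hrx hux => ?_⟩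
  obtain ⟨s, hs', -, hsO, hsx⟩ := exists_rep_of_le O hc (k := d) le_rfl x ∅
  obtain ⟨s', hs'', hss, hs'O, hs'x⟩ := exists_rep_of_le O hc (k := d) le_rfl (-x) s
  obtain ⟨t, ht', hts, htO, hty⟩ := exists_rep_of_le O hc (k := d) le_rfl y (s ∪ s')
  obtain ⟨t', ht'', hts', ht'O, ht'y⟩ := exists_rep_of_le O hc (k := d) le_rfl (-y) (s ∪ s' ∪ t)
  obtain ⟨e, he, hes, heO, hec⟩ := exists_rep_of_le O hc (k := 2 * d) (by omega) 0 (s ∪ s' ∪ t ∪ t')
  simp only [Finset.disjoint_union_right] at hts hts' hes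
  obtain ⟨hts, hts1⟩ := hts
  obtain ⟨⟨ht's, ht's1⟩, ht't⟩ := hts'
  obtain ⟨⟨⟨hes, hes1⟩, het⟩, het'⟩ := hes
  have inv : ∀ a b : Finset (Place Qbar F), a.card = b.card → a.card ≤ 6 * d → cls O a = cls O b →
      -C ≤ hQ O m a - hQ O m b ∧ hQ O m a - hQ O m b ≤ C :=
    fun a b h h' h'' => abs_le.1 (hC a b h h' h'')
  have hcu : ∀ {a b : Finset (Place Qbar F)}, Disjoint a b → (a ∪ b).card = a.card + b.card :=
    fun h => Finset.card_union_of_disjoint h
  have htt : Disjoint t t' := ht't.symm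
  -- the four sums
  have hP := inv p (s ∪ t) (by rw [hp, hcu hts.symm]; omega) (by omega)
    (by rw [hpx, cls_union hts.symm, hsx, hty])
  have hQ' := inv q (s' ∪ t') (by rw [hq, hcu ht's1.symm]; omega) (by omega)
    (by rw [hqx, cls_union ht's1.symm, hs'x, ht'y]; abel)
  have hR := inv r (s ∪ t') (by rw [hr, hcu ht's.symm]; omega) (by omega)
    (by rw [hrx, cls_union ht's.symm, hsx, ht'y]; abel)
  have hU := inv u (s' ∪ t) (by rw [hu, hcu hts1.symm]; omega) (by omega)
    (by rw [hux, cls_union hts1.symm, hs'x, hty]; abel)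
  have hx1 := inv (repOf O hc d le_rfl x) s
    (by rw [(repOf_spec O hc d le_rfl x).1, hs']) (by rw [(repOf_spec O hc d le_rfl x).1]; omega)
    (by rw [(repOf_spec O hc d le_rfl x).2.2, hsx])
  have hx2 := inv (repOf O hc d le_rfl (-x)) s'
    (by rw [(repOf_spec O hc d le_rfl (-x)).1, hs''])
    (by rw [(repOf_spec O hc d le_rfl (-x)).1]; omega)
    (by rw [(repOf_spec O hc d le_rfl (-x)).2.2, hs'x])
  have hy1 := inv (repOf O hc d le_rfl y) t
    (by rw [(repOf_spec O hc d le_rfl y).1, ht']) (by rw [(repOf_spec O hc d le_rfl y).1]; omega)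
    (by rw [(repOf_spec O hc d le_rfl y).2.2, hty])
  have hy2 := inv (repOf O hc d le_rfl (-y)) t'
    (by rw [(repOf_spec O hc d le_rfl (-y)).1, ht''])
    (by rw [(repOf_spec O hc d le_rfl (-y)).1]; omega)
    (by rw [(repOf_spec O hc d le_rfl (-y)).2.2, ht'y])
  -- the bilinear terms
  have hb1 := abs_le.1 (hC' s t t' (by omega) hts.symm ht's.symm htt htO ht'O)
  have hb2 := abs_le.1 (hC' s' t t' (by omega) hts1.symm ht's1.symm htt htO ht'O)
  have hb3 := abs_le.1 (hC' e s s' (by omega) hes hes1 hss.symm hsO hs'O)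
  have htt0 : cls O (t ∪ t') = 0 := by rw [cls_union htt, hty, ht'y, add_neg_cancel]
  have hss0 : cls O (s ∪ s') = 0 := by rw [cls_union hss.symm, hsx, hs'x, add_neg_cancel]
  have hstt : Disjoint s (t ∪ t') := Finset.disjoint_union_right.2 ⟨hts.symm, ht's.symm⟩
  have hs'tt : Disjoint s' (t ∪ t') := Finset.disjoint_union_right.2 ⟨hts1.symm, ht's1.symm⟩
  have hess : Disjoint e (s ∪ s') := Finset.disjoint_union_right.2 ⟨hes, hes1⟩
  have h3a := inv (s ∪ (t ∪ t')) (e ∪ s)
    (by rw [hcu hstt, hcu htt, hcu hes]; omega) (by rw [hcu hstt, hcu htt]; omega)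
    (by rw [cls_union hstt, cls_union hes, htt0, hec, add_comm])
  have h3b := inv (s' ∪ (t ∪ t')) (e ∪ s')
    (by rw [hcu hs'tt, hcu htt, hcu hes1]; omega) (by rw [hcu hs'tt, hcu htt]; omega)
    (by rw [cls_union hs'tt, cls_union hes1, htt0, hec, add_comm])
  have h2a := inv (t ∪ t') e (by rw [hcu htt]; omega) (by rw [hcu htt]; omega) (by rw [htt0, hec])
  have h2b := inv (s ∪ s') e₀ (by rw [hcu hss.symm]; omega) (by rw [hcu hss.symm]; omega)
    (by rw [hss0, he₀c])
  have h2c := inv e e₀ (by omega) (by omega) (by rw [hec, he₀c])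
  have h4 := inv (e ∪ (s ∪ s')) f₀ (by rw [hcu hess, hcu hss.symm]; omega)
    (by rw [hcu hess, hcu hss.symm]; omega) (by rw [cls_union hess, hss0, hec, hf₀c, add_zero])
  simp only [bQ] at hb1 hb2 hb3
  have := le_abs_self C'
  have := abs_nonneg C'
  rw [hCls, hCls, abs_le]
  constructor <;> linarith

/-- **The approximate parallelogram law**: `hCls (x + y) + hCls (x - y)` is
`2 (hCls x + hCls y)` up to a constant not depending on `x` and `y`. -/
theorem exists_parallelogram : ∃ C, ∀ x y : Pic0 Qbar F,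
    |hCls O hc (x + y) + hCls O hc (x - y) - 2 * (hCls O hc x + hCls O hc y)| ≤ C := by
  obtain ⟨C, K, h⟩ := exists_double_law O hc
  set d := repDeg c
  have sp := fun x => repOf_spec O hc (2 * d) (by omega) x
  set G₀ := hCls O hc 0
  refine ⟨|K + 2 * G₀| + 3 * |C| + |K|, fun x y => ?_⟩
  have h1 := abs_le.1 (h x y _ _ _ _ (sp (x + y)).1 (sp (-(x + y))).1 (sp (x - y)).1
    (sp (-(x - y))).1 (sp (x + y)).2.2 (sp (-(x + y))).2.2 (sp (x - y)).2.2 (sp (-(x - y))).2.2)
  have h2 := abs_le.1 (h (x + y) 0 _ _ _ _ (sp (x + y)).1 (sp (-(x + y))).1 (sp (x + y)).1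
    (sp (-(x + y))).1 (by rw [add_zero]; exact (sp (x + y)).2.2)
    (by rw [add_zero]; exact (sp (-(x + y))).2.2) (by rw [sub_zero]; exact (sp (x + y)).2.2)
    (by rw [sub_zero]; exact (sp (-(x + y))).2.2))
  have h3 := abs_le.1 (h (x - y) 0 _ _ _ _ (sp (x - y)).1 (sp (-(x - y))).1 (sp (x - y)).1
    (sp (-(x - y))).1 (by rw [add_zero]; exact (sp (x - y)).2.2)
    (by rw [add_zero]; exact (sp (-(x - y))).2.2) (by rw [sub_zero]; exact (sp (x - y)).2.2)
    (by rw [sub_zero]; exact (sp (-(x - y))).2.2))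
  have := le_abs_self C
  have := abs_nonneg C
  have := abs_le.1 (le_refl |K + 2 * G₀|)
  have := abs_le.1 (le_refl |K|)
  rw [abs_le]
  constructor <;> linarith

end FermatAgent.MW
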