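import Fermat.Agent.MW.NormArray
import Fermat.Agent.MW.Para

/-!
# The height of the form is the symmetrised height of the class

Up to a bounded error `hCls x` is twice the height of any form of `x`.
-/

set_option autoImplicit false

noncomputable section

open AlgebraicCurve Module FermatAgent.Curve FermatAgent.Curve.Jac
open FermatAgent.GaloisBasic (Qbar)

namespace FermatAgent.MW

variable {F : Type*} [Field F] [Algebra Qbar F] [IsFF Qbar F] {O : Place Qbar F}

/-- Arrays of equal degree with equal values have equal heights. -/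
theorem habs_eq_of_evalT {a b n : ℕ} (h : a = b) (x : (Fin n → Fin (lsDim O a)) → Qbar)
    (y : (Fin n → Fin (lsDim O b)) → Qbar)
    (e : ∀ P : Fin n → Place Qbar F, (∀ l, P l ≠ O) → evalT O a x P = evalT O b y P) :
    habs x = habs y := by
  subst h
  rw [ext_evalT ∅ fun P hP => e P fun l => (hP l).2]

theorem habs_powT {m n : ℕ} {u : F} (hu : u ∈ LS O m) (hu0 : u ≠ 0) :
    habs (powT O m n u) = n * habs (coord O m u) := by
  show habs (fun J : Fin n → Fin (lsDim O m) => ∏ k, coord O m u (J k)) = _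
  rw [habs_piProd fun _ => coord_ne_zero hu hu0]
  simp

/-- The height identity of a form and the arrays of its datum. -/
theorem exists_habs_fits (m d n k : ℕ) (hk : 2 * d + k = m + m) :
    ∃ C, ∀ (x : Pic0 Qbar F) (δ : NormData O m d n x) (v : (Fin n → Fin (lsDim O k)) → Qbar),
      δ.Fits k v →
        |(n : ℝ) * habs (coord O (2 * d) δ.w) + habs v -
          habs (detT O m δ.b) - habs (detT O m δ.b')| ≤ C := by
  obtain ⟨C, hC⟩ := exists_habs_bilinear_eq (mulT O (2 * d) k n) fun x y => mulT_eq_zero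
  obtain ⟨C', hC'⟩ := exists_habs_bilinear_eq (mulT O m m n) fun x y => mulT_eq_zero
  refine ⟨C + C', fun x δ v hv => ?_⟩
  obtain ⟨hv0, a, ha, hfit⟩ := hv
  have h1 := abs_le.1 (hC (powT O (2 * d) n δ.w) v (powT_ne_zero δ.w_mem δ.w_ne) hv0)
  have h2 := abs_le.1 (hC' (detT O m δ.b) (detT O m δ.b') (detT_ne_zero δ.mem_b δ.frame.li)
    (detT_ne_zero δ.mem_b' δ.frame'.li))
  have e : habs (mulT O (2 * d) k n (powT O (2 * d) n δ.w) v) =
      habs (a • mulT O m m n (detT O m δ.b) (detT O m δ.b')) := by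
    refine habs_eq_of_evalT hk _ _ fun P hP => ?_
    rw [evalT_smul, evalT_mulT _ _ hP, evalT_mulT _ _ hP, evalT_powT δ.w_mem hP,
      mul_comm, hfit P hP]
  rw [habs_smul ha] at e
  rw [habs_powT δ.w_mem δ.w_ne, e] at h1
  rw [abs_le]
  constructor <;> linarith

variable [DecidableEq (Place Qbar F)] {c : ℤ} (hc : Flat.IsThreshold Qbar F c)
include hc

/-- The increments of the linear part are additive. -/
theorem exists_lam_union {A B R : ℕ} (hA : c + R + 2 + rGenus Qbar F ≤ A)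
    (hB : c + A + R + 2 ≤ B) :
    ∃ C, ∀ s u : Finset (Place Qbar F), s.card + u.card ≤ R → Disjoint s u → O ∉ u →
      |lam O (A + B) (s ∪ u) - lam O (A + B) s - lam O (A + B) u| ≤ C := by
  obtain ⟨C, hC0, hC⟩ := exists_step_bounds (O := O) hc hA hB
  have key := abs_lam_union_le (O := O) (m := A + B) fun s P hs hP hPO =>
    (hC s ∅ P hs (by simp) (by simp) (by simp [hP]) hPO).2
  refine ⟨2 * C * R, fun s u h h' hO => (key u s h h' hO).trans ?_⟩
  have : (u.card : ℝ) ≤ R := Nat.cast_le.2 (by omega)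
  nlinarith

/-- **The height of a form**: every class `x` has a form `v` with `hCls x = 2 habs v` up to a
constant not depending on `x`. -/
theorem exists_habs_isNorm {k : ℕ} (hk : 2 * repDeg c + k = ambDeg F c + ambDeg F c) :
    ∃ C, ∀ x : Pic0 Qbar F, ∃ v : (Fin (rrn Qbar F (ambDeg F c) (repDeg c)) →
        Fin (lsDim O k)) → Qbar,
      IsNorm O (ambDeg F c) (repDeg c) (rrn Qbar F (ambDeg F c) (repDeg c)) k x v ∧
        |hCls O hc x - 2 * habs v| ≤ C := by
  classical
  have hc0 := hc.1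
  set d := repDeg c with hd
  set m := ambDeg F c with hm
  set n := rrn Qbar F m d with hn
  have hcd : c + 1 ≤ (d : ℤ) := by simp only [hd, repDeg]; omega
  have hmd : c + ((2 * d : ℕ) : ℤ) ≤ (m : ℤ) := by simp only [hm, ambDeg, ← hd]; push_cast; omega
  obtain ⟨e₀, he₀, -, he₀O, he₀c⟩ := exists_rep_of_le O hc (k := 2 * d) (by omega) 0 ∅
  have hprin : Divisor.IsPrincipal (setDiv e₀ - Finsupp.single O ((2 * d : ℕ) : ℤ)) := by
    have h := he₀c
    rw [cls, Pic0.mk, QuotientAddGroup.eq_zero_iff, AddSubgroup.mem_addSubgroupOf,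
      Divisor.mem_principal] at h
    simpa [he₀] using h
  obtain ⟨w₀, hw₀, hw₀div⟩ := Curve.isPrincipal_iff.1 hprin
  have hw₀mem : w₀ ∈ LS O (2 * d) := by
    rw [mem_riemannRochSpace_iff_ne_zero hw₀]
    intro P
    have h := DFunLike.congr_fun hw₀div P
    have := setDiv_nonneg e₀ P
    simp only [divisorOf_apply, Finsupp.sub_apply, Finsupp.zero_apply] at *
    omega
  obtain ⟨Ci, hCi⟩ := exists_hQ_invariant (O := O) hc (m := m) (d := d)
    (by simp only [hm, ambDeg, ← hd]; push_cast; omega)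
  obtain ⟨Cf, hCf⟩ := exists_habs_fits (O := O) m d n k hk
  obtain ⟨Cu, hCu⟩ := exists_lam_union (O := O) hc (R := 6 * d)
    (A := c.toNat + 6 * d + 2 + (rGenus Qbar F).toNat)
    (B := c.toNat + (c.toNat + 6 * d + 2 + (rGenus Qbar F).toNat) + 6 * d + 2)
    (by push_cast; omega) (by push_cast; omega)
  obtain ⟨Cs, hCs⟩ := exists_lam_shift (O := O) hc (2 * d) m (2 * d) hmd
  set K₀ := 4 * hs O m ∅ + 2 * (n : ℝ) * (lam O m e₀ - habs (coord O (2 * d) w₀))
  refine ⟨2 * |Ci| + 2 * |Cf| + 2 * (n : ℝ) * (|Cu| + |Cs|) + |K₀|, fun x => ?_⟩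
  obtain ⟨δ, hdis, -, -⟩ := exists_normData (O := O) (m := m) (d := d) hc hcd
    (by simp only [hm, ambDeg, ← hd]; push_cast; omega) x ∅
  obtain ⟨v, hv⟩ := δ.exists_fits (k := k) (by omega)
  refine ⟨v, ⟨δ, hv⟩, ?_⟩
  have hf := abs_le.1 (hCf x δ v hv)
  have sp := fun y => repOf_spec O hc d le_rfl y
  have hx1 := abs_le.1 (hCi _ δ.s (sp x).1 δ.card_s ((sp x).2.2.trans δ.cls_s.symm))
  have hx2 := abs_le.1 (hCi _ δ.s' (sp (-x)).1 δ.card_s' ((sp (-x)).2.2.trans δ.cls_s'.symm))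
  have hl : -Cu ≤ lam O m (δ.s ∪ δ.s') - lam O m δ.s - lam O m δ.s' ∧
      lam O m (δ.s ∪ δ.s') - lam O m δ.s - lam O m δ.s' ≤ Cu :=
    abs_le.1 (hCu δ.s δ.s' (by rw [δ.card_s, δ.card_s']; omega) hdis δ.notMem')
  have hsh := abs_le.1 (hCs (δ.s ∪ δ.s') e₀ δ.w w₀
    (by rw [Finset.card_union_of_disjoint hdis, δ.card_s, δ.card_s']; ring) he₀ δ.w_mem hw₀mem
    δ.w_ne hw₀ (by rw [δ.div_w, setDiv_union hdis, ← hw₀div]; abel)).1
  have hnum : (m : ℝ) - d + 1 - (rGenus Qbar F : ℝ) = (n : ℝ) := by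
    have e := rrn_eq hc (m := m) (d := d) (by simp only [hm, ambDeg, ← hd]; push_cast; omega) O
    have := congrArg (fun z : ℤ => (z : ℝ)) e
    push_cast at this
    linarith
  have hhgt : ∀ {s : Finset (Place Qbar F)} {b : Fin n → F}, s.card = d →
      IsFrame (WS O m (setDiv s)) b → hs O m s = habs (detT O m b) := fun hs' hb => by
    obtain ⟨a, ha, e⟩ := plk_eq (setDiv_nonneg _) hb
    rw [hs, hgt_eq (by rw [degree_setDiv, hs']) rfl, e, habs_smul ha]
  have hq : ∀ {s : Finset (Place Qbar F)} {b : Fin n → F}, s.card = d →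
      IsFrame (WS O m (setDiv s)) b → hQ O m s =
        2 * habs (detT O m b) - 2 * hs O m ∅ - 2 * (n : ℝ) * lam O m s := fun hs' hb => by
    rw [hQ, hs', hnum, hhgt hs' hb]; ring
  rw [hq δ.card_s δ.frame] at hx1
  rw [hq δ.card_s' δ.frame'] at hx2
  have hn0 : (0 : ℝ) ≤ n := Nat.cast_nonneg _
  have := le_abs_self Ci
  have := le_abs_self Cf
  have := le_abs_self Cu
  have := le_abs_self Cs
  have := abs_le.1 (le_refl |K₀|)
  have e1 : (n : ℝ) * |lam O m δ.s + lam O m δ.s' - habs (coord O (2 * d) δ.w) -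
      (lam O m e₀ - habs (coord O (2 * d) w₀))| ≤ (n : ℝ) * (|Cu| + |Cs|) := by
    refine mul_le_mul_of_nonneg_left ?_ hn0
    rw [abs_le]; constructor <;> linarith
  have e2' : |(n : ℝ) * (lam O m δ.s + lam O m δ.s' - habs (coord O (2 * d) δ.w) -
      (lam O m e₀ - habs (coord O (2 * d) w₀)))| ≤ (n : ℝ) * (|Cu| + |Cs|) := by
    rwa [abs_mul, Nat.abs_cast]
  have e2 := abs_le.1 e2'
  rw [hCls, abs_le]
  constructor <;> linarith

end FermatAgent.MW
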