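import Fermat.Agent.MW.Tensor
import Fermat.Agent.Curve.Jac.Generic
import Fermat.Agent.Flat.Pencil

/-!
# Plücker arrays of Riemann–Roch spaces

`plk O m n D` is the array of maximal minors of a basis of `L(m O - D)` in the coordinates of
`L(m O)`; it is alternating, nonzero, and its contraction at a point outside `D` is the array of
the larger divisor.
-/

set_option autoImplicit false

noncomputable section

open AlgebraicCurve Module FermatAgent.Curve FermatAgent.Curve.Jac

namespace FermatAgent.MW

variable {K F : Type*} [Field K] [Field F] [Algebra K F]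

theorem setDiv_union [DecidableEq (Place K F)] {s t : Finset (Place K F)} (h : Disjoint s t) :
    setDiv (s ∪ t) = setDiv s + setDiv t :=
  Finset.sum_union h

theorem setDiv_insert [DecidableEq (Place K F)] {s : Finset (Place K F)} {P : Place K F}
    (h : P ∉ s) :
    setDiv (insert P s) = Finsupp.single P 1 + setDiv s :=
  Finset.sum_insert h

variable [IsFF K F]

variable (K F) in
/-- The expected dimension of `L(m O - D)` for `deg D = d`. -/
def rrn (m d : ℕ) : ℕ := ((m : ℤ) - d + 1 - rGenus K F).toNat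

variable (O : Place K F)

/-- `L(m O - D)`. -/
abbrev WS (m : ℕ) (D : Divisor K F) : Submodule K F :=
  riemannRochSpace (Finsupp.single O (m : ℤ) - D)

/-- A basis of a subspace, as a family. -/
structure IsFrame (W : Submodule K F) {n : ℕ} (b : Fin n → F) : Prop where
  li : LinearIndependent K b
  span_eq : Submodule.span K (Set.range b) = W

variable {O}

omit [IsFF K F] in
theorem WS_le_LS {m : ℕ} {D : Divisor K F} (hD : 0 ≤ D) : WS O m D ≤ LS O m :=
  riemannRochSpace_le_of_le (sub_le_self _ hD)

variable {c : ℤ} (hc : Flat.IsThreshold K F c)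

section Threshold

variable [IsAlgClosed K]

theorem degree_WS (m : ℕ) (D : Divisor K F) :
    Divisor.degree (Finsupp.single O (m : ℤ) - D) = (m : ℤ) - Divisor.degree D := by
  rw [map_sub, Divisor.degree_single, deg_eq_one, Nat.cast_one, mul_one]

include hc

theorem finrank_WS {m d : ℕ} {D : Divisor K F} (hD : Divisor.degree D = d) (h : c + d ≤ m) :
    (finrank K (WS O m D) : ℤ) = (m : ℤ) - d + 1 - rGenus K F ∧
      finrank K (WS O m D) = rrn K F m d := by
  have h1 := hc.2 (Finsupp.single O (m : ℤ) - D) (by rw [degree_WS, hD]; omega)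
  rw [degree_WS, hD] at h1
  refine ⟨h1, ?_⟩
  rw [rrn]
  show rrDim _ = _
  omega

theorem rrn_eq {m d : ℕ} (h : c + d ≤ m) (O : Place K F) :
    (rrn K F m d : ℤ) = (m : ℤ) - d + 1 - rGenus K F := by
  have h1 := hc.2 (Finsupp.single O ((m : ℤ) - d)) (by
    rw [Divisor.degree_single, deg_eq_one, Nat.cast_one, mul_one]; omega)
  rw [Divisor.degree_single, deg_eq_one, Nat.cast_one, mul_one] at h1
  rw [rrn]
  omega

theorem exists_isFrame {m d : ℕ} {D : Divisor K F} (hD : Divisor.degree D = d) (h : c + d ≤ m) :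
    ∃ b : Fin (rrn K F m d) → F, IsFrame (WS O m D) b := by
  let e := Module.finBasisOfFinrankEq K (WS O m D) (finrank_WS hc hD h).2
  refine ⟨fun i => (e i : F),
    e.linearIndependent.map' (WS O m D).subtype (Submodule.ker_subtype _), ?_⟩
  rw [show (fun i => (e i : F)) = (WS O m D).subtype ∘ e from rfl, Set.range_comp,
    ← Submodule.map_span, e.span_eq, Submodule.map_top, Submodule.range_subtype]

end Threshold

omit [IsFF K F] in
theorem IsFrame.mem {W : Submodule K F} {n : ℕ} {b : Fin n → F} (hb : IsFrame W b) (i : Fin n) :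
    b i ∈ W :=
  hb.span_eq ▸ Submodule.subset_span ⟨i, rfl⟩

omit [IsFF K F] in
theorem IsFrame.exists_coeff {W : Submodule K F} {n : ℕ} {b : Fin n → F} (hb : IsFrame W b)
    {f : F} (hf : f ∈ W) : ∃ a : Fin n → K, ∑ i, a i • b i = f := by
  rw [← hb.span_eq] at hf
  exact Submodule.mem_span_range_iff_exists_fun K |>.1 hf

theorem det_mul_eq_sum {n : ℕ} {ι : Type*} [Fintype ι] (C : Matrix (Fin n) ι K)
    (R : Matrix ι (Fin n) K) :
    (C * R).det = ∑ J : Fin n → ι, (C.submatrix id J).det * ∏ k, R (J k) k := by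
  simp only [Matrix.det_apply', Finset.sum_mul, Matrix.submatrix_apply, id, Matrix.mul_apply]
  rw [Finset.sum_comm]
  refine Finset.sum_congr rfl fun σ _ => ?_
  simp only [mul_assoc, ← Finset.prod_mul_distrib, ← Finset.mul_sum, Fintype.prod_sum]

/-- Independent rows have a nonzero maximal minor. -/
theorem exists_det_ne_zero {n : ℕ} {ι : Type*} [Fintype ι] (C : Matrix (Fin n) ι K)
    (h : LinearIndependent K fun i => C i) : ∃ J : Fin n → ι, (C.submatrix id J).det ≠ 0 := by
  classical
  have hs : Function.Surjective C.mulVec := by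
    intro y
    have hker : LinearMap.ker (Matrix.vecMulLinear C) = ⊥ :=
      LinearMap.ker_eq_bot.2 (Matrix.vecMul_injective_iff.2 h)
    have hr : C.rank = n := by
      rw [← Matrix.rank_transpose, Matrix.rank, Matrix.mulVecLin_transpose,
        LinearMap.finrank_range_of_inj (LinearMap.ker_eq_bot.1 hker)]
      simp
    have : LinearMap.range C.mulVecLin = ⊤ :=
      Submodule.eq_top_of_finrank_eq (by rw [← Matrix.rank, hr]; simp)
    obtain ⟨x, hx⟩ := (this ▸ Submodule.mem_top : y ∈ LinearMap.range C.mulVecLin)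
    exact ⟨x, hx⟩
  choose r hr using fun k : Fin n => hs (Pi.single k 1)
  by_contra hno
  push Not at hno
  have h1 : C * Matrix.of (fun j k => r k j) = 1 := by
    ext i k
    rw [Matrix.one_apply]
    have := congrFun (hr k) i
    simp only [Matrix.mulVec, dotProduct, Pi.single_apply] at this
    simpa [Matrix.mul_apply] using this
  have h2 := det_mul_eq_sum C (Matrix.of fun j k => r k j)
  rw [h1, Matrix.det_one, Finset.sum_eq_zero fun J _ => by rw [hno J, zero_mul]] at h2
  exact one_ne_zero h2

theorem coord_sum_comb {m : ℕ} {ι : Type*} [Fintype ι] (a : ι → K) {b : ι → F}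
    (hb : ∀ i, b i ∈ LS O m) :
    coord O m (∑ i, a i • b i) = ∑ i, a i • coord O m (b i) := by
  rw [← coord_sum_smul (∑ i, a i • coord O m (b i))]
  congr 1
  simp only [Finset.sum_apply, Pi.smul_apply, Finset.sum_smul, smul_eq_mul, ← smul_smul]
  rw [Finset.sum_comm]
  exact Finset.sum_congr rfl fun i _ => by rw [← Finset.smul_sum, sum_coord (hb i)]

theorem linearIndependent_coord {m n : ℕ} {b : Fin n → F} (hb : ∀ i, b i ∈ LS O m)
    (hli : LinearIndependent K b) : LinearIndependent K fun i => coord O m (b i) := by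
  rw [Fintype.linearIndependent_iff] at hli ⊢
  intro a ha i
  refine hli a ?_ i
  have hmem : ∑ i, a i • b i ∈ LS O m :=
    Submodule.sum_mem _ fun i _ => Submodule.smul_mem _ _ (hb i)
  refine coord_injOn hmem (zero_mem _) ?_
  rw [coord_zero, coord_sum_comb a hb]
  exact ha

theorem detT_ne_zero {m n : ℕ} {b : Fin n → F} (hb : ∀ i, b i ∈ LS O m)
    (hli : LinearIndependent K b) : detT O m b ≠ 0 := by
  obtain ⟨J, hJ⟩ := exists_det_ne_zero _ (linearIndependent_coord hb hli)
  exact Function.ne_iff.2 ⟨J, hJ⟩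

theorem detT_change {m n : ℕ} {W : Submodule K F} (hW : W ≤ LS O m) {b b' : Fin n → F}
    (hb : IsFrame W b) (hb' : IsFrame W b') : ∃ a : K, a ≠ 0 ∧ detT O m b' = a • detT O m b := by
  choose T hT using fun i => hb.exists_coeff (hb'.mem i)
  have hC : ∀ J : Fin n → Fin (lsDim O m),
      Matrix.of (fun i k => coord O m (b' i) (J k)) =
        Matrix.of T * Matrix.of (fun i k => coord O m (b i) (J k)) := by
    intro J
    ext i k
    rw [Matrix.mul_apply, Matrix.of_apply, ← hT i]
    rw [coord_sum_comb (T i) fun l => hW (hb.mem l)]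
    simp
  have e : detT O m b' = (Matrix.of T).det • detT O m b :=
    funext fun J => by rw [detT, hC, Matrix.det_mul]; rfl
  exact ⟨_, fun h0 => detT_ne_zero (fun i => hW (hb'.mem i)) hb'.li (by rw [e, h0, zero_smul]), e⟩

variable (O) in
/-- The Plücker array of `L(m O - D)` for an effective divisor `D`. -/
def plk (m n : ℕ) (D : Divisor K F) : (Fin n → Fin (lsDim O m)) → K :=
  open Classical in
  if h : ∃ b : Fin n → F, IsFrame (WS O m D) b then detT O m h.choose else 0

theorem plk_eq {m n : ℕ} {D : Divisor K F} (hD : 0 ≤ D) {b : Fin n → F}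
    (hb : IsFrame (WS O m D) b) : ∃ a : K, a ≠ 0 ∧ plk O m n D = a • detT O m b := by
  have h : ∃ b : Fin n → F, IsFrame (WS O m D) b := ⟨b, hb⟩
  rw [plk, dif_pos h]
  exact detT_change (WS_le_LS hD) hb h.choose_spec

/-- The Plücker array of a Riemann–Roch space with a basis is nonzero. -/
theorem plk_ne_zero {m n : ℕ} {D : Divisor K F} (hD : 0 ≤ D) {b : Fin n → F}
    (hb : IsFrame (WS O m D) b) : plk O m n D ≠ 0 := by
  obtain ⟨a, ha, e⟩ := plk_eq hD hb
  rw [e]
  exact smul_ne_zero ha (detT_ne_zero (fun i => WS_le_LS hD (hb.mem i)) hb.li)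

/-- Contraction of an array with a covector in the first slot. -/
def ctr {ι : Type*} [Fintype ι] {n : ℕ} (ψ : ι → K) :
    ((Fin (n + 1) → ι) → K) →ₗ[K] ((Fin n → ι) → K) where
  toFun x := fun J => ∑ j, ψ j * x (Fin.cons j J)
  map_add' x y := funext fun J => by simp [mul_add, Finset.sum_add_distrib]
  map_smul' a x := funext fun J => by simp [Finset.mul_sum, mul_left_comm]

theorem ctr_detT {m n : ℕ} (ψ : Fin (lsDim O m) → K) (b : Fin (n + 1) → F)
    (J : Fin n → Fin (lsDim O m)) :
    ctr ψ (detT O m b) J = ∑ i : Fin (n + 1), (-1) ^ (i : ℕ) * (∑ j, ψ j * coord O m (b i) j) *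
      Matrix.det (Matrix.of fun l k => coord O m (b (i.succAbove l)) (J k)) := by
  show ∑ j, ψ j * detT O m b (Fin.cons j J) = _
  simp only [detT, Matrix.det_succ_column_zero, Finset.mul_sum, Finset.sum_mul]
  rw [Finset.sum_comm]
  refine Finset.sum_congr rfl fun i _ => Finset.sum_congr rfl fun j _ => ?_
  have e : ((Matrix.of fun i k => coord O m (b i) (Fin.cons (α := fun _ => Fin (lsDim O m)) j J k)
      ).submatrix i.succAbove Fin.succ) =
      Matrix.of fun l k => coord O m (b (i.succAbove l)) (J k) := by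
    ext l k
    simp
  rw [e]
  simp only [Matrix.of_apply, Fin.cons_zero]
  ring

section Contract

variable [IsAlgClosed K]

include hc in
/-- Contraction at a point is the Plücker array of the larger divisor. -/
theorem ctr_plk {m n d : ℕ} {D : Divisor K F} (hD : 0 ≤ D) (hd : Divisor.degree D = d)
    (hm : c + d + 1 ≤ m) (hn : n = rrn K F m (d + 1)) {P : Place K F} (hP : D P = 0) (hPO : P ≠ O) :
    ∃ a : K, a ≠ 0 ∧
      ctr (psi O m P) (plk O m (n + 1) D) = a • plk O m n (D + Finsupp.single P 1) := by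
  classical
  set D' := D + Finsupp.single P 1
  have hD' : 0 ≤ D' := add_nonneg hD (fun v => by
    rw [Finsupp.single_apply]; split_ifs <;> simp)
  have hd' : Divisor.degree D' = (d + 1 : ℕ) := by
    simp [D', hd, deg_eq_one]
  obtain ⟨b', hb'⟩ :=
    exists_isFrame (O := O) hc hd' (show c + ((d + 1 : ℕ) : ℤ) ≤ m by push_cast; omega)
  subst hn
  have hW : WS O m D' = WS O m D ⊓ WS O m D' :=
    (inf_eq_right.2 (riemannRochSpace_le_of_le (sub_le_sub_left
      (le_add_of_nonneg_right fun v => by rw [Finsupp.single_apply]; split_ifs <;> simp) _))).symm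
  have hrk := (finrank_WS (O := O) (m := m) (d := d + 1) hc hd' (by push_cast; omega)).1
  have hrk0 := (finrank_WS (O := O) (m := m) hc hd (by omega)).1
  have hlt : WS O m D' < WS O m D := by
    refine lt_of_le_of_ne (hW ▸ inf_le_left) fun e => ?_
    rw [e, hrk0] at hrk
    push_cast at hrk
    omega
  obtain ⟨f, hf, hf'⟩ := SetLike.exists_of_lt hlt
  have hreg : ∀ {g : F}, g ∈ WS O m D → OrdGE P 0 g := fun hg => ordGE_of_mem (WS_le_LS hD hg) hPO
  have hmem : ∀ {g : F}, g ∈ WS O m D → pval P g = 0 → g ∈ WS O m D' := by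
    intro g hg h0
    have h1 := (pval_eq_zero_iff (hreg hg)).1 h0
    rw [mem_riemannRochSpace] at hg ⊢
    intro v
    by_cases hv : v = P
    · subst hv
      simpa [D', hP, Finsupp.single_eq_of_ne hPO] using h1
    · simpa [D', Finsupp.single_eq_of_ne hv] using hg v
  have hfP : pval P f ≠ 0 := fun h0 => hf' (hmem hf h0)
  set f₁ := (pval P f)⁻¹ • f
  have hf₁ : f₁ ∈ WS O m D := Submodule.smul_mem _ _ hf
  have hf₁P : pval P f₁ = 1 := by rw [pval_smul _ (hreg hf), inv_mul_cancel₀ hfP]
  set b : Fin (rrn K F m (d + 1) + 1) → F := Fin.cons f₁ b'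
  have hbmem : ∀ i, b i ∈ WS O m D :=
    Fin.cases hf₁ fun i => by simpa [b] using hlt.le (hb'.mem i)
  have hbli : LinearIndependent K b := by
    refine linearIndependent_finCons.2 ⟨hb'.li, ?_⟩
    rw [hb'.span_eq]
    exact fun h => hf' (by simpa [f₁, hfP] using Submodule.smul_mem _ (pval P f) h)
  have hb : IsFrame (WS O m D) b := by
    refine ⟨hbli, Submodule.eq_of_le_of_finrank_le
      (Submodule.span_le.2 (Set.range_subset_iff.2 hbmem)) ?_⟩
    rw [finrank_span_eq_card hbli, Fintype.card_fin,
      ← (finrank_WS (O := O) (m := m) (d := d + 1) hc hd'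
      (by push_cast; omega)).2]
    push_cast at hrk
    omega
  obtain ⟨a, ha, e⟩ := plk_eq hD hb
  obtain ⟨a', ha', e'⟩ := plk_eq hD' hb'
  refine ⟨a / a', div_ne_zero ha ha', ?_⟩
  rw [e, e', map_smul, smul_smul, div_mul_cancel₀ _ ha']
  congr 1
  funext J
  have hval : ∀ i, ∑ j, psi O m P j * coord O m (b i) j = pval P (b i) := fun i => by
    rw [pval_eq_sum (WS_le_LS hD (hbmem i)) hPO]
    exact Finset.sum_congr rfl fun j _ => mul_comm _ _
  rw [ctr_detT, Fin.sum_univ_succ, hval, Finset.sum_eq_zero fun i _ => ?_]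
  · simp [b, hf₁P, detT]
  · rw [hval]
    have : pval P (b i.succ) = 0 := by
      refine (pval_eq_zero_iff (hreg (hbmem _))).2 ?_
      have h := mem_riemannRochSpace.1 (hb'.mem i) P
      simpa [b, D', hP, Finsupp.single_eq_of_ne hPO] using h
    rw [this]
    ring

/-- Multiplying a frame by a function. -/
theorem mulT_powT_detT {m m' n : ℕ} {u : F} (hu : u ∈ LS O m) {b : Fin n → F}
    (hb : ∀ i, b i ∈ LS O m') :
    mulT O m m' n (powT O m n u) (detT O m' b) = detT O (m + m') fun i => u * b i := by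
  refine ext_evalT ∅ fun P hP => ?_
  rw [evalT_mulT _ _ fun k => (hP k).2, evalT_powT hu fun k => (hP k).2,
    evalT_detT hb fun k => (hP k).2, evalT_detT (fun i => mul_mem_LS hu (hb i)) fun k => (hP k).2,
    ← Matrix.det_mul_row]
  congr 1
  ext i k
  simp only [Matrix.of_apply]
  rw [pval_mul (ordGE_of_mem hu (hP k).2) (ordGE_of_mem (hb i) (hP k).2)]

end Contract

/-- The element of `L(m O)` obtained by fixing all but the first slot. -/
def slice {m n : ℕ} (x : (Fin (n + 1) → Fin (lsDim O m)) → K) (S : Fin n → Fin (lsDim O m)) : F :=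
  ∑ j, x (Fin.cons j S) • phi O m j

theorem slice_mem_LS {m n : ℕ} (x : (Fin (n + 1) → Fin (lsDim O m)) → K)
    (S : Fin n → Fin (lsDim O m)) : slice x S ∈ LS O m :=
  sum_smul_phi_mem _

theorem slice_plk_mem {m n : ℕ} {D : Divisor K F} (hD : 0 ≤ D) {b : Fin (n + 1) → F}
    (hb : IsFrame (WS O m D) b) (S : Fin n → Fin (lsDim O m)) :
    slice (plk O m (n + 1) D) S ∈ WS O m D := by
  obtain ⟨a, -, e⟩ := plk_eq hD hb
  have h : slice (plk O m (n + 1) D) S = a • ∑ i : Fin (n + 1), ((-1) ^ (i : ℕ) *
      Matrix.det (Matrix.of fun l k => coord O m (b (i.succAbove l)) (S k))) • b i := by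
    conv_rhs => enter [2, 2, i]; rw [← sum_coord (WS_le_LS hD (hb.mem i))]
    simp only [slice, e, Finset.smul_sum, smul_smul]
    rw [Finset.sum_comm]
    refine Finset.sum_congr rfl fun j _ => ?_
    rw [← Finset.sum_smul, Pi.smul_apply, smul_eq_mul]
    congr 1
    rw [detT, Matrix.det_succ_column_zero, Finset.mul_sum]
    refine Finset.sum_congr rfl fun i _ => ?_
    have e2 : ((Matrix.of fun i k =>
          coord O m (b i) (Fin.cons (α := fun _ => Fin (lsDim O m)) j S k)
        ).submatrix i.succAbove Fin.succ) =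
        Matrix.of fun l k => coord O m (b (i.succAbove l)) (S k) := by
      ext l k
      simp
    rw [e2]
    simp only [Matrix.of_apply, Fin.cons_zero]
    ring
  rw [h]
  exact Submodule.smul_mem _ _ (Submodule.sum_mem _ fun i _ => Submodule.smul_mem _ _ (hb.mem i))

/-- Plücker arrays are alternating. -/
theorem plk_alt {m n : ℕ} (D : Divisor K F) (J : Fin n → Fin (lsDim O m)) (σ : Equiv.Perm (Fin n)) :
    plk O m n D (J ∘ σ) = (Equiv.Perm.sign σ : ℤ) * plk O m n D J := by
  unfold plk
  split_ifs with h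
  · exact Matrix.det_permute' σ (Matrix.of fun i k => coord O m (h.choose i) (J k))
  · simp

end FermatAgent.MW
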