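import Fermat.Agent.MW.Delta
import Fermat.Agent.MW.Position

/-!
# The quadratic function on reduced effective divisors

`hQ s = 2 (hgt m s - hgt m ∅) - 2 n Λ s`, `n = dim L(m O - s)`, depends on the class of `s` only,
and `hQ (s ∪ t) - hQ s - hQ t` is additive in `t`, up to bounded errors.
-/

set_option autoImplicit false

noncomputable section

open AlgebraicCurve Module FermatAgent.Curve FermatAgent.Curve.Jac
open FermatAgent.GaloisBasic (Qbar)

namespace FermatAgent.MW

variable {F : Type*} [Field F] [Algebra Qbar F] [IsFF Qbar F] (O : Place Qbar F)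

/-- The height of the array of a finite set of places. -/
def hs (m : ℕ) (s : Finset (Place Qbar F)) : ℝ := hgt O m (setDiv s)

/-- The linear part. -/
def lam (m : ℕ) (s : Finset (Place Qbar F)) : ℝ :=
  (hs O (m + 1) s - hs O m s) - (hs O (m + 1) ∅ - hs O m ∅)

/-- The quadratic function. -/
def hQ (m : ℕ) (s : Finset (Place Qbar F)) : ℝ :=
  2 * (hs O m s - hs O m ∅) -
    2 * ((m : ℝ) - s.card + 1 - (rGenus Qbar F : ℝ)) * lam O m s

/-- The bilinear form. -/
def bQ [DecidableEq (Place Qbar F)] (m : ℕ) (s t : Finset (Place Qbar F)) : ℝ :=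
  hQ O m (s ∪ t) - hQ O m s - hQ O m t

variable {O} [DecidableEq (Place Qbar F)]

/-- Bounded increments of `lam` make it additive up to a multiple of the bound. -/
theorem abs_lam_union_le {m R : ℕ} {C : ℝ}
    (hC : ∀ (s : Finset (Place Qbar F)) (P : Place Qbar F), s.card ≤ R → P ∉ s → P ≠ O →
      |lam O m (insert P s) - lam O m s - lam O m {P}| ≤ C) :
    ∀ (u s : Finset (Place Qbar F)), s.card + u.card ≤ R → Disjoint s u → O ∉ u →
      |lam O m (s ∪ u) - lam O m s - lam O m u| ≤ 2 * C * u.card := by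
  intro u
  induction u using Finset.induction_on with
  | empty =>
    intro s _ _ _
    simp [lam]
  | insert P u hPu ih =>
    intro s hcard hdis hO
    rw [Finset.card_insert_of_notMem hPu] at hcard ⊢
    rw [Finset.disjoint_insert_right] at hdis
    rw [Finset.mem_insert, not_or] at hO
    have hsu : (s ∪ u).card ≤ R := (Finset.card_union_le s u).trans (by omega)
    have h1 := abs_le.1 (ih s (by omega) hdis.2 hO.2)
    have h2 := abs_le.1 (hC (s ∪ u) P hsu (by simp [hdis.1, hPu]) (Ne.symm hO.1))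
    have h3 := abs_le.1 (hC u P (by omega) hPu (Ne.symm hO.1))
    rw [Finset.union_insert, abs_le]
    push_cast
    constructor <;> nlinarith

variable {c : ℤ} (hc : Flat.IsThreshold Qbar F c)
include hc

theorem exists_delta_sets {A B R : ℕ} (hA : c + R + 2 + rGenus Qbar F ≤ A)
    (hB : c + A + R + 2 ≤ B) :
    ∃ C, ∀ (s t : Finset (Place Qbar F)) (P : Place Qbar F), s.card ≤ R → t.card ≤ R →
      Disjoint s t → P ∉ s ∪ t → P ≠ O →
        |(hs O (A + B) (insert P (s ∪ t)) - hs O (A + B) (s ∪ t)) -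
          (hs O A (insert P s) - hs O A s) - (hs O B (insert P t) - hs O B t)| ≤ C := by
  have key : ∀ d e : ℕ, ∃ C, ∀ (D E : Divisor Qbar F) (P : Place Qbar F), d ≤ R → e ≤ R →
      0 ≤ D → 0 ≤ E → Divisor.degree D = d → Divisor.degree E = e → P ≠ O → D P = 0 → E P = 0 →
        |(hgt O (A + B) (D + E + Finsupp.single P 1) - hgt O (A + B) (D + E)) -
          (hgt O A (D + Finsupp.single P 1) - hgt O A D) -
          (hgt O B (E + Finsupp.single P 1) - hgt O B E)| ≤ C := by
    intro d e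
    by_cases h : d ≤ R ∧ e ≤ R
    · obtain ⟨C, hC⟩ := exists_delta (O := O) hc (a := A) (b := B) (d := d) (e := e)
        (by omega) (by omega)
      exact ⟨C, fun D E P _ _ => hC D E P⟩
    · exact ⟨0, fun D E P hd he => absurd ⟨hd, he⟩ h⟩
  choose C hC using key
  refine ⟨∑ p ∈ Finset.range (R + 1) ×ˢ Finset.range (R + 1), |C p.1 p.2|,
    fun s t P hs' ht' hst hP hPO => ?_⟩
  rw [Finset.mem_union, not_or] at hP
  refine le_trans ?_ (le_trans (le_abs_self (C s.card t.card))
    (Finset.single_le_sum (f := fun p : ℕ × ℕ => |C p.1 p.2|) (fun p _ => abs_nonneg _)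
      (a := (s.card, t.card)) (by simp; omega)))
  have h := hC s.card t.card (setDiv s) (setDiv t) P hs' ht' (setDiv_nonneg s) (setDiv_nonneg t)
    (degree_setDiv s) (degree_setDiv t) hPO (by rw [setDiv_apply, if_neg hP.1])
    (by rw [setDiv_apply, if_neg hP.2])
  rw [hs, hs, hs, hs, hs, hs, setDiv_insert (by simp [hP]), setDiv_insert hP.1, setDiv_insert hP.2,
    setDiv_union hst]
  simp only [add_comm (Finsupp.single P (1 : ℤ))]
  exact h

/-- Bounds for the second differences of `hs` and the increments of `lam`. -/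
theorem exists_step_bounds {A B R : ℕ} (hA : c + R + 2 + rGenus Qbar F ≤ A)
    (hB : c + A + R + 2 ≤ B) :
    ∃ C, 0 ≤ C ∧ ∀ (s t : Finset (Place Qbar F)) (P : Place Qbar F), s.card ≤ R → t.card ≤ R →
      Disjoint s t → P ∉ s ∪ t → P ≠ O →
        |(hs O (A + B) (insert P (s ∪ t)) - hs O (A + B) (s ∪ t)) -
          (hs O (A + B) (insert P s) - hs O (A + B) s) -
          (hs O (A + B) (insert P t) - hs O (A + B) t) +
          (hs O (A + B) {P} - hs O (A + B) ∅)| ≤ C ∧
        |lam O (A + B) (insert P s) - lam O (A + B) s - lam O (A + B) {P}| ≤ C := by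
  obtain ⟨C, hC⟩ := exists_delta_sets (O := O) hc hA hB
  obtain ⟨C', hC'⟩ := exists_delta_sets (O := O) hc (A := A) (B := B + 1) (R := R) hA
    (by push_cast; omega)
  refine ⟨4 * |C| + 4 * |C'|, by positivity, fun s t P hs' ht' hst hP hPO => ?_⟩
  rw [Finset.mem_union, not_or] at hP
  have h1 := abs_le.1 (hC s t P hs' ht' hst (by simp [hP]) hPO)
  have h2 := abs_le.1 (hC s ∅ P hs' (by simp) (by simp) (by simp [hP.1]) hPO)
  have h3 := abs_le.1 (hC ∅ t P (by simp) ht' (by simp) (by simp [hP.2]) hPO)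
  have h4 := abs_le.1 (hC ∅ ∅ P (by simp) (by simp) (by simp) (by simp) hPO)
  have h5 := abs_le.1 (hC' s ∅ P hs' (by simp) (by simp) (by simp [hP.1]) hPO)
  have h6 := abs_le.1 (hC' ∅ ∅ P (by simp) (by simp) (by simp) (by simp) hPO)
  simp only [Finset.union_empty, Finset.empty_union, insert_empty_eq] at h2 h3 h4 h5 h6
  rw [show A + (B + 1) = A + B + 1 by ring] at h5 h6
  have := le_abs_self C
  have := le_abs_self C'
  have := abs_nonneg C
  have := abs_nonneg C'
  constructor
  · rw [abs_le]; constructor <;> linarith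
  · rw [lam, lam, lam, abs_le]; constructor <;> linarith

/-- **The bilinear form is additive**, up to a constant. -/
theorem exists_bQ_add {A B R : ℕ} (hA : c + R + 2 + rGenus Qbar F ≤ A)
    (hB : c + A + R + 2 ≤ B) :
    ∃ C, ∀ s t u : Finset (Place Qbar F), s.card + t.card + u.card ≤ R →
      Disjoint s t → Disjoint s u → Disjoint t u → O ∉ t → O ∉ u →
        |bQ O (A + B) s (t ∪ u) - bQ O (A + B) s t - bQ O (A + B) s u| ≤ C := by
  obtain ⟨C, hC0, hC⟩ := exists_step_bounds (O := O) hc hA hB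
  set m := A + B
  have hlam := abs_lam_union_le (O := O) (m := m) fun s P hs hP hPO =>
    (hC s ∅ P hs (by simp) (by simp) (by simp [hP]) hPO).2
  -- additivity of the second difference
  have hbil : ∀ (u t s : Finset (Place Qbar F)), s.card + t.card + u.card ≤ R → Disjoint s t →
      Disjoint s u → Disjoint t u → O ∉ u →
      |(hs O m (s ∪ (t ∪ u)) - hs O m s - hs O m (t ∪ u) + hs O m ∅) -
        (hs O m (s ∪ t) - hs O m s - hs O m t + hs O m ∅) -
        (hs O m (s ∪ u) - hs O m s - hs O m u + hs O m ∅)| ≤ 2 * C * u.card := by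
    intro u
    induction u using Finset.induction_on with
    | empty =>
      intro t s _ _ _ _ _
      simp
    | insert P u hPu ih =>
      intro t s hcard hst hsu htu hO
      rw [Finset.card_insert_of_notMem hPu] at hcard ⊢
      rw [Finset.disjoint_insert_right] at hsu htu
      rw [Finset.mem_insert, not_or] at hO
      have h1 := abs_le.1 (ih t s (by omega) hst hsu.2 htu.2 hO.2)
      have hcu : (t ∪ u).card ≤ R := (Finset.card_union_le t u).trans (by omega)
      have h2 := abs_le.1 (hC s (t ∪ u) P (by omega) hcu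
        (Finset.disjoint_union_right.2 ⟨hst, hsu.2⟩)
        (by simp [hsu.1, htu.1, hPu]) (Ne.symm hO.1)).1
      have h3 := abs_le.1 (hC s u P (by omega) (by omega) hsu.2
        (by simp [hsu.1, hPu]) (Ne.symm hO.1)).1
      simp only [Finset.union_insert]
      rw [abs_le]
      push_cast
      constructor <;> nlinarith
  set g := (rGenus Qbar F : ℝ)
  refine ⟨4 * C * R + 16 * (C * R) * ((m : ℝ) + |1 - g| + R),
    fun s t u hcard hst hsu htu hOt hOu => ?_⟩
  have hdisj : Disjoint s (t ∪ u) := Finset.disjoint_union_right.2 ⟨hst, hsu⟩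
  have hB' := hbil u t s hcard hst hsu htu hOu
  have htuc : (t ∪ u).card = t.card + u.card := Finset.card_union_of_disjoint htu
  have hl1 := hlam u t (by omega) htu hOu
  have hl2 := hlam (t ∪ u) s (by omega) hdisj (by simp [hOt, hOu])
  have hl3 := hlam t s (by omega) hst hOt
  have hl4 := hlam u s (by omega) hsu hOu
  rw [htuc] at hl2
  have hR : ∀ k : ℕ, k ≤ R → 2 * C * k ≤ 2 * (C * R) := fun k hk => by
    have : (k : ℝ) ≤ R := Nat.cast_le.2 hk
    nlinarith
  have hn : ∀ k : ℕ, k ≤ R → |(m : ℝ) - k + 1 - g| ≤ (m : ℝ) + |1 - g| + R := fun k hk => by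
    have : (k : ℝ) ≤ R := Nat.cast_le.2 hk
    have := abs_le.1 (le_refl |1 - g|)
    rw [abs_le]
    constructor <;>
      linarith [(Nat.cast_nonneg k : (0:ℝ) ≤ k), (Nat.cast_nonneg m : (0:ℝ) ≤ m)]
  have hmul : ∀ {e x : ℝ} {k : ℕ}, k ≤ R → |e| ≤ x → x ≤ 2 * (C * R) →
      |((m : ℝ) - k + 1 - g) * e| ≤ 2 * (C * R) * ((m : ℝ) + |1 - g| + R) := fun hk he hx => by
    rw [abs_mul, mul_comm]
    exact mul_le_mul (he.trans hx) (hn _ hk) (abs_nonneg _) (by positivity)
  have e2 := abs_le.1 (hmul (k := s.card + (t.card + u.card)) (by omega) hl2 (hR _ (by omega)))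
  have e3 := abs_le.1 (hmul (k := s.card + t.card) (by omega) hl3 (hR _ (by omega)))
  have e4 := abs_le.1 (hmul (k := s.card + u.card) (by omega) hl4 (hR _ (by omega)))
  have hl1' : |(s.card : ℝ) * (lam O m (t ∪ u) - lam O m t - lam O m u)| ≤
      2 * (C * R) * ((m : ℝ) + |1 - g| + R) := by
    rw [abs_mul, Nat.abs_cast, mul_comm]
    refine mul_le_mul (hl1.trans (hR _ (by omega))) ?_ (Nat.cast_nonneg _) (by positivity)
    have : (s.card : ℝ) ≤ R := Nat.cast_le.2 (by omega)
    linarith [abs_nonneg (1 - g), (Nat.cast_nonneg m : (0:ℝ) ≤ m)]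
  have e1 := abs_le.1 hl1'
  have hu' : 2 * C * (u.card : ℝ) ≤ 2 * (C * R) := hR _ (by omega)
  rw [abs_le] at hB'
  simp only [bQ, hQ, htuc, Finset.card_union_of_disjoint hdisj, Finset.card_union_of_disjoint hst,
    Finset.card_union_of_disjoint hsu]
  push_cast at e2 e3 e4 ⊢
  rw [abs_le]
  constructor <;> linarith

omit [DecidableEq (Place Qbar F)]

theorem exists_shift (m₀ m d : ℕ) (hm : c + d ≤ m) :
    ∃ C, ∀ (D D' : Divisor Qbar F) (u w : F), 0 ≤ D → 0 ≤ D' → Divisor.degree D = d →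
      Divisor.degree D' = d → u ∈ LS O m₀ → w ∈ LS O m₀ → u ≠ 0 → w ≠ 0 →
      divisorOf w + D = divisorOf u + D' →
      |(hgt O m D - hgt O m D') -
        (rrn Qbar F m d : ℝ) * (habs (coord O m₀ u) - habs (coord O m₀ w))| ≤ C := by
  set n := rrn Qbar F m d
  obtain ⟨C, hC⟩ := exists_habs_bilinear_eq (mulT O m₀ m n) fun x y => mulT_eq_zero
  refine ⟨2 * C, fun D D' u w hD hD' hd hd' hu hw hu0 hw0 hdiv => ?_⟩
  obtain ⟨b, hb⟩ := exists_isFrame (O := O) (m := m) hc hd hm
  have hf0 : w / u ≠ 0 := div_ne_zero hw0 hu0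
  have hord : ∀ v : Place Qbar F, v.ord (w / u) = D' v - D v := fun v => by
    have := DFunLike.congr_fun hdiv v
    simp only [Finsupp.add_apply, divisorOf_apply] at this
    rw [ord_div hw0 hu0]; omega
  set b' : Fin n → F := fun i => w / u * b i
  have hb'mem : ∀ i, b' i ∈ WS O m D' := by
    intro i
    have h := mem_riemannRochSpace.1 (hb.mem i)
    rw [mem_riemannRochSpace]
    intro v
    refine ((ordGE_self (v := v) (w / u)).mul (h v)).mono ?_
    simp only [Finsupp.sub_apply, hord]; omega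
  have hb'li : LinearIndependent Qbar b' :=
    hb.li.map' (LinearMap.mulLeft Qbar (w / u)) (LinearMap.ker_eq_bot.2 (mul_right_injective₀ hf0))
  have hb' : IsFrame (WS O m D') b' := by
    refine ⟨hb'li, Submodule.eq_of_le_of_finrank_le
      (Submodule.span_le.2 (Set.range_subset_iff.2 hb'mem)) ?_⟩
    rw [finrank_span_eq_card hb'li, Fintype.card_fin, (finrank_WS (O := O) hc hd' hm).2]
  have e : mulT O m₀ m n (powT O m₀ n w) (detT O m b) =
      mulT O m₀ m n (powT O m₀ n u) (detT O m b') := by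
    rw [mulT_powT_detT hw fun i => WS_le_LS hD (hb.mem i),
      mulT_powT_detT hu fun i => WS_le_LS hD' (hb'mem i)]
    congr 1
    funext i
    simp only [b']
    field_simp
  have hpow : ∀ {z : F}, z ∈ LS O m₀ → z ≠ 0 →
      habs (powT O m₀ n z) = n * habs (coord O m₀ z) := fun hz hz0 => by
    show habs (fun J : Fin n → Fin (lsDim O m₀) => ∏ k, coord O m₀ _ (J k)) = _
    rw [habs_piProd fun _ => coord_ne_zero hz hz0]
    simp
  have hhgt : ∀ {D : Divisor Qbar F} {b : Fin n → F}, 0 ≤ D → Divisor.degree D = d →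
      IsFrame (WS O m D) b → hgt O m D = habs (detT O m b) := fun hD hd hb => by
    obtain ⟨a, ha, e⟩ := plk_eq hD hb
    rw [hgt_eq hd rfl, e, habs_smul ha]
  have h1 := abs_le.1 (hC _ _ (powT_ne_zero (n := n) hw hw0)
    (detT_ne_zero (fun i => WS_le_LS hD (hb.mem i)) hb.li))
  have h2 := abs_le.1 (hC _ _ (powT_ne_zero (n := n) hu hu0)
    (detT_ne_zero (fun i => WS_le_LS hD' (hb'mem i)) hb'li))
  rw [hpow hw hw0, e] at h1
  rw [hpow hu hu0] at h2
  rw [hhgt hD hd hb, hhgt hD' hd' hb', abs_le]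
  constructor <;> nlinarith

/-- The changes of `hs` and `lam` under a principal divisor. -/
theorem exists_lam_shift (m₀ m d : ℕ) (hm : c + d ≤ m) :
    ∃ C, ∀ (s t : Finset (Place Qbar F)) (u w : F), s.card = d → t.card = d →
      u ∈ LS O m₀ → w ∈ LS O m₀ → u ≠ 0 → w ≠ 0 → divisorOf w + setDiv s = divisorOf u + setDiv t →
      |(lam O m s - lam O m t) - (habs (coord O m₀ u) - habs (coord O m₀ w))| ≤ C ∧
      |hQ O m s - hQ O m t| ≤ C := by
  obtain ⟨C, hC⟩ := exists_shift (O := O) hc m₀ m d hm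
  obtain ⟨C', hC'⟩ := exists_shift (O := O) hc m₀ (m + 1) d (by push_cast; omega)
  have e1 := rrn_eq hc (m := m) (d := d) hm O
  have e2 := rrn_eq hc (m := m + 1) (d := d) (by push_cast; omega) O
  refine ⟨|C| + |C'| + 2 * |C| + 2 * (rrn Qbar F m d : ℝ) * (|C| + |C'|),
    fun s t u w hs' ht' hu hw hu0 hw0 hdiv => ?_⟩
  have h1 := abs_le.1 (hC (setDiv s) (setDiv t) u w (setDiv_nonneg s) (setDiv_nonneg t)
    (by rw [degree_setDiv, hs']) (by rw [degree_setDiv, ht']) hu hw hu0 hw0 hdiv)
  have h2 := abs_le.1 (hC' (setDiv s) (setDiv t) u w (setDiv_nonneg s) (setDiv_nonneg t)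
    (by rw [degree_setDiv, hs']) (by rw [degree_setDiv, ht']) hu hw hu0 hw0 hdiv)
  have hn2 : (rrn Qbar F (m + 1) d : ℝ) = (rrn Qbar F m d : ℝ) + 1 := by
    have : rrn Qbar F (m + 1) d = rrn Qbar F m d + 1 := by push_cast at e2; omega
    exact_mod_cast this
  rw [hn2] at h2
  change -C ≤ (hs O m s - hs O m t) - _ ∧ (hs O m s - hs O m t) - _ ≤ C at h1
  change -C' ≤ (hs O (m + 1) s - hs O (m + 1) t) - _ ∧
    (hs O (m + 1) s - hs O (m + 1) t) - _ ≤ C' at h2
  have hl : |(lam O m s - lam O m t) - (habs (coord O m₀ u) - habs (coord O m₀ w))| ≤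
      |C| + |C'| := by
    simp only [lam]
    have := le_abs_self C; have := le_abs_self C'
    rw [abs_le]; constructor <;> linarith
  refine ⟨hl.trans
    (le_add_of_le_of_nonneg (le_add_of_nonneg_right (by positivity)) (by positivity)), ?_⟩
  have hn : (m : ℝ) - d + 1 - (rGenus Qbar F : ℝ) = (rrn Qbar F m d : ℝ) := by
    have := congrArg (fun z : ℤ => (z : ℝ)) e1
    push_cast at this
    linarith
  simp only [hQ, hs', ht', hn]
  have h3 : |(rrn Qbar F m d : ℝ) * ((lam O m s - lam O m t) -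
      (habs (coord O m₀ u) - habs (coord O m₀ w)))| ≤ (rrn Qbar F m d : ℝ) * (|C| + |C'|) := by
    rw [abs_mul, Nat.abs_cast]
    exact mul_le_mul_of_nonneg_left hl (Nat.cast_nonneg _)
  rw [abs_le] at h3 ⊢
  have := le_abs_self C
  have := abs_nonneg C'
  constructor <;> nlinarith

/-- **`hQ` depends only on the class**, up to a constant. -/
theorem exists_hQ_invariant {m d : ℕ} (hm : c + d ≤ m) :
    ∃ C, ∀ s t : Finset (Place Qbar F), s.card = d → t.card = d → cls O s = cls O t →
      |hQ O m s - hQ O m t| ≤ C := by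
  set m₀ := d + c.toNat + 1 + (rGenus Qbar F).toNat
  obtain ⟨C, hC⟩ := exists_lam_shift (O := O) hc m₀ m d hm
  refine ⟨C, fun s t hs' ht' he => ?_⟩
  obtain ⟨f, hf0, hf⟩ := Curve.isPrincipal_iff.1 ((cls_eq_iff (ht'.trans hs'.symm)).1 he.symm)
  have hdeg : Divisor.degree (setDiv s) = (d : ℤ) := by rw [degree_setDiv, hs']
  have hc0 := hc.1
  have h1 := (finrank_WS (O := O) (m := m₀) hc hdeg (by omega)).1
  obtain ⟨u, hu⟩ := Module.finrank_pos_iff_exists_ne_zero.1
    (show 0 < finrank Qbar (WS O m₀ (setDiv s)) by omega)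
  have hu0 : (u : F) ≠ 0 := fun h => hu (Subtype.ext h)
  have hw : (u : F) * f ∈ LS O m₀ := by
    have h := mem_riemannRochSpace.1 u.2
    refine mem_riemannRochSpace.2 fun v => ((h v).mul (ordGE_self f)).mono ?_
    have h2 := DFunLike.congr_fun hf v
    have h3 : 0 ≤ setDiv t v := setDiv_nonneg t v
    simp only [Finsupp.sub_apply, divisorOf_apply] at h2 ⊢
    omega
  refine (hC s t u _ hs' ht' (WS_le_LS (setDiv_nonneg s) u.2) hw hu0 (mul_ne_zero hu0 hf0) ?_).2
  rw [divisorOf_mul hu0 hf0, ← hf]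
  abel

end FermatAgent.MW
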