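import Fermat.Agent.Curve.Jac.Value
import Fermat.Agent.Flat.FixedPlaces
import Mathlib.LinearAlgebra.Matrix.Determinant.Basic

/-!
# Functions on tuples of points given by arrays of coefficients

`LS O m` is `L(m O)`; an array `c : (Fin n → Fin (lsDim O m)) → K` is the function
`P ↦ ∑ c J ∏ φ_{J k}(P k)` on `n`-tuples of points away from `O`.
-/

set_option autoImplicit false

noncomputable section

open AlgebraicCurve Module FermatAgent.Curve FermatAgent.Curve.Jac

namespace FermatAgent.MW

variable {K F : Type*} [Field K] [Field F] [Algebra K F] [IsFF K F]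
variable (O : Place K F)

/-- The functions with poles bounded by `m O`. -/
abbrev LS (m : ℕ) : Submodule K F := riemannRochSpace (Finsupp.single O (m : ℤ))

/-- Their dimension. -/
abbrev lsDim (m : ℕ) : ℕ := finrank K (LS O m)

/-- A fixed basis. -/
def bas (m : ℕ) : Basis (Fin (lsDim O m)) K (LS O m) := Module.finBasis K (LS O m)

/-- The basis functions. -/
def phi (m : ℕ) (i : Fin (lsDim O m)) : F := (bas O m i : F)

/-- Coordinates in the fixed basis. -/
def coord (m : ℕ) (f : F) : Fin (lsDim O m) → K :=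
  open Classical in if h : f ∈ LS O m then fun i => (bas O m).repr ⟨f, h⟩ i else 0

variable [IsAlgClosed K] in
/-- Values of the basis functions at a place. -/
def psi (m : ℕ) (P : Place K F) : Fin (lsDim O m) → K := fun i => pval P (phi O m i)

variable {O} {m m' : ℕ}

theorem phi_mem (i : Fin (lsDim O m)) : phi O m i ∈ LS O m := (bas O m i).2

theorem sum_coord {f : F} (h : f ∈ LS O m) : ∑ i, coord O m f i • phi O m i = f := by
  have h1 := congrArg Subtype.val ((bas O m).sum_repr ⟨f, h⟩)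
  simp only [Submodule.coe_sum, Submodule.coe_smul] at h1
  simp only [coord, dif_pos h, phi]
  exact h1

theorem sum_smul_phi_mem (c : Fin (lsDim O m) → K) : ∑ i, c i • phi O m i ∈ LS O m :=
  Submodule.sum_mem _ fun i _ => Submodule.smul_mem _ _ (phi_mem i)

theorem coord_sum_smul (c : Fin (lsDim O m) → K) :
    coord O m (∑ i, c i • phi O m i) = c := by
  have h : (⟨_, sum_smul_phi_mem c⟩ : LS O m) = ∑ i, c i • bas O m i :=
    Subtype.ext (by simp [phi])
  funext i
  rw [coord, dif_pos (sum_smul_phi_mem c), h, Basis.repr_sum_self]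

theorem coord_injOn {f f' : F} (h : f ∈ LS O m) (h' : f' ∈ LS O m)
    (e : coord O m f = coord O m f') : f = f' := by
  rw [← sum_coord h, ← sum_coord h', e]

theorem coord_zero : coord O m (0 : F) = 0 :=
  coord_sum_smul (0 : Fin (lsDim O m) → K) ▸ by simp

theorem coord_ne_zero {f : F} (h : f ∈ LS O m) (hf : f ≠ 0) : coord O m f ≠ 0 := fun e =>
  hf (coord_injOn h (zero_mem _) (e.trans coord_zero.symm))

omit [IsFF K F] in
theorem mul_mem_LS {f g : F} (hf : f ∈ LS O m) (hg : g ∈ LS O m') : f * g ∈ LS O (m + m') := by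
  have h := mul_mem_riemannRochSpace hf hg
  rwa [← Finsupp.single_add, ← Nat.cast_add] at h

omit [IsFF K F] in
theorem ordGE_of_mem {f : F} (hf : f ∈ LS O m) {P : Place K F} (hP : P ≠ O) : OrdGE P 0 f := by
  have h := mem_riemannRochSpace.1 hf P
  rwa [Finsupp.single_eq_of_ne hP, neg_zero] at h

variable [IsAlgClosed K]

theorem pval_eq_sum {f : F} (hf : f ∈ LS O m) {P : Place K F} (hP : P ≠ O) :
    pval P f = ∑ i, coord O m f i * psi O m P i := by
  conv_lhs => rw [← sum_coord hf]
  rw [pval_sum fun i _ => (ordGE_of_mem (phi_mem i) hP).smul _]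
  exact Finset.sum_congr rfl fun i _ => pval_smul _ (ordGE_of_mem (phi_mem i) hP)

/-- A nonzero function of `L(m O)` is nonzero at all but finitely many points. -/
theorem finite_pval_eq_zero {f : F} (hf : f ∈ LS O m) (hf0 : f ≠ 0) :
    {P : Place K F | P = O ∨ pval P f = 0}.Finite := by
  refine ((Set.finite_singleton O).union (finite_ord_ne_zero (K := K) f)).subset fun P hP => ?_
  by_cases hPO : P = O
  · exact Or.inl hPO
  refine Or.inr ?_
  have h1 := (pval_eq_zero_iff (ordGE_of_mem hf hPO)).1 (hP.resolve_left hPO)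
  rw [ordGE_iff_le hf0] at h1
  show P.ord f ≠ 0
  omega

variable (O) in
/-- The value of an array at a tuple of places. -/
def evalT (m : ℕ) {n : ℕ} (c : (Fin n → Fin (lsDim O m)) → K) (P : Fin n → Place K F) : K :=
  ∑ J, c J * ∏ k, psi O m (P k) (J k)

theorem evalT_cons {n : ℕ} (c : (Fin (n + 1) → Fin (lsDim O m)) → K) (Q : Place K F)
    (P : Fin n → Place K F) :
    evalT O m c (Fin.cons Q P) =
      ∑ j, psi O m Q j * evalT O m (fun J => c (Fin.cons j J)) P := by
  rw [evalT, ← (Fin.consEquiv fun _ => Fin (lsDim O m)).sum_comp, Fintype.sum_prod_type]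
  refine Finset.sum_congr rfl fun j _ => ?_
  rw [evalT, Finset.mul_sum]
  refine Finset.sum_congr rfl fun J _ => ?_
  simp only [Fin.consEquiv, Equiv.coe_fn_mk, Fin.prod_univ_succ, Fin.cons_zero, Fin.cons_succ]
  ring

/-- Two nonzero arrays are simultaneously nonzero at a tuple avoiding a finite set. -/
theorem exists_evalT_ne_zero (S : Finset (Place K F)) :
    ∀ {n : ℕ} {c : (Fin n → Fin (lsDim O m)) → K} {c' : (Fin n → Fin (lsDim O m')) → K},
      c ≠ 0 → c' ≠ 0 → ∃ P : Fin n → Place K F, (∀ k, P k ∉ S ∧ P k ≠ O) ∧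
        evalT O m c P ≠ 0 ∧ evalT O m' c' P ≠ 0 := by
  classical
  have : Infinite (Place K F) := Jac.infinite_places
  intro n
  induction n with
  | zero =>
    intro c c' hc hc'
    refine ⟨Fin.elim0, fun k => k.elim0, ?_, ?_⟩
    · obtain ⟨J, hJ⟩ := Function.ne_iff.1 hc
      simpa [evalT, Subsingleton.elim _ J] using hJ
    · obtain ⟨J, hJ⟩ := Function.ne_iff.1 hc'
      simpa [evalT, Subsingleton.elim _ J] using hJ
  | succ n ih =>
    intro c c' hc hc'
    obtain ⟨J, hJ⟩ := Function.ne_iff.1 hc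
    obtain ⟨J', hJ'⟩ := Function.ne_iff.1 hc'
    have h1 : (fun L => c (Fin.cons (J 0) L)) ≠ 0 :=
      Function.ne_iff.2 ⟨Fin.tail J, by simpa [Fin.cons_self_tail] using hJ⟩
    have h2 : (fun L => c' (Fin.cons (J' 0) L)) ≠ 0 :=
      Function.ne_iff.2 ⟨Fin.tail J', by simpa [Fin.cons_self_tail] using hJ'⟩
    obtain ⟨P, hP, hPc, hPc'⟩ := ih h1 h2
    set a := fun j => evalT O m (fun L => c (Fin.cons j L)) P
    set a' := fun j => evalT O m' (fun L => c' (Fin.cons j L)) P
    have hf : ∀ {m : ℕ} {a : Fin (lsDim O m) → K}, a ≠ 0 → ∑ j, a j • phi O m j ≠ 0 := by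
      intro m a ha e
      exact ha (by rw [← coord_sum_smul a, e, coord_zero])
    have ha : a ≠ 0 := Function.ne_iff.2 ⟨J 0, hPc⟩
    have ha' : a' ≠ 0 := Function.ne_iff.2 ⟨J' 0, hPc'⟩
    obtain ⟨Q, hQ⟩ := Infinite.exists_notMem_finset (S ∪ {O} ∪
      (finite_pval_eq_zero (sum_smul_phi_mem a) (hf ha)).toFinset ∪
      (finite_pval_eq_zero (sum_smul_phi_mem a') (hf ha')).toFinset)
    simp only [Finset.mem_union, Finset.mem_singleton, Set.Finite.mem_toFinset,
      Set.mem_ofPred_eq, not_or] at hQ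
    obtain ⟨⟨⟨hQS, hQO⟩, -, hQa⟩, -, hQa'⟩ := hQ
    rw [pval_eq_sum (sum_smul_phi_mem a) hQO, coord_sum_smul] at hQa
    rw [pval_eq_sum (sum_smul_phi_mem a') hQO, coord_sum_smul] at hQa'
    refine ⟨Fin.cons Q P, fun k => Fin.cases ⟨hQS, hQO⟩ hP k, ?_, ?_⟩
    · rw [evalT_cons]; simpa [mul_comm, a] using hQa
    · rw [evalT_cons]; simpa [mul_comm, a'] using hQa'

theorem evalT_sub {n : ℕ} (c c' : (Fin n → Fin (lsDim O m)) → K) (P : Fin n → Place K F) :
    evalT O m (c - c') P = evalT O m c P - evalT O m c' P := by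
  simp [evalT, sub_mul, Finset.sum_sub_distrib]

theorem evalT_smul {n : ℕ} (a : K) (c : (Fin n → Fin (lsDim O m)) → K) (P : Fin n → Place K F) :
    evalT O m (a • c) P = a * evalT O m c P := by
  simp [evalT, Finset.mul_sum, mul_assoc]

/-- Arrays with the same values away from a finite set are equal. -/
theorem ext_evalT {n : ℕ} (S : Finset (Place K F)) {c c' : (Fin n → Fin (lsDim O m)) → K}
    (h : ∀ P : Fin n → Place K F, (∀ k, P k ∉ S ∧ P k ≠ O) → evalT O m c P = evalT O m c' P) :
    c = c' := by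
  by_contra hne
  obtain ⟨P, hP, h1, -⟩ := exists_evalT_ne_zero S (sub_ne_zero.2 hne) (sub_ne_zero.2 hne)
  exact h1 (by rw [evalT_sub, h P hP, sub_self])

variable (O)

/-- The function `∏ u(P k)`. -/
def powT (m n : ℕ) (u : F) : (Fin n → Fin (lsDim O m)) → K := fun J => ∏ k, coord O m u (J k)

/-- The function `det (b i (P k))`. -/
def detT (m : ℕ) {n : ℕ} (b : Fin n → F) : (Fin n → Fin (lsDim O m)) → K :=
  fun J => Matrix.det (Matrix.of fun i k => coord O m (b i) (J k))

variable {O}

theorem evalT_powT {n : ℕ} {u : F} (hu : u ∈ LS O m) {P : Fin n → Place K F}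
    (hP : ∀ k, P k ≠ O) : evalT O m (powT O m n u) P = ∏ k, pval (P k) u := by
  simp only [evalT, powT, ← Finset.prod_mul_distrib, pval_eq_sum hu (hP _), Fintype.prod_sum]

theorem evalT_detT {n : ℕ} {b : Fin n → F} (hb : ∀ i, b i ∈ LS O m) {P : Fin n → Place K F}
    (hP : ∀ k, P k ≠ O) :
    evalT O m (detT O m b) P = Matrix.det (Matrix.of fun i k => pval (P k) (b i)) := by
  simp only [evalT, detT, Matrix.det_apply', Matrix.of_apply, Finset.sum_mul]
  rw [Finset.sum_comm]
  refine Finset.sum_congr rfl fun σ _ => ?_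
  simp only [mul_assoc, ← Finset.prod_mul_distrib, ← Finset.mul_sum,
    pval_eq_sum (hb _) (hP _), Fintype.prod_sum]

omit [IsAlgClosed K] in
theorem powT_ne_zero {n : ℕ} {u : F} (hu : u ∈ LS O m) (hu0 : u ≠ 0) : powT O m n u ≠ 0 := by
  obtain ⟨i, hi⟩ := Function.ne_iff.1 (coord_ne_zero hu hu0)
  exact Function.ne_iff.2 ⟨fun _ => i, by simpa [powT] using pow_ne_zero n hi⟩

variable (O)

/-- Multiplication of arrays. -/
def mulT (m m' n : ℕ) : ((Fin n → Fin (lsDim O m)) → K) →ₗ[K]
    ((Fin n → Fin (lsDim O m')) → K) →ₗ[K] ((Fin n → Fin (lsDim O (m + m'))) → K) :=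
  LinearMap.mk₂ K (fun c c' L => ∑ J, ∑ J', c J * c' J' *
      ∏ k, coord O (m + m') (phi O m (J k) * phi O m' (J' k)) (L k))
    (fun a a' c => funext fun L => by simp [add_mul, Finset.sum_add_distrib])
    (fun r a c => funext fun L => by simp [Finset.mul_sum, mul_assoc])
    (fun a c c' => funext fun L => by simp [mul_add, add_mul, Finset.sum_add_distrib])
    (fun r a c => funext fun L => by
      simp only [Pi.smul_apply, smul_eq_mul, Finset.mul_sum]
      exact Finset.sum_congr rfl fun J _ => Finset.sum_congr rfl fun J' _ => by ring)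

variable {O}

theorem evalT_mulT {n : ℕ} (c : (Fin n → Fin (lsDim O m)) → K)
    (c' : (Fin n → Fin (lsDim O m')) → K) {P : Fin n → Place K F} (hP : ∀ k, P k ≠ O) :
    evalT O (m + m') (mulT O m m' n c c') P = evalT O m c P * evalT O m' c' P := by
  simp only [evalT, mulT, LinearMap.mk₂_apply, Finset.sum_mul, Finset.mul_sum]
  rw [Finset.sum_comm]
  conv_rhs => rw [Finset.sum_comm]
  refine Finset.sum_congr rfl fun J _ => ?_
  rw [Finset.sum_comm]
  refine Finset.sum_congr rfl fun J' _ => ?_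
  have h : ∀ k, psi O m (P k) (J k) * psi O m' (P k) (J' k) =
      ∑ l, coord O (m + m') (phi O m (J k) * phi O m' (J' k)) l * psi O (m + m') (P k) l := by
    intro k
    rw [← pval_eq_sum (mul_mem_LS (phi_mem _) (phi_mem _)) (hP k),
      pval_mul (ordGE_of_mem (phi_mem _) (hP k)) (ordGE_of_mem (phi_mem _) (hP k))]
    rfl
  simp only [mul_assoc, ← Finset.mul_sum, ← Finset.prod_mul_distrib]
  rw [← Fintype.prod_sum fun k l =>
      coord O (m + m') (phi O m (J k) * phi O m' (J' k)) l * psi O (m + m') (P k) l,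
    ← Finset.prod_congr rfl fun k _ => h k, Finset.prod_mul_distrib]
  ring

/-- The arrays have no zero divisors. -/
theorem mulT_eq_zero {n : ℕ} {c : (Fin n → Fin (lsDim O m)) → K}
    {c' : (Fin n → Fin (lsDim O m')) → K} (h : mulT O m m' n c c' = 0) : c = 0 ∨ c' = 0 := by
  by_contra hne
  push Not at hne
  obtain ⟨P, hP, h1, h2⟩ := exists_evalT_ne_zero ∅ hne.1 hne.2
  have h3 := evalT_mulT c c' fun k => (hP k).2
  rw [h] at h3
  exact mul_ne_zero h1 h2 (by simpa [evalT] using h3.symm)

end FermatAgent.MW
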