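import Fermat.Agent.Flat.ModularCoords

/-!
# Prime-to-`ℓ` division points of rational classes are unramified at a good prime `ℓ`
-/

set_option autoImplicit false

open AlgebraicCurve FermatAgent.Curve FermatAgent.GaloisBasic
open ModularCurve (JZero coeffMap modularFunctionFieldBar modularFunctionFieldFull
  modularFunctionFieldFullC arithmeticGalois)
open SemilinearAut (baseAut)

attribute [local instance 10000] SubalgebraClass.toAlgebra
attribute [-instance] IsScalarTower.of_algHom RingHom.Finite.instFinite

noncomputable section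

namespace FermatAgent.MW

open FermatAgent.Flat

variable {ℓ : ℕ} [hℓ : Fact ℓ.Prime] {A : ValuationSubring Qbar} {N : ℕ} [NeZero N]

/-- Inertia at a prime of good reduction moves no place out of its residual class. -/
theorem exists_constRed_inertia (hA : A.LiesOverPrime ℓ) (hN : ¬ ℓ ∣ N)
    [IsFF Qbar (modularFunctionFieldBar N)]
    [IsFF (IsLocalRing.ResidueField A) (modularFunctionFieldFullC (IsLocalRing.ResidueField A) N)] :
    ∃ S : ConstRed A (IsLocalRing.residue A) (modularFunctionFieldBar N)
        (modularFunctionFieldFullC (IsLocalRing.ResidueField A) N),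
      rGenus Qbar (modularFunctionFieldBar N) ≤ rGenus (IsLocalRing.ResidueField A)
          (modularFunctionFieldFullC (IsLocalRing.ResidueField A) N) ∧
      ∀ σ ∈ A.inertiaSubgroupIn ℚ, ∀ v : Place Qbar (modularFunctionFieldBar N),
        S.r (arithmeticGalois (modularFunctionFieldFull N) σ • v) = S.r v := by
  have := isAlgClosed_residueField A
  obtain ⟨S, Θ, x, hx, hB, hBdeg, hser, hgen⟩ := exists_constRed_coef hA hN
    (modularFunctionFieldBar N) (modularFunctionFieldBar_eq_jField N)
  refine ⟨S, hgen, fun σ hσ v => ?_⟩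
  have hcomp : Compatible Θ (arithmeticGalois (modularFunctionFieldFull N) σ) := fun e f => by
    show (Θ.ser (arithmeticGalois (modularFunctionFieldFull N) σ • f)).coeff e =
      σ ((Θ.ser f).coeff e)
    rw [hser, hser, ModularCurve.coe_arithmeticGalois_smul, ModularCurve.coeffMap_coeff]
    rfl
  have hdec := inertiaSubgroupIn_le_decompositionSubgroup A hσ
  refine r_smul_eq hcomp (fun a => Mazur.map_mem_of_mem_decomposition hdec a.2) ?_ ?_ hgen hBdeg v
  · rw [hB, smul_poleDivisor]
    congr 1
    refine Subtype.ext ?_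
    rw [ModularCurve.coe_arithmeticGalois_smul, hx, ModularCurve.coeffMap_jqModC]
  · intro a h
    rw [← sub_eq_zero, ← map_sub, IsLocalRing.residue_eq_zero_iff, IsLocalRing.mem_maximalIdeal]
    exact (A.valuation_lt_one_iff _).mpr (Mazur.valuation_map_sub_lt_one hℓ.out hA hσ
      ((A.valuation_le_one_iff _).mpr a.2))

/-- A class with an inertia-invariant multiple prime to the residue characteristic is invariant
under inertia at a prime of good reduction. -/
theorem inertia_smul_eq_of_nsmul (hA : A.LiesOverPrime ℓ) (hN : ¬ ℓ ∣ N) {m : ℕ} (hm : ¬ ℓ ∣ m)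
    {σ : GQ} (hσ : σ ∈ A.inertiaSubgroupIn ℚ) {y : JZero N} (hy : σ • (m • y) = m • y) :
    σ • y = y := by
  have := Curve.Red.isFF_bar N
  have := isAlgClosed_residueField A
  have := Red.isFF_fullC hA (N := N) hN
  obtain ⟨S, hgen, hr⟩ := exists_constRed_inertia hA hN
  obtain ⟨D, rfl⟩ := Pic0.mk_surjective y
  set g := arithmeticGalois (modularFunctionFieldFull N) σ
  have hsmul : σ • Pic0.mk D = Pic0.mk (SemilinearAut.degZeroSMulHom g D) := by
    rw [ModularCurve.galois_smul_pic0_def, SemilinearAut.pic0_smul_mk]
  set E := SemilinearAut.degZeroSMulHom g D - D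
  have hz : m • Pic0.mk E = 0 := by
    have e : Pic0.mk E = σ • Pic0.mk D - Pic0.mk D := by
      rw [hsmul]; exact QuotientAddGroup.mk_sub _ _ _
    rw [e, nsmul_sub, sub_eq_zero]
    exact ((DistribSMul.toAddMonoidHom (JZero N) σ).map_nsmul m (Pic0.mk D)).symm.trans hy
  have hE : (E : Divisor Qbar (modularFunctionFieldBar N)) =
      g • (D : Divisor Qbar (modularFunctionFieldBar N)) - D := by
    rw [AddSubgroupClass.coe_sub, SemilinearAut.coe_degZeroSMulHom]
  have hred : Finsupp.mapDomain S.r (E : Divisor Qbar (modularFunctionFieldBar N)) =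
      divisorOf (1 : modularFunctionFieldFullC (IsLocalRing.ResidueField A) N) := by
    rw [hE, Finsupp.mapDomain_sub, SemilinearAut.divisor_smul_def, ← Finsupp.mapDomain_comp,
      show S.r ∘ (g • ·) = S.r from funext (hr σ hσ), sub_self]
    exact Finsupp.ext fun v => by simp [divisorOf_apply]
  have h0 := Red.mk_eq_zero_of_reduction hA S hgen hm hz one_ne_zero hred
  rw [hsmul, ← sub_eq_zero]
  exact (QuotientAddGroup.mk_sub _ _ _).symm.trans h0

end FermatAgent.MW
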