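import Fermat.Agent.MW.Unramified
import Fermat.Agent.Flat.ModularTorsion
import Fermat.Agent.Lifting.Finite

/-!
# The weak Mordell–Weil theorem for `J₀(N)` over `ℚ`

If multiplication by two is surjective on the geometric classes, the Galois invariant classes
modulo two form a finite group: the cocycle of a half of an invariant class is unramified outside
`2N`, and there are finitely many such cocycles with values in the two-torsion.
-/

set_option autoImplicit false

open FermatAgent.CFT FermatAgent.CFT.Coh FermatAgent.CFT.Global FermatAgent.GaloisBasic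
open FermatAgent.Flat ModularCurve

noncomputable section

namespace FermatAgent.MW

variable {N : ℕ} [NeZero N]

/-- The fixed group of the Galois action on classes. -/
abbrev ratClasses (N : ℕ) : AddSubgroup (JZero N) :=
  FixedPoints.addSubgroup (AlgebraicClosure ℚ ≃ₐ[ℚ] AlgebraicClosure ℚ) (JZero N)

omit [NeZero N] in
lemma smul_nsmul_class (σ : GQ) (n : ℕ) (x : JZero N) : σ • (n • x) = n • (σ • x) :=
  (DistribSMul.toAddMonoidHom (JZero N) σ).map_nsmul n x

/-- A half of an invariant class is fixed by a level unramified outside a set containing `2N`. -/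
theorem exists_level_fixing {S : Finset Nat.Primes}
    (hS : ∀ q : Nat.Primes, (q : ℕ) ∣ 2 * N → q ∈ S) (y : JZero N)
    (hy : ∀ σ : GQ, σ • (2 • y) = 2 • y) :
    ∃ V ∈ LS S, ∀ σ ∈ V, σ • y = y := by
  have := Curve.Red.isFF_bar N
  obtain ⟨L, hL, hLy⟩ := smallFixed_class (modularFunctionFieldFull N) y
  have := hL
  set V := MulAction.stabilizer GQ y
  have hVQ : V ∈ (LQ : Levels GQ) := ⟨L, inferInstance, fun σ hσ => hLy σ hσ⟩
  have hfix := CFT.fixingSubgroup_fixedField_of_mem hVQ
  refine ⟨V, ⟨IntermediateField.fixedField V, ⟨?_, fun q hq A hA σ hσ => ?_⟩, hfix.le⟩,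
    fun σ hσ => hσ⟩
  · have hle : IntermediateField.fixedField V ≤ L := by
      rw [← InfiniteGalois.fixedField_fixingSubgroup L]
      exact IntermediateField.fixedField_antitone fun σ hσ => hLy σ hσ
    exact Module.Finite.of_injective (IntermediateField.inclusion hle).toLinearMap
      (IntermediateField.inclusion hle).injective
  · rw [hfix]
    have : Fact (q : ℕ).Prime := ⟨q.2⟩
    exact inertia_smul_eq_of_nsmul hA (fun h => hq (hS q (h.mul_left 2))) (m := 2)
      (fun h => hq (hS q (h.mul_right N))) hσ (hy σ)

/-- **Weak Mordell–Weil**: the invariant classes modulo two are finite in number if every class is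
twice another one. -/
theorem finiteIndex_range_two (N : ℕ) [NeZero N]
    (hdiv : ∀ x : JZero N, ∃ y : JZero N, 2 • y = x) :
    (nsmulAddMonoidHom (α := ratClasses N) 2).range.FiniteIndex := by
  have : Fact (Nat.Prime 2) := ⟨Nat.prime_two⟩
  set M := ↥(Submodule.torsionBy ℤ (JZero N) 2)
  let : DistribMulAction GQ M := torsionAction N _
  have := finite_jZero_torsion N (n := 2) two_pos
  have : Finite M := Finite.of_injective (β := {c : JZero N // 2 • c = 0})
    (fun x => ⟨x.1, by
      rw [← natCast_zsmul]
      exact (Submodule.mem_torsionBy_iff (2 : ℤ) (x.1 : JZero N)).1 x.2⟩)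
    fun x y h => Subtype.ext (congrArg (fun c : {c : JZero N // 2 • c = 0} => c.1) h)
  have := Curve.Red.isFF_bar N
  obtain ⟨L, hL, hLM⟩ := SmallFixed.forall_finite
    fun m : M => smallFixed_class (modularFunctionFieldFull N) (m : JZero N)
  have := hL
  obtain ⟨K, hK', S, hLK, hζ, hS, hpS, hK, hgen⟩ := Lifting.exists_setting_field (p := 2) L
    ((2 * N).divisors.subtype Nat.Prime)
  have := hK'
  have := Euler.finite_Z1 hpS hK hζ hgen (M := M)
    (fun g hg m => Subtype.ext (hLM g (IntermediateField.fixingSubgroup_antitone hLK hg) m))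
    (fun m => Subtype.ext (by
      show 2 • (m : JZero N) = 0
      rw [← natCast_zsmul]
      exact (Submodule.mem_torsionBy_iff (2 : ℤ) (m : JZero N)).1 m.2))
  choose half hhalf using hdiv
  have hfixed : ∀ (x : ratClasses N) (σ : GQ), σ • (2 • half x) = 2 • half x := fun x σ => by
    rw [hhalf]; exact x.2 σ
  let c : ratClasses N → ↥((LS S).Z1 ⊤ M) := fun x => ⟨fun g => ⟨g • half x - half x, by
      rw [Submodule.mem_torsionBy_iff]
      show ((2 : ℕ) : ℤ) • (g • half (x : JZero N) - half (x : JZero N)) = 0
      rw [natCast_zsmul, nsmul_sub, ← smul_nsmul_class, hfixed, sub_self]⟩, by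
    refine ⟨?_, fun g _ h _ => Subtype.ext ?_⟩
    · obtain ⟨V, hV, hfix⟩ := exists_level_fixing (S := S)
        (fun q hq => hS (Finset.mem_subtype.mpr (Nat.mem_divisors.mpr
          ⟨hq, Nat.mul_ne_zero two_ne_zero (NeZero.ne N)⟩))) (half x) (hfixed x)
      exact ⟨V, hV, fun g _ s hs => Subtype.ext (by
        show (g * s) • half (x : JZero N) - half (x : JZero N) =
          g • half (x : JZero N) - half (x : JZero N)
        rw [mul_smul, hfix s hs.2])⟩
    · show g • (h • half (x : JZero N) - half (x : JZero N)) -
        ((g * h) • half (x : JZero N) - half (x : JZero N)) +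
          (g • half (x : JZero N) - half (x : JZero N)) = 0
      rw [smul_sub, mul_smul]
      abel⟩
  set H := (nsmulAddMonoidHom (α := ratClasses N) 2).range
  have : Finite (ratClasses N ⧸ H) := by
    refine Finite.of_injective (fun q : ratClasses N ⧸ H => c q.out) fun q q' h => ?_
    rw [← QuotientAddGroup.out_eq' q, ← QuotientAddGroup.out_eq' q', QuotientAddGroup.eq]
    refine ⟨⟨half (q'.out : JZero N) - half (q.out : JZero N), fun σ => ?_⟩, Subtype.ext ?_⟩
    · have e : σ • half (q.out : JZero N) - half (q.out : JZero N) =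
          σ • half (q'.out : JZero N) - half (q'.out : JZero N) :=
        congrArg Subtype.val (congrFun (congrArg Subtype.val h) σ)
      rw [smul_sub, sub_eq_sub_iff_sub_eq_sub]
      exact e.symm
    · show 2 • (half (q'.out : JZero N) - half (q.out : JZero N)) =
        -(q.out : JZero N) + (q'.out : JZero N)
      rw [nsmul_sub, hhalf, hhalf]
      abel
  exact AddSubgroup.finiteIndex_of_finite_quotient

end FermatAgent.MW
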